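import Fermat.Agent.Corollaries.K4S.Span

/-!
# The second coefficient of the eigenforms of level `11`, `15`, `17`, `21`, `33`

The method of `K4S/Span.lean`: the forms of the elliptic curves of conductor `11`, `15`, `17`, `21`, `33` and, at level
`33`, the two forms `g(z)`, `g(3 z)` coming from level `11` are bases of the spaces of cusp forms of weight two, so the
eigenvalues of `T₂` are `-2`, `-1`, `-1`, `-1` and `1`, `-2`.
-/

set_option autoImplicit false

open CuspForm ModularFormClass CongruenceSubgroup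
open FermatAgent.HeckeEigen Fermat.Agent.Oldforms
open Fermat.Agent.Cor.InvGal Fermat.Agent.Cor.K4S

namespace Fermat.Agent.Cor.MO

/-- the prime `2` -/
abbrev P2 : Nat.Primes := ⟨2, Nat.prime_two⟩

variable {M : ℕ} [NeZero M]

theorem hecke2 {f : CuspForm (Gamma0 M) 2} (hf : f.IsNormalizedEigenform) :
    heckeOp M 2 P2 f = qCoeff ⇑f 2 • f :=
  heckeOp_eq_of_isNormalizedEigenform hf P2

/-- the second coefficient is one of the eigenvalues of a basis -/
theorem coeff_two_mem {n : ℕ} {v : Fin n → CuspForm (Gamma0 M) 2} {c : Fin n → ℂ}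
    (hv : ∀ i, heckeOp M 2 P2 (v i) = c i • v i) (hli : LinearIndependent ℂ v)
    (hn : genus12 M = 12 * n) (hn0 : n ≠ 0) {f : CuspForm (Gamma0 M) 2}
    (hf : f.IsNormalizedEigenform) : ∃ i, qCoeff ⇑f 2 = c i :=
  eigenvalue_mem hv hli ((finrank_eq_iff M n).mpr hn) hn0 hf.ne_zero (hecke2 hf)

theorem coeff_two_one {g f : CuspForm (Gamma0 M) 2} (hg : g.IsNormalizedEigenform)
    (hn : genus12 M = 12) (hf : f.IsNormalizedEigenform) : qCoeff ⇑f 2 = qCoeff ⇑g 2 := by
  obtain ⟨i, hi⟩ := coeff_two_mem (n := 1) (v := ![g]) (c := ![qCoeff ⇑g 2])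
    (fun i => by fin_cases i; exact hecke2 hg)
    (LinearIndependent.of_subsingleton 0 hg.ne_zero) (by rw [hn]; norm_num) one_ne_zero hf
  fin_cases i
  exact hi

/-- the form of level `11` -/
theorem form11_two : ∃ g : CuspForm (Gamma0 11) 2, g.IsNormalizedEigenform ∧
    qCoeff ⇑g 2 = -2 := by
  obtain ⟨g, hg, h⟩ := exists_form_of_curve (W := ⟨0, -1, 1, 0, 0⟩) (M := 11) (k := 1)
    (by decide +kernel) (by decide) (by decide) (by decide) (by decide)
  refine ⟨g, hg, ?_⟩
  rw [h 2 Nat.prime_two (by decide), show cnt ⟨0, -1, 1, 0, 0⟩ 2 = 4 by decide +kernel]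
  norm_num

/-- the form of level `15` -/
theorem form15_two : ∃ g : CuspForm (Gamma0 15) 2, g.IsNormalizedEigenform ∧
    qCoeff ⇑g 2 = -1 := by
  obtain ⟨g, hg, h⟩ := exists_form_of_curve (W := ⟨1, 1, 1, 0, 0⟩) (M := 15) (k := 1)
    (by decide +kernel) (by decide) (by decide) (by decide) (by decide)
  refine ⟨g, hg, ?_⟩
  rw [h 2 Nat.prime_two (by decide), show cnt ⟨1, 1, 1, 0, 0⟩ 2 = 3 by decide +kernel]
  norm_num

/-- the form of level `17` -/
theorem form17_two : ∃ g : CuspForm (Gamma0 17) 2, g.IsNormalizedEigenform ∧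
    qCoeff ⇑g 2 = -1 := by
  obtain ⟨g, hg, h⟩ := exists_form_of_curve (W := ⟨1, -1, 1, -1, 0⟩) (M := 17) (k := 1)
    (by decide +kernel) (by decide) (by decide) (by decide) (by decide)
  refine ⟨g, hg, ?_⟩
  rw [h 2 Nat.prime_two (by decide), show cnt ⟨1, -1, 1, -1, 0⟩ 2 = 3 by decide +kernel]
  norm_num

/-- the form of level `21` -/
theorem form21_two : ∃ g : CuspForm (Gamma0 21) 2, g.IsNormalizedEigenform ∧
    qCoeff ⇑g 2 = -1 := by
  obtain ⟨g, hg, h⟩ := exists_form_of_curve (W := ⟨1, 0, 0, 1, 0⟩) (M := 21) (k := 2)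
    (by decide +kernel) (by decide) (by decide) (by decide) (by decide)
  refine ⟨g, hg, ?_⟩
  rw [h 2 Nat.prime_two (by decide), show cnt ⟨1, 0, 0, 1, 0⟩ 2 = 3 by decide +kernel]
  norm_num

/-- the form of the elliptic curve of conductor `33` -/
theorem form33_two : ∃ g : CuspForm (Gamma0 33) 2, g.IsNormalizedEigenform ∧
    qCoeff ⇑g 2 = 1 := by
  obtain ⟨g, hg, h⟩ := exists_form_of_curve (W := ⟨1, 1, 0, -11, 0⟩) (M := 33) (k := 6)
    (by decide +kernel) (by decide) (by decide) (by decide) (by decide)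
  refine ⟨g, hg, ?_⟩
  rw [h 2 Nat.prime_two (by decide), show cnt ⟨1, 1, 0, -11, 0⟩ 2 = 1 by decide +kernel]
  norm_num

theorem coeff_two_11 {f : CuspForm (Gamma0 11) 2} (hf : f.IsNormalizedEigenform) :
    qCoeff ⇑f 2 = -2 := by
  obtain ⟨g, hg, h⟩ := form11_two
  rw [coeff_two_one hg (by decide +kernel) hf, h]

theorem coeff_two_15 {f : CuspForm (Gamma0 15) 2} (hf : f.IsNormalizedEigenform) :
    qCoeff ⇑f 2 = -1 := by
  obtain ⟨g, hg, h⟩ := form15_two
  rw [coeff_two_one hg (by decide +kernel) hf, h]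

theorem coeff_two_17 {f : CuspForm (Gamma0 17) 2} (hf : f.IsNormalizedEigenform) :
    qCoeff ⇑f 2 = -1 := by
  obtain ⟨g, hg, h⟩ := form17_two
  rw [coeff_two_one hg (by decide +kernel) hf, h]

theorem coeff_two_21 {f : CuspForm (Gamma0 21) 2} (hf : f.IsNormalizedEigenform) :
    qCoeff ⇑f 2 = -1 := by
  obtain ⟨g, hg, h⟩ := form21_two
  rw [coeff_two_one hg (by decide +kernel) hf, h]

/-- the form `g(z)` of level `3 L` -/
theorem hecke2_restr {L : ℕ} [NeZero L] (hM : M = 3 * L) {g : CuspForm (Gamma0 L) 2}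
    (hg : g.IsNormalizedEigenform) (h : L ∣ M) :
    heckeOp M 2 P2 (restr M h 2 g) = qCoeff ⇑g 2 • restr M h 2 g := by
  rw [heckeOp_restr h P2, hecke2 hg, map_smul]
  intro h3
  rw [hM] at h3
  exact (Nat.Coprime.dvd_of_dvd_mul_left (by decide : Nat.Coprime 2 3) h3)

/-- the form `g(3 z)` of level `3 L` -/
theorem hecke2_V {L : ℕ} [NeZero L] (hM : M = 3 * L) {g : CuspForm (Gamma0 L) 2}
    (hg : g.IsNormalizedEigenform) :
    heckeOp M 2 P2 (V 2 three_ne_zero hM g) = qCoeff ⇑g 2 • V 2 three_ne_zero hM g := by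
  have h := heckeOp_V 2 Nat.prime_three hM P2 (by decide) g
  rw [hecke2 hg, map_smul] at h
  exact h

theorem coeff_two_33 {f : CuspForm (Gamma0 33) 2} (hf : f.IsNormalizedEigenform) :
    qCoeff ⇑f 2 = -2 ∨ qCoeff ⇑f 2 = 1 := by
  obtain ⟨g, hg, hg2⟩ := form11_two
  obtain ⟨a, ha, ha2⟩ := form33_two
  have hd : 11 ∣ 33 := by decide
  have hM : 33 = 3 * 11 := rfl
  obtain ⟨i, hi⟩ := coeff_two_mem (n := 3) (v := ![restr 33 hd 2 g, V 2 three_ne_zero hM g, a])
    (c := ![-2, -2, 1])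
    (fun i => by
      fin_cases i
      · exact (hecke2_restr hM hg hd).trans (by rw [hg2]; rfl)
      · exact (hecke2_V hM hg).trans (by rw [hg2]; rfl)
      · exact (hecke2 ha).trans (by rw [ha2]; rfl))
    (by
      rw [Fintype.linearIndependent_iff]
      intro c h
      rw [Fin.sum_univ_three] at h
      have h1 := congrArg (fun F : CuspForm (Gamma0 33) 2 => qCoeff ⇑F 1) h
      have h2 := congrArg (fun F : CuspForm (Gamma0 33) 2 => qCoeff ⇑F 2) h
      have h3 := congrArg (fun F : CuspForm (Gamma0 33) 2 => qCoeff ⇑F 3) h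
      simp only [Matrix.cons_val_zero, Matrix.cons_val_one, Matrix.cons_val, qCoeff_add,
        qCoeff_smul, coe_restr, qCoeff_V, hg.qCoeff_one, ha.qCoeff_one, hg2, ha2,
        qCoeff_zero] at h1 h2 h3
      norm_num [hg.qCoeff_one] at h1 h2 h3
      have e0 : c 0 = 0 := by linear_combination (1 / 3 : ℂ) * (h1 - h2)
      have e2 : c 2 = 0 := by linear_combination h1 - e0
      rw [e0, e2] at h3
      intro i
      fin_cases i
      · exact e0
      · simpa using h3
      · exact e2)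
    (by decide +kernel) three_ne_zero hf
  fin_cases i
  · exact Or.inl hi
  · exact Or.inl hi
  · exact Or.inr hi

end Fermat.Agent.Cor.MO
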