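import Mathlib

/-!
# There is no cubic field of discriminant of absolute value at most `4`

`no_cubic`: if `f = a X³ + b X² + c X + d` has integral coefficients, `a ≠ 0`, no rational root and
discriminant `≠ 0`, then the discriminant is of absolute value greater than `4`.

Proof: let `θ` be a root of `f` in the cubic field `K = ℚ[X]/f`. Then `1, aθ, aθ² + bθ` are
algebraic integers and the discriminant of this triple is the discriminant of `f`; so it is a
multiple of the discriminant of `K`, which is of absolute value `≥ (4/9) (3π/4)³ > 5` by Minkowski.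
-/

set_option autoImplicit false

open Polynomial NumberField Module

namespace Fermat.Agent.Cor.MO

/-! ### The discriminant of a system of algebraic integers -/

/-- The discriminant of `n` algebraic integers of a field of degree `n`, if it is not zero, is at
least the discriminant of the field. -/
theorem abs_discr_le {K : Type*} [Field K] [NumberField K] {n : ℕ} (hn : finrank ℚ K = n)
    (w : Fin n → 𝓞 K) (h : Algebra.discr ℤ w ≠ 0) : |discr K| ≤ |Algebra.discr ℤ w| := by
  have hcard : Fintype.card (Free.ChooseBasisIndex ℤ (𝓞 K)) = n := by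
    rw [← hn, ← RingOfIntegers.rank K, finrank_eq_card_chooseBasisIndex]
  set b : Basis (Fin n) ℤ (𝓞 K) :=
    (RingOfIntegers.basis K).reindex (Fintype.equivFinOfCardEq hcard) with hb
  let P : Matrix (Fin n) (Fin n) ℤ := fun i j => b.repr (w i) j
  have hw : w = (P.map (algebraMap ℤ (𝓞 K))).mulVec b := by
    funext i
    rw [Matrix.mulVec, dotProduct]
    conv_lhs => rw [← b.sum_repr (w i)]
    exact Finset.sum_congr rfl fun j _ => by rw [Algebra.smul_def]; rfl
  have h1 : Algebra.discr ℤ w = P.det ^ 2 * discr K := by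
    conv_lhs => rw [hw]
    rw [Algebra.discr_of_matrix_mulVec, NumberField.discr_eq_discr K b]
  have hP : P.det ≠ 0 := by
    intro h0
    rw [h1, h0] at h
    exact h (by ring)
  have hP2 : 1 ≤ P.det ^ 2 := by
    have := sq_pos_of_ne_zero hP
    omega
  rw [h1, abs_mul, abs_of_nonneg (sq_nonneg P.det)]
  nlinarith [abs_nonneg (discr K)]

/-! ### The trace in a cubic extension -/

section trace

variable {F L : Type*} [Field F] [CommRing L] [Algebra F L] {θ : L} {p q r : F}

/-- The traces of `θ` and `θ²` in a cubic extension. -/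
theorem trace_cubic (B : Basis (Fin 3) F L) (h0 : B 0 = 1) (h1 : B 1 = θ) (h2 : B 2 = θ ^ 2)
    (h : θ ^ 3 = -(p • θ ^ 2 + q • θ + r • 1)) :
    Algebra.trace F L θ = -p ∧ Algebra.trace F L (θ ^ 2) = p ^ 2 - 2 * q := by
  have e3 : θ ^ 3 = -(p • B 2 + q • B 1 + r • B 0) := by rw [h, h0, h1, h2]
  have e4 : θ ^ 4 = (p ^ 2 - q) • B 2 + (p * q - r) • B 1 + (p * r) • B 0 := by
    have h4 : θ ^ 4 = θ * θ ^ 3 := by ring
    have h5 : θ * θ ^ 3 = -(p • θ ^ 3 + q • θ ^ 2 + r • θ) := by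
      conv_lhs => rw [h]
      simp only [Algebra.smul_def]
      ring
    rw [h4, h5, h, h0, h1, h2]
    simp only [Algebra.smul_def, map_sub, map_mul, map_pow]
    ring
  constructor
  · rw [Algebra.trace_eq_matrix_trace B, Matrix.trace_fin_three,
      Algebra.leftMulMatrix_eq_repr_mul, Algebra.leftMulMatrix_eq_repr_mul,
      Algebra.leftMulMatrix_eq_repr_mul]
    have a0 : θ * B 0 = B 1 := by rw [h0, h1, mul_one]
    have a1 : θ * B 1 = B 2 := by rw [h1, h2, sq]
    have a2 : θ * B 2 = -(p • B 2 + q • B 1 + r • B 0) := by rw [← e3, h2]; ring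
    rw [a0, a1, a2]
    simp
  · rw [Algebra.trace_eq_matrix_trace B, Matrix.trace_fin_three,
      Algebra.leftMulMatrix_eq_repr_mul, Algebra.leftMulMatrix_eq_repr_mul,
      Algebra.leftMulMatrix_eq_repr_mul]
    have a0 : θ ^ 2 * B 0 = B 2 := by rw [h0, h2, mul_one]
    have a1 : θ ^ 2 * B 1 = -(p • B 2 + q • B 1 + r • B 0) := by rw [← e3, h1]; ring
    have a2 : θ ^ 2 * B 2 = (p ^ 2 - q) • B 2 + (p * q - r) • B 1 + (p * r) • B 0 := by
      rw [← e4, h2]; ring
    rw [a0, a1, a2]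
    simp
    ring

end trace

/-! ### The cubic field -/

theorem four_lt_of_field {K : Type*} [Field K] [NumberField K] (hrank : finrank ℚ K = 3) {θ : K}
    (B : Basis (Fin 3) ℚ K) (hB0 : B 0 = 1) (hB1 : B 1 = θ) (hB2 : B 2 = θ ^ 2) {a b c d : ℤ}
    (ha : a ≠ 0) (hF : (a : K) * θ ^ 3 + b * θ ^ 2 + c * θ + d = 0)
    (h0 : b ^ 2 * c ^ 2 - 4 * a * c ^ 3 - 4 * b ^ 3 * d - 27 * a ^ 2 * d ^ 2 +
      18 * a * b * c * d ≠ 0) :
    4 < |b ^ 2 * c ^ 2 - 4 * a * c ^ 3 - 4 * b ^ 3 * d - 27 * a ^ 2 * d ^ 2 +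
      18 * a * b * c * d| := by
  have haQ : (a : ℚ) ≠ 0 := by exact_mod_cast ha
  have haK : (a : K) ≠ 0 := by exact_mod_cast ha
  have hcube : θ ^ 3 = -((b / a : ℚ) • θ ^ 2 + (c / a : ℚ) • θ + (d / a : ℚ) • (1 : K)) := by
    simp only [Algebra.smul_def, map_div₀, map_intCast]
    field_simp
    linear_combination hF
  obtain ⟨ht1, ht2⟩ := trace_cubic B hB0 hB1 hB2 hcube
  -- the algebraic integers `aθ` and `aθ² + bθ`
  have hi1 : IsIntegral ℤ ((a : K) * θ) := by
    refine ⟨X ^ 3 + C b * X ^ 2 + C (a * c) * X + C (a ^ 2 * d), ?_, ?_⟩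
    · monicity!
    · simp only [eval₂_add, eval₂_mul, eval₂_pow, eval₂_X, eval₂_C]
      simp only [eq_intCast, Int.cast_mul, Int.cast_pow]
      linear_combination (a : K) ^ 2 * hF
  have hi2 : IsIntegral ℤ ((a : K) * θ ^ 2 + b * θ) := by
    have h1 : IsIntegral ℤ ((a : K) * θ ^ 2 + b * θ + c) := by
      refine ⟨X ^ 3 + C (-c) * X ^ 2 + C (b * d) * X + C (-(a * d ^ 2)), ?_, ?_⟩
      · monicity!
      · simp only [eval₂_add, eval₂_mul, eval₂_pow, eval₂_X, eval₂_C]
        simp only [eq_intCast, Int.cast_mul, Int.cast_pow, Int.cast_neg]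
        linear_combination ((a : K) * ((a : K) * θ ^ 3 + b * θ ^ 2 + c * θ + d - 2 * d) +
          b * ((a : K) * θ ^ 2 + b * θ + c)) * hF
    have h2 : (a : K) * θ ^ 2 + b * θ = ((a : K) * θ ^ 2 + b * θ + c) - ((c : ℤ) : K) := by ring
    rw [h2]
    exact h1.sub (isIntegral_algebraMap (R := ℤ) (x := c))
  let w : Fin 3 → 𝓞 K := ![1, ⟨_, hi1⟩, ⟨_, hi2⟩]
  -- the traces
  have T0 : Algebra.trace ℚ K 1 = 3 := by
    rw [← map_one (algebraMap ℚ K), Algebra.trace_algebraMap, hrank]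
    norm_num
  have T1 : Algebra.trace ℚ K ((a : K) * θ) = -b := by
    have h1 : (a : K) * θ = (a : ℚ) • θ := by rw [Algebra.smul_def, map_intCast]
    rw [h1, map_smul, ht1, smul_eq_mul]
    field_simp
  have T2 : Algebra.trace ℚ K ((a : K) * θ ^ 2 + b * θ) = -2 * c := by
    have h1 : (a : K) * θ ^ 2 + b * θ = (a : ℚ) • θ ^ 2 + (b : ℚ) • θ := by
      rw [Algebra.smul_def, Algebra.smul_def, map_intCast, map_intCast]
    rw [h1, map_add, map_smul, map_smul, ht1, ht2, smul_eq_mul, smul_eq_mul]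
    field_simp
    ring
  have lin : ∀ x y z : ℤ, Algebra.trace ℚ K ((x : K) * 1 + y * ((a : K) * θ) +
      z * ((a : K) * θ ^ 2 + b * θ)) = x * 3 - y * b - z * (2 * c) := by
    intro x y z
    have h1 : (x : K) * 1 + y * ((a : K) * θ) + z * ((a : K) * θ ^ 2 + b * θ) =
        (x : ℚ) • (1 : K) + (y : ℚ) • ((a : K) * θ) + (z : ℚ) • ((a : K) * θ ^ 2 + b * θ) := by
      rw [Algebra.smul_def, Algebra.smul_def, Algebra.smul_def, map_intCast, map_intCast,
        map_intCast]
    rw [h1, map_add, map_add, map_smul, map_smul, map_smul, T0, T1, T2, smul_eq_mul, smul_eq_mul,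
      smul_eq_mul]
    ring
  have key : ∀ (i j : Fin 3) (x y z : ℤ), (w i : K) * (w j : K) =
      (x : K) * 1 + y * ((a : K) * θ) + z * ((a : K) * θ ^ 2 + b * θ) →
      Algebra.traceMatrix ℤ w i j = x * 3 - y * b - z * (2 * c) := by
    intro i j x y z h
    have h2 : ((w i * w j : 𝓞 K) : K) = (w i : K) * (w j : K) :=
      map_mul (algebraMap (𝓞 K) K) _ _
    have h1 : ((Algebra.traceMatrix ℤ w i j : ℤ) : ℚ) = x * 3 - y * b - z * (2 * c) := by
      rw [Algebra.traceMatrix_apply, Algebra.traceForm_apply, Algebra.coe_trace_int]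
      exact (congrArg (Algebra.trace ℚ K) (h2.trans h)).trans (lin x y z)
    exact_mod_cast h1
  have w0 : ((w 0 : 𝓞 K) : K) = 1 := rfl
  have w1 : ((w 1 : 𝓞 K) : K) = (a : K) * θ := rfl
  have w2 : ((w 2 : 𝓞 K) : K) = (a : K) * θ ^ 2 + b * θ := rfl
  have m00 := key 0 0 1 0 0 (by rw [w0]; push_cast; ring)
  have m01 := key 0 1 0 1 0 (by rw [w0, w1]; push_cast; ring)
  have m02 := key 0 2 0 0 1 (by rw [w0, w2]; push_cast; ring)
  have m10 := key 1 0 0 1 0 (by rw [w0, w1]; push_cast; ring)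
  have m11 := key 1 1 0 (-b) a (by rw [w1]; push_cast; ring)
  have m12 := key 1 2 (-(a * d)) (-c) 0 (by
    rw [w1, w2]; push_cast; linear_combination (a : K) * hF)
  have m20 := key 2 0 0 0 1 (by rw [w0, w2]; push_cast; ring)
  have m21 := key 2 1 (-(a * d)) (-c) 0 (by
    rw [w1, w2]; push_cast; linear_combination (a : K) * hF)
  have m22 := key 2 2 (-(b * d)) (-d) (-c) (by
    rw [w2]; push_cast; linear_combination ((a : K) * θ + b) * hF)
  have hdisc : Algebra.discr ℤ w = b ^ 2 * c ^ 2 - 4 * a * c ^ 3 - 4 * b ^ 3 * d -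
      27 * a ^ 2 * d ^ 2 + 18 * a * b * c * d := by
    rw [Algebra.discr_def, Matrix.det_fin_three, m00, m01, m02, m10, m11, m12, m20, m21, m22]
    ring
  rw [← hdisc] at h0 ⊢
  have h1 := abs_discr_le hrank w h0
  have h2 : (5 : ℝ) < |discr K| := by
    have h3 := abs_discr_ge (K := K) (by rw [hrank]; norm_num)
    rw [hrank] at h3
    refine lt_of_lt_of_le ?_ h3
    have hpi := Real.pi_gt_three
    have h4 : (9 / 4 : ℝ) < 3 * Real.pi / 4 := by linarith
    have h5 : (9 / 4 : ℝ) ^ 3 < (3 * Real.pi / 4) ^ 3 := by gcongr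
    norm_num at h5
    linarith
  have h3 : (5 : ℤ) < |discr K| := by exact_mod_cast h2
  omega

/-- **There is no cubic field of discriminant at most `4`**, in terms of cubic polynomials. -/
theorem no_cubic {a b c d : ℤ} (ha : a ≠ 0)
    (hroot : ∀ x : ℚ, a * x ^ 3 + b * x ^ 2 + c * x + d ≠ 0)
    (h0 : b ^ 2 * c ^ 2 - 4 * a * c ^ 3 - 4 * b ^ 3 * d - 27 * a ^ 2 * d ^ 2 +
      18 * a * b * c * d ≠ 0) :
    4 < |b ^ 2 * c ^ 2 - 4 * a * c ^ 3 - 4 * b ^ 3 * d - 27 * a ^ 2 * d ^ 2 +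
      18 * a * b * c * d| := by
  have haQ : (a : ℚ) ≠ 0 := by exact_mod_cast ha
  obtain ⟨f, hf⟩ : ∃ f : ℚ[X], f = C (a : ℚ) * X ^ 3 + C (b : ℚ) * X ^ 2 + C (c : ℚ) * X +
    C (d : ℚ) := ⟨_, rfl⟩
  have hdeg : f.natDegree = 3 := by rw [hf]; exact natDegree_cubic haQ
  have hfne : f ≠ 0 := by
    intro h
    rw [h, natDegree_zero] at hdeg
    omega
  have hev : ∀ {R : Type} [CommRing R] (φ : ℚ →+* R) (θ : R),
      f.eval₂ φ θ = (a : R) * θ ^ 3 + b * θ ^ 2 + c * θ + d := by
    intro R _ φ θ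
    rw [hf]
    simp only [eval₂_add, eval₂_mul, eval₂_pow, eval₂_X, eval₂_C]
    simp only [map_intCast]
  have hirr : Irreducible f := by
    rw [irreducible_iff_roots_eq_zero_of_degree_le_three (by omega) (by omega),
      Multiset.eq_zero_iff_forall_notMem]
    intro x hx
    rw [mem_roots hfne, IsRoot.def] at hx
    apply hroot x
    rw [hf] at hx
    simpa using hx
  have : Fact (Irreducible f) := ⟨hirr⟩
  have hdim : (AdjoinRoot.powerBasis hfne).dim = 3 := by rw [AdjoinRoot.powerBasis_dim, hdeg]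
  have hfin : Module.Finite ℚ (AdjoinRoot f) := (AdjoinRoot.powerBasis hfne).finite
  have hchar : CharZero (AdjoinRoot f) := algebraRat.charZero _
  have hNF : NumberField (AdjoinRoot f) := ⟨⟩
  have hrank : finrank ℚ (AdjoinRoot f) = 3 := by
    rw [(AdjoinRoot.powerBasis hfne).finrank, hdim]
  have hF : (a : AdjoinRoot f) * AdjoinRoot.root f ^ 3 + b * AdjoinRoot.root f ^ 2 +
      c * AdjoinRoot.root f + d = 0 := by
    have h : f.eval₂ (AdjoinRoot.of f) (AdjoinRoot.root f) = 0 := AdjoinRoot.eval₂_root f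
    rw [← hev (AdjoinRoot.of f) (AdjoinRoot.root f), h]
  have hB : ∀ i : Fin 3, ((AdjoinRoot.powerBasis hfne).basis.reindex (finCongr hdim)) i =
      AdjoinRoot.root f ^ (i : ℕ) := by
    intro i
    rw [Basis.reindex_apply, PowerBasis.basis_eq_pow, AdjoinRoot.powerBasis_gen]
    rfl
  exact four_lt_of_field hrank ((AdjoinRoot.powerBasis hfne).basis.reindex (finCongr hdim))
    (by rw [hB]; simp) (by rw [hB]; simp) (by rw [hB]; simp) ha hF h0

end Fermat.Agent.Cor.MO
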