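import Fermat.Agent.LTF.Chain.Irr5
import Fermat.Agent.Corollaries.Table.CEq

/-!
# Prime conductor and a rational isogeny of degree five

A semistable elliptic curve over `ℚ` with at most one bad prime `q` and with a rational isogeny of degree
five has `q = 11`, and its invariants are those of `11a1`, `11a2` or `11a3`.
-/

set_option autoImplicit false

namespace Fermat.Agent.Cor.MO

open WeierstrassCurve

theorem unit_of_no_prime {n : ℤ} (h : ∀ ℓ : ℕ, ℓ.Prime → ¬ (ℓ : ℤ) ∣ n) : n = 1 ∨ n = -1 := by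
  have h1 : n.natAbs = 1 := by
    by_contra hne
    obtain ⟨ℓ, hℓ, hd⟩ := Nat.exists_prime_and_dvd hne
    exact h ℓ hℓ (Int.natCast_dvd.mpr hd)
  omega

/-- `X = k v + 1`. -/
theorem dioph_key {u v X : ℤ} (hu : u = 1 ∨ u = -1) (hv : 3 ≤ v)
    (h : X ^ 2 = u ^ 2 + 22 * u * v + 125 * v ^ 2) (hd : v ∣ X - 1) :
    v = 11 ∧ u = -1 ∧ X = 122 := by
  obtain ⟨k, hk⟩ := hd
  have hX : X = v * k + 1 := by linarith
  have hu2 : u ^ 2 = 1 := by rcases hu with rfl | rfl <;> norm_num
  have h1 : (k ^ 2 - 125) * v = 22 * u - 2 * k := by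
    have h2 : v * ((k ^ 2 - 125) * v) = v * (22 * u - 2 * k) := by
      rw [hX] at h
      linear_combination h + hu2
    exact mul_left_cancel₀ (by linarith) h2
  have hub : u ≤ 1 ∧ -1 ≤ u := by rcases hu with rfl | rfl <;> norm_num
  have hk1 : k ≤ 11 := by
    by_contra hc
    push Not at hc
    have h2 : 12 * k ≤ k ^ 2 := by nlinarith
    have h3 : 3 * (k ^ 2 - 125) ≤ (k ^ 2 - 125) * v := by nlinarith
    linarith [hub.1]
  have hk2 : -11 ≤ k := by
    by_contra hc
    push Not at hc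
    have h2 : -12 * k ≤ k ^ 2 := by nlinarith
    have h3 : 3 * (k ^ 2 - 125) ≤ (k ^ 2 - 125) * v := by nlinarith
    linarith [hub.1]
  have h4 : v = 11 ∧ u = -1 ∧ k = 11 := by
    interval_cases k <;> omega
  obtain ⟨rfl, rfl, rfl⟩ := h4
  exact ⟨rfl, rfl, by rw [hX]; norm_num⟩

/-- `X² = u² + 22 u v + 125 v²` in powers of one prime. -/
theorem dioph_prime {q : ℕ} (hq : q.Prime) {u v X : ℤ} (hco : IsCoprime u v) (hv : 0 < v)
    (hpr : ∀ ℓ : ℕ, ℓ.Prime → (ℓ : ℤ) ∣ u * v → ℓ = q)
    (h : X ^ 2 = u ^ 2 + 22 * u * v + 125 * v ^ 2) :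
    (v = 1 ∧ u = -11 ∧ (X = 2 ∨ X = -2)) ∨ (v = 11 ∧ u = -1 ∧ (X = 122 ∨ X = -122)) := by
  have hqI := Nat.prime_iff_prime_int.mp hq
  by_cases hv1 : v = 1
  · left
    subst hv1
    have h1 : (X - (u + 11)) * (X + (u + 11)) = 4 := by linear_combination h
    have h3 : (X - (u + 11)).natAbs ∣ 4 := by
      have := Int.natAbs_dvd_natAbs.mpr (⟨_, h1.symm⟩ : X - (u + 11) ∣ 4)
      simpa using this
    have h4 : (X - (u + 11)).natAbs ≤ 4 := Nat.le_of_dvd (by norm_num) h3
    have h5 : -4 ≤ X - (u + 11) ∧ X - (u + 11) ≤ 4 := by omega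
    generalize hA : X - (u + 11) = A at *
    generalize hB : X + (u + 11) = B at *
    obtain ⟨h6, h7⟩ := h5
    have hX : 2 * X = A + B := by rw [← hA, ← hB]; ring
    have hU : 2 * (u + 11) = B - A := by rw [← hA, ← hB]; ring
    interval_cases A <;> omega
  · right
    -- `v` is a power of `q`
    obtain ⟨n, hn⟩ : ∃ n : ℕ, v = (q : ℤ) ^ n := by
      obtain ⟨m, rfl⟩ := Int.eq_ofNat_of_zero_le hv.le
      have hm : m ≠ 0 := by rintro rfl; simp at hv
      refine ⟨m.primeFactorsList.length, ?_⟩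
      exact_mod_cast Nat.eq_prime_pow_of_unique_prime_dvd hm fun {d} hd hdm =>
        hpr d hd ((Int.natCast_dvd_natCast.mpr hdm).mul_left u)
    have hn0 : n ≠ 0 := by
      rintro rfl
      exact hv1 (by rw [hn, pow_zero])
    have hqv : (q : ℤ) ∣ v := by rw [hn]; exact dvd_pow_self _ hn0
    -- `u = ± 1`
    have hu1 : u = 1 ∨ u = -1 := by
      refine unit_of_no_prime fun ℓ hℓ hd => ?_
      have h1 := hpr ℓ hℓ (hd.mul_right v)
      subst h1
      exact hqI.not_isUnit (hco.isUnit_of_dvd' hd hqv)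
    have hu2 : u ^ 2 = 1 := by rcases hu1 with rfl | rfl <;> norm_num
    have hprod : (X - 1) * (X + 1) = v * (125 * v + 22 * u) := by
      linear_combination h + hu2
    -- `v ≠ 2`
    have hv2 : v ≠ 2 := by
      rintro rfl
      have h1 : -24 ≤ X := by
        by_contra hc
        push Not at hc
        rcases hu1 with rfl | rfl <;> nlinarith
      have h2 : X ≤ 24 := by
        by_contra hc
        push Not at hc
        rcases hu1 with rfl | rfl <;> nlinarith
      rcases hu1 with rfl | rfl <;> interval_cases X <;> omega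
    have hv3 : 3 ≤ v := by omega
    -- `v` divides `X - 1` or `X + 1`
    have hdiv : v ∣ X - 1 ∨ v ∣ X + 1 := by
      by_cases hq2 : q = 2
      · subst hq2
        obtain ⟨m, rfl⟩ : ∃ m, n = m + 2 := by
          rcases n with _ | _ | n
          · exact absurd rfl hn0
          · exact absurd (by rw [hn]; norm_num) hv2
          · exact ⟨n, rfl⟩
        obtain ⟨w, hw⟩ : ∃ w : ℤ, w = (2 : ℤ) ^ (m + 1) := ⟨_, rfl⟩
        have hvw : v = 2 * w := by rw [hn, hw]; push_cast; ring
        rcases Int.even_or_odd' X with ⟨z, hz | hz⟩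
        · exfalso
          have h1 : 2 * (2 * z ^ 2 - w * (250 * w + 22 * u)) = 1 := by
            rw [hz, hvw] at hprod
            linear_combination hprod
          omega
        · have h1 : z * (z + 1) = w * (125 * w + 11 * u) := by
            have h2 : 4 * (z * (z + 1)) = 4 * (w * (125 * w + 11 * u)) := by
              rw [hz, hvw] at hprod
              linear_combination hprod
            exact mul_left_cancel₀ (by norm_num) h2
          by_cases h2 : (2 : ℤ) ∣ z
          · have h3 : IsCoprime w (z + 1) := by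
              rw [hw]
              refine IsCoprime.pow_left ((Int.prime_two.coprime_iff_not_dvd).mpr fun h4 => ?_)
              omega
            obtain ⟨j, hj⟩ := h3.dvd_of_dvd_mul_right (⟨_, h1⟩ : w ∣ z * (z + 1))
            exact Or.inl ⟨j, by rw [hz, hvw, hj]; ring⟩
          · have h3 : IsCoprime w z := by
              rw [hw]
              exact IsCoprime.pow_left ((Int.prime_two.coprime_iff_not_dvd).mpr h2)
            obtain ⟨j, hj⟩ := h3.dvd_of_dvd_mul_left (⟨_, h1⟩ : w ∣ z * (z + 1))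
            exact Or.inr ⟨j, by rw [hz, hvw]; linear_combination 2 * hj⟩
      · by_cases hd : (q : ℤ) ∣ X + 1
        · have hnd : ¬ (q : ℤ) ∣ X - 1 := by
            intro hd'
            have h1 : (q : ℤ) ∣ 2 := by
              have h2 : (2 : ℤ) = (X + 1) - (X - 1) := by ring
              rw [h2]; exact dvd_sub hd hd'
            exact hq2 ((Nat.prime_dvd_prime_iff_eq hq Nat.prime_two).mp (by exact_mod_cast h1))
          have hc : IsCoprime v (X - 1) := by
            rw [hn]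
            exact IsCoprime.pow_left (hqI.coprime_iff_not_dvd.mpr hnd)
          exact Or.inr (hc.dvd_of_dvd_mul_left (hprod ▸ dvd_mul_right v _))
        · have hc : IsCoprime v (X + 1) := by
            rw [hn]
            exact IsCoprime.pow_left (hqI.coprime_iff_not_dvd.mpr hd)
          exact Or.inl (hc.dvd_of_dvd_mul_right (hprod ▸ dvd_mul_right v _))
    rcases hdiv with hd | hd
    · obtain ⟨h1, h2, h3⟩ := dioph_key hu1 hv3 h hd
      exact ⟨h1, h2, Or.inl h3⟩
    · obtain ⟨h1, h2, h3⟩ := dioph_key (X := -X) hu1 hv3 (by rw [← h]; ring) (by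
        have h4 : -X - 1 = -(X + 1) := by ring
        rw [h4]; exact (dvd_neg).mpr hd)
      exact ⟨h1, h2, Or.inr (by linarith)⟩

/-- The sign of `c₆` is determined by `c₆ ≡ 0, 8` modulo `32` if `c₄` is even. -/
theorem c_of_sign {W : WeierstrassCurve ℤ} {D c a : ℤ} (hD : W.Δ = D)
    (hc : W.c₆ = c ∨ W.c₆ = -c) (ha : 1728 * D = a ^ 3 - c ^ 2) (h2 : (2 : ℤ) ∣ a)
    (h8 : c % 32 = 8) : W.c₄ = a ∧ W.c₆ = c ∧ W.Δ = D := by
  have h1 := W.c_relation
  have h2' : W.c₆ ^ 2 = c ^ 2 := by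
    rcases hc with hc | hc
    · rw [hc]
    · rw [hc, neg_sq]
  have h3 : W.c₄ = a := by
    have h4 : W.c₄ ^ 3 = a ^ 3 := by rw [hD, h2'] at h1; linarith
    exact (Odd.strictMono_pow (by decide : Odd 3)).injective h4
  have h4 := Table.c₆_emod (W := W) (by rw [h3]; exact h2)
  exact ⟨h3, by omega, hD⟩

/-- **Prime conductor and a rational isogeny of degree five**: `q = 11`, and the invariants are those of
`11a1`, `11a2`, `11a3`. -/
theorem invariants_of_reducible_five {W : WeierstrassCurve ℤ} (hΔ : W.Δ ≠ 0)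
    (hW : W.IsSemistableModel) {q : ℕ} (hq : q.Prime)
    (hbad : ∀ ℓ : ℕ, ℓ.Prime → (ℓ : ℤ) ∣ W.Δ → ℓ = q) (hred : ¬ W.ModRepIsIrreducible 5) :
    q = 11 ∧ ((W.c₄ = 496 ∧ W.c₆ = 20008 ∧ W.Δ = -11 ^ 5) ∨
      (W.c₄ = 375376 ∧ W.c₆ = 229985128 ∧ W.Δ = -11) ∨
      (W.c₄ = 16 ∧ W.c₆ = -152 ∧ W.Δ = -11)) := by
  have h11 : ∀ D : ℤ, W.Δ = D → (11 : ℤ) ∣ D → q = 11 := fun D hD hd =>
    (hbad 11 (by norm_num) (by rw [hD]; exact_mod_cast hd)).symm
  obtain ⟨H, Q, X, hco, hQ, ⟨hX, h6, hD⟩ | ⟨hH, hX, h6, hD⟩⟩ :=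
    LTF.Chain.integral_five W hΔ hW hred
  · have hpr : ∀ ℓ : ℕ, ℓ.Prime → (ℓ : ℤ) ∣ H * Q → ℓ = q := by
      intro ℓ hℓ hd
      refine hbad ℓ hℓ ?_
      rw [hD]
      exact hd.trans ⟨Q ^ 4, by ring⟩
    rcases dioph_prime hq hco hQ hpr hX with ⟨rfl, rfl, hX'⟩ | ⟨rfl, rfl, hX'⟩
    · have hD' : W.Δ = -11 := by rw [hD]; norm_num
      refine ⟨h11 _ hD' (by norm_num), Or.inr (Or.inr ?_)⟩
      refine c_of_sign hD' ?_ (by norm_num) (by norm_num) (by norm_num)
      rcases hX' with rfl | rfl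
      · left; rw [h6]; norm_num
      · right; rw [h6]; norm_num
    · have hD' : W.Δ = -11 ^ 5 := by rw [hD]; norm_num
      refine ⟨h11 _ hD' (by norm_num), Or.inl ?_⟩
      refine c_of_sign hD' ?_ (by norm_num) (by norm_num) (by norm_num)
      rcases hX' with rfl | rfl
      · left; rw [h6]; norm_num
      · right; rw [h6]; norm_num
  · obtain ⟨G, rfl⟩ := hH
    obtain ⟨Y, rfl⟩ : (5 : ℤ) ∣ X := by
      have h5 : Prime (5 : ℤ) := by
        have : Nat.Prime 5 := by norm_num
        exact_mod_cast Nat.prime_iff_prime_int.mp this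
      refine h5.dvd_of_dvd_pow (n := 2) ⟨5 * (125 * G ^ 2 + 22 * G * Q + Q ^ 2), ?_⟩
      linarith
    have hY : Y ^ 2 = Q ^ 2 + 22 * Q * G + 125 * G ^ 2 := by linarith
    have h6' : W.c₆ = -Y * (15625 * G ^ 2 + 500 * G * Q - Q ^ 2) := by linarith
    have hD0 : W.Δ = Q ^ 5 * G := by linarith
    have hco' : IsCoprime Q G := (IsCoprime.of_mul_left_right hco).symm
    have hpr : ∀ ℓ : ℕ, ℓ.Prime → (ℓ : ℤ) ∣ Q * G → ℓ = q := by
      intro ℓ hℓ hd
      refine hbad ℓ hℓ ?_
      rw [hD0]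
      exact hd.trans ⟨Q ^ 4, by ring⟩
    have hG0 : G ≠ 0 := by
      rintro rfl
      exact hΔ (by rw [hD0]; ring)
    rcases lt_or_gt_of_ne hG0 with hneg | hpos
    · rcases dioph_prime (u := -Q) (v := -G) (X := Y) hq hco'.neg_neg
        (by linarith) (fun ℓ hℓ hd => hpr ℓ hℓ (by rwa [neg_mul_neg] at hd)) (by rw [hY]; ring)
        with ⟨h1, h2, hX'⟩ | ⟨h1, h2, hX'⟩
      · obtain rfl : G = -1 := by linarith
        obtain rfl : Q = 11 := by linarith
        have hD' : W.Δ = -11 ^ 5 := by rw [hD0]; norm_num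
        refine ⟨h11 _ hD' (by norm_num), Or.inl ?_⟩
        refine c_of_sign hD' ?_ (by norm_num) (by norm_num) (by norm_num)
        rcases hX' with rfl | rfl
        · right; rw [h6']; norm_num
        · left; rw [h6']; norm_num
      · obtain rfl : G = -11 := by linarith
        obtain rfl : Q = 1 := by linarith
        have hD' : W.Δ = -11 := by rw [hD0]; norm_num
        refine ⟨h11 _ hD' (by norm_num), Or.inr (Or.inl ?_)⟩
        refine c_of_sign hD' ?_ (by norm_num) (by norm_num) (by norm_num)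
        rcases hX' with rfl | rfl
        · right; rw [h6']; norm_num
        · left; rw [h6']; norm_num
    · exfalso
      rcases dioph_prime hq hco' hpos hpr hY with ⟨-, h2, -⟩ | ⟨-, h2, -⟩ <;> linarith

end Fermat.Agent.Cor.MO
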