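import Fermat.Agent.Corollaries.Eleven.Dioph
import Fermat.Agent.Corollaries.Table.Two

/-!
# Semistable curves with one bad prime and a rational point of order two

If `q` is the only bad prime of the semistable curve `W` and `W` has a rational point of order two,
then `q = 17` and `W` is one of the four curves of conductor `17`, or there are an integer `a` and
an odd exponent `n` with `a² + 64 = q ^ n`, and `Δ = q ^ n` or `Δ = - q ^ (2 n)`
(`invariants_of_root`; Neumann, Setzer).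
-/

set_option autoImplicit false

namespace Fermat.Agent.Cor.MO

open WeierstrassCurve Fermat.Agent.Cor.Table

/-! ### The Diophantine equation -/

theorem fifteen_ne_pow {q i : ℕ} (hq : q.Prime) : q ^ i ≠ 15 := by
  intro h
  have h3 : 3 ∣ q ^ i := h ▸ (by norm_num)
  have h5 : 5 ∣ q ^ i := h ▸ (by norm_num)
  have h3' := (Nat.prime_dvd_prime_iff_eq Nat.prime_three hq).mp (Nat.prime_three.dvd_of_dvd_pow h3)
  have h5' := (Nat.prime_dvd_prime_iff_eq Nat.prime_five hq).mp (Nat.prime_five.dvd_of_dvd_pow h5)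
  omega

/-- A number with two different prime factors is not a prime power. -/
theorem ne_pow_of_two_primes {q i n r s : ℕ} (hq : q.Prime) (hr : r.Prime) (hs : s.Prime)
    (hrs : r ≠ s) (hrn : r ∣ n) (hsn : s ∣ n) : q ^ i ≠ n := by
  intro h
  have h3 := (Nat.prime_dvd_prime_iff_eq hr hq).mp (hr.dvd_of_dvd_pow (h ▸ hrn))
  have h5 := (Nat.prime_dvd_prime_iff_eq hs hq).mp (hs.dvd_of_dvd_pow (h ▸ hsn))
  exact hrs (h3.trans h5.symm)

/-- `α² = 64 q ^ i + 1`. -/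
theorem dioph_one {q α i : ℕ} (hq : q.Prime) (h : α ^ 2 = 64 * q ^ i + 1) :
    α = 33 ∧ q = 17 ∧ i = 1 := by
  obtain ⟨x, rfl⟩ : ∃ x, α = 2 * x + 1 := by
    have h1 : ¬ Even (α ^ 2) := by
      rw [h, Nat.not_even_iff_odd]
      exact ⟨32 * q ^ i, by ring⟩
    rw [Nat.even_pow' two_ne_zero, Nat.not_even_iff_odd] at h1
    exact h1
  have h1 : x * (x + 1) = 16 * q ^ i := by nlinarith
  have h7 : 0 < q ^ i := pow_pos hq.pos i
  by_cases hqx : q ∣ x
  · exfalso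
    have h2 : ¬ q ∣ x + 1 := fun h2 => hq.one_lt.ne' (Nat.dvd_one.mp ((Nat.dvd_add_right hqx).mp h2))
    have h3 : Nat.Coprime (q ^ i) (x + 1) :=
      Nat.Coprime.pow_left i ((Nat.Prime.coprime_iff_not_dvd hq).mpr h2)
    obtain ⟨n, hn⟩ := h3.dvd_of_dvd_mul_right (h1 ▸ dvd_mul_left _ _ : q ^ i ∣ x * (x + 1))
    have h4 : n * (x + 1) = 16 := by
      have h5 : q ^ i * (n * (x + 1)) = q ^ i * 16 := by
        rw [← mul_assoc, ← hn, h1]; ring
      exact Nat.eq_of_mul_eq_mul_left h7 h5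
    have h5 : x + 1 ≤ 16 := Nat.le_of_dvd (by norm_num) ⟨n, by rw [← h4]; ring⟩
    have h6 : x ≤ 15 := by omega
    have h8 : n ≤ 16 := Nat.le_of_dvd (by norm_num) ⟨x + 1, h4.symm⟩
    have h9 : x = 15 ∧ n = 1 := by
      have h10 : n ≠ 0 := by rintro rfl; omega
      have h11 : x = 0 → False := by rintro rfl; omega
      have h12 : n ≤ x := by rw [hn]; exact Nat.le_mul_of_pos_left n h7
      interval_cases x <;> omega
    obtain ⟨rfl, rfl⟩ := h9
    exact fifteen_ne_pow hq (by omega : q ^ i = 15)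
  · have h3 : Nat.Coprime (q ^ i) x :=
      Nat.Coprime.pow_left i ((Nat.Prime.coprime_iff_not_dvd hq).mpr hqx)
    obtain ⟨n, hn⟩ := h3.dvd_of_dvd_mul_left (h1 ▸ dvd_mul_left _ _ : q ^ i ∣ x * (x + 1))
    have h4 : x * n = 16 := by
      have h5 : q ^ i * (x * n) = q ^ i * 16 := by
        calc q ^ i * (x * n) = x * (q ^ i * n) := by ring
          _ = q ^ i * 16 := by rw [← hn, h1]; ring
      exact Nat.eq_of_mul_eq_mul_left h7 h5
    have h5 : x ≤ 16 := Nat.le_of_dvd (by norm_num) ⟨n, h4.symm⟩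
    have h8 : n ≤ x + 1 := by rw [hn]; exact Nat.le_mul_of_pos_left n h7
    have h9 : x = 16 := by
      interval_cases x <;> omega
    subst h9
    have h10 : n = 1 := by omega
    subst h10
    have h11 : q ^ i = 17 := by omega
    have hi : i ≠ 0 := by rintro rfl; rw [pow_zero] at h11; omega
    have h12 : q ∣ 17 := h11 ▸ dvd_pow_self q hi
    have h13 : q = 17 := (Nat.prime_dvd_prime_iff_eq hq (by norm_num)).mp h12
    subst h13
    have h14 : (17 : ℕ) ^ i = 17 ^ 1 := by omega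
    exact ⟨by norm_num, rfl, Nat.pow_right_injective (le_refl 17 |>.trans' (by norm_num)) h14⟩

/-- `α² = 64 + q ^ j`, `q` odd. -/
theorem dioph_two {q α j : ℕ} (hq : q.Prime) (hq2 : q ≠ 2) (h : α ^ 2 = 64 + q ^ j) :
    α = 9 ∧ q = 17 ∧ j = 1 := by
  have h0 : 0 < q ^ j := pow_pos hq.pos j
  obtain ⟨β, rfl⟩ : ∃ β, α = β + 8 := ⟨α - 8, by
    have : 8 < α := by nlinarith
    omega⟩
  have h1 : β * (β + 16) = q ^ j := by nlinarith
  obtain ⟨t, -, ht⟩ := (Nat.dvd_prime_pow hq).mp (⟨_, h1.symm⟩ : β ∣ q ^ j)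
  obtain ⟨s, -, hs⟩ := (Nat.dvd_prime_pow hq).mp (⟨β, by rw [← h1]; ring⟩ : β + 16 ∣ q ^ j)
  rcases Nat.eq_zero_or_pos t with rfl | htpos
  · rw [pow_zero] at ht
    subst ht
    have h2 : q ^ j = 17 := by omega
    have hj : j ≠ 0 := by rintro rfl; rw [pow_zero] at h2; omega
    have h12 : q ∣ 17 := h2 ▸ dvd_pow_self q hj
    have h13 : q = 17 := (Nat.prime_dvd_prime_iff_eq hq (by norm_num)).mp h12
    subst h13
    have h14 : (17 : ℕ) ^ j = 17 ^ 1 := by omega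
    exact ⟨by norm_num, rfl, Nat.pow_right_injective (le_refl 17 |>.trans' (by norm_num)) h14⟩
  · exfalso
    have h2 : q ∣ β := ht ▸ dvd_pow_self q htpos.ne'
    rcases Nat.eq_zero_or_pos s with rfl | hspos
    · rw [pow_zero] at hs
      omega
    · have h3 : q ∣ β + 16 := hs ▸ dvd_pow_self q hspos.ne'
      have h4 : q ∣ 2 ^ 4 := (Nat.dvd_add_right h2).mp h3
      exact hq2 ((Nat.prime_dvd_prime_iff_eq hq Nat.prime_two).mp (hq.dvd_of_dvd_pow h4))

/-- `α² + 64 = q ^ (2 m)`, `α` odd. -/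
theorem dioph_three {q α m : ℕ} (hq : q.Prime) (hα : α % 2 = 1) (h : α ^ 2 + 64 = q ^ (2 * m)) :
    α = 15 ∧ q = 17 ∧ m = 1 := by
  have h1 : α ^ 2 + 64 = (q ^ m) ^ 2 := by rw [h, ← pow_mul, mul_comm m 2]
  have h2 : α < q ^ m := by
    by_contra hcon
    push Not at hcon
    have h3 : (q ^ m) ^ 2 ≤ α ^ 2 := Nat.pow_le_pow_left hcon 2
    omega
  obtain ⟨d, hy⟩ : ∃ d, q ^ m = α + d := ⟨q ^ m - α, by omega⟩
  rw [hy] at h1 h2
  have h3 : 64 = 2 * α * d + d ^ 2 := by nlinarith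
  have hd : d ≤ 8 := by nlinarith
  have hd0 : 0 < d := by omega
  have h4 : d = 2 ∧ α = 15 := by
    interval_cases d <;> omega
  obtain ⟨rfl, rfl⟩ := h4
  have h5 : q ^ m = 17 := by omega
  have hm : m ≠ 0 := by rintro rfl; rw [pow_zero] at h5; omega
  have h12 : q ∣ 17 := h5 ▸ dvd_pow_self q hm
  have h13 : q = 17 := (Nat.prime_dvd_prime_iff_eq hq (by norm_num)).mp h12
  subst h13
  have h14 : (17 : ℕ) ^ m = 17 ^ 1 := by omega
  exact ⟨rfl, rfl, Nat.pow_right_injective (le_refl 17 |>.trans' (by norm_num)) h14⟩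

/-- **`a² = 64 u + v` with coprime `u`, `v` which are, up to sign, powers of the odd prime `q`.** -/
theorem dioph_setzer {q : ℕ} (hq : q.Prime) (hq2 : q ≠ 2) {a u v : ℤ} (ha : ¬ (2 : ℤ) ∣ a)
    (hco : IsCoprime u v) (hu : u ≠ 0) (hv : v ≠ 0)
    (hpu : ∀ ℓ : ℕ, ℓ.Prime → (ℓ : ℤ) ∣ u → ℓ = q)
    (hpv : ∀ ℓ : ℕ, ℓ.Prime → (ℓ : ℤ) ∣ v → ℓ = q) (h : a ^ 2 = 64 * u + v) :
    (q = 17 ∧ u = 17 ∧ v = 1 ∧ (a = 33 ∨ a = -33)) ∨
      (q = 17 ∧ u = 1 ∧ v = 17 ∧ (a = 9 ∨ a = -9)) ∨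
      (q = 17 ∧ u = -1 ∧ v = 289 ∧ (a = 15 ∨ a = -15)) ∨
      (u = -1 ∧ ∃ m : ℕ, v = (q : ℤ) ^ (2 * m + 1)) := by
  obtain ⟨i, hi⟩ := Eleven.natAbs_eq_pow hu q hpu
  obtain ⟨j, hj⟩ := Eleven.natAbs_eq_pow hv q hpv
  have hv8 : v % 8 = 1 := by
    obtain ⟨k, hk⟩ : ∃ k, a = 2 * k + 1 := ⟨a / 2, by omega⟩
    obtain ⟨m, hm⟩ := Int.even_mul_succ_self k
    have h1 : v = 8 * (m - 8 * u) + 1 := by rw [hk] at h; linarith
    omega
  have ha2 : ((a.natAbs : ℕ) : ℤ) ^ 2 = a ^ 2 := by rw [Int.natCast_natAbs, sq_abs]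
  have hsign : ∀ n : ℕ, a.natAbs = n → a = n ∨ a = -n := fun n hn => by omega
  have hodd : a.natAbs % 2 = 1 := by omega
  rcases Nat.eq_zero_or_pos j with rfl | hjpos
  · rw [pow_zero] at hj
    have hv1 : v = 1 := by omega
    have hu0 : 0 < u := by
      have : 0 ≤ a ^ 2 := sq_nonneg a
      omega
    have hui : u = ((q ^ i : ℕ) : ℤ) := by omega
    have h1 : a.natAbs ^ 2 = 64 * q ^ i + 1 := by
      have h2 : ((a.natAbs : ℕ) : ℤ) ^ 2 = 64 * ((q ^ i : ℕ) : ℤ) + 1 := by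
        rw [ha2, h, hv1, ← hui]
      exact_mod_cast h2
    obtain ⟨h2, rfl, rfl⟩ := dioph_one hq h1
    exact Or.inl ⟨rfl, by rw [hui]; norm_num, hv1, hsign 33 h2⟩
  · have hi0 : i = 0 := by
      by_contra hi0
      have h1 : (q : ℤ) ∣ u := Int.natCast_dvd.mpr (hi ▸ dvd_pow_self q hi0)
      have h2 : (q : ℤ) ∣ v := Int.natCast_dvd.mpr (hj ▸ dvd_pow_self q hjpos.ne')
      exact (Nat.prime_iff_prime_int.mp hq).not_isUnit (hco.isUnit_of_dvd' h1 h2)
    rw [hi0, pow_zero] at hi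
    rcases Int.natAbs_eq_iff.mp hi with h1 | h1
    · have hu1 : u = 1 := by exact_mod_cast h1
      rcases Int.natAbs_eq v with h2 | h2
      · rw [hj] at h2
        have h3 : a.natAbs ^ 2 = 64 + q ^ j := by
          have h4 : ((a.natAbs : ℕ) : ℤ) ^ 2 = 64 + ((q ^ j : ℕ) : ℤ) := by
            rw [ha2, h, hu1, h2]; ring
          exact_mod_cast h4
        obtain ⟨h4, rfl, rfl⟩ := dioph_two hq hq2 h3
        exact Or.inr (Or.inl ⟨rfl, hu1, by rw [h2]; norm_num, hsign 9 h4⟩)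
      · exfalso
        rw [hj] at h2
        have h3 : a.natAbs ^ 2 + q ^ j = 64 := by
          have h4 : ((a.natAbs : ℕ) : ℤ) ^ 2 + ((q ^ j : ℕ) : ℤ) = 64 := by
            rw [ha2, h, hu1, h2]; ring
          exact_mod_cast h4
        generalize a.natAbs = α at *
        have h5 : α < 8 := by nlinarith [pow_pos hq.pos j]
        have h6 : q ^ j = 64 - α ^ 2 := by omega
        interval_cases α
        · omega
        · exact ne_pow_of_two_primes (r := 3) (s := 7) hq (by norm_num) (by norm_num)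
            (by norm_num) (by norm_num) (by norm_num) h6
        · omega
        · exact ne_pow_of_two_primes (r := 5) (s := 11) hq (by norm_num) (by norm_num)
            (by norm_num) (by norm_num) (by norm_num) h6
        · omega
        · exact ne_pow_of_two_primes (r := 3) (s := 13) hq (by norm_num) (by norm_num)
            (by norm_num) (by norm_num) (by norm_num) h6
        · omega
        · exact ne_pow_of_two_primes (r := 3) (s := 5) hq (by norm_num) (by norm_num)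
            (by norm_num) (by norm_num) (by norm_num) h6
    · have hu1 : u = -1 := by exact_mod_cast h1
      have hvpos : 0 < v := by
        have : 0 ≤ a ^ 2 := sq_nonneg a
        omega
      have h2 : v = ((q ^ j : ℕ) : ℤ) := by omega
      rcases Nat.even_or_odd' j with ⟨m, rfl | rfl⟩
      · have h3 : a.natAbs ^ 2 + 64 = q ^ (2 * m) := by
          have h4 : ((a.natAbs : ℕ) : ℤ) ^ 2 + 64 = ((q ^ (2 * m) : ℕ) : ℤ) := by
            rw [ha2, h, hu1, ← h2]; ring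
          exact_mod_cast h4
        obtain ⟨h4, rfl, rfl⟩ := dioph_three hq hodd h3
        exact Or.inr (Or.inr (Or.inl ⟨rfl, hu1, by rw [h2]; norm_num, hsign 15 h4⟩))
      · exact Or.inr (Or.inr (Or.inr ⟨hu1, m, by rw [h2]; push_cast; rfl⟩))

/-! ### The invariants -/

/-- **Curves with one bad prime and a rational point of order `2`.** -/
theorem invariants_of_root {W : WeierstrassCurve ℤ} (hΔ : W.Δ ≠ 0) (hW : W.IsSemistableModel)
    {q : ℕ} (hq : q.Prime) (hq2 : q ≠ 2)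
    (hbad : ∀ ℓ : ℕ, ℓ.Prime → (ℓ : ℤ) ∣ W.Δ → ℓ = q) {x : ℚ}
    (hx : 4 * x ^ 3 + W.b₂ * x ^ 2 + 2 * W.b₄ * x + W.b₆ = 0) :
    (q = 17 ∧ ((W.c₄ = 33 ∧ W.c₆ = 12015 ∧ W.Δ = -17 ^ 4) ∨
        (W.c₄ = 273 ∧ W.c₆ = 4455 ∧ W.Δ = 17 ^ 2) ∨
        (W.c₄ = 4353 ∧ W.c₆ = 287199 ∧ W.Δ = 17) ∨ (W.c₄ = 33 ∧ W.c₆ = -81 ∧ W.Δ = 17))) ∨
      ∃ (k : ℤ) (m : ℕ), (4 * k + 1) ^ 2 + 64 = (q : ℤ) ^ (2 * m + 1) ∧
        ((W.c₄ = (4 * k + 1) ^ 2 + 48 ∧ W.c₆ = -((4 * k + 1) * ((4 * k + 1) ^ 2 + 72)) ∧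
            W.Δ = (q : ℤ) ^ (2 * m + 1)) ∨
          (W.c₄ = (4 * k + 1) ^ 2 - 192 ∧ W.c₆ = -((4 * k + 1) * ((4 * k + 1) ^ 2 + 576)) ∧
            W.Δ = -((q : ℤ) ^ (2 * m + 1)) ^ 2)) := by
  have hW2 : (2 : ℤ) ∣ W.Δ → ¬ (2 : ℤ) ∣ W.c₄ := fun h h' =>
    hW 2 Nat.prime_two (by exact_mod_cast h) (by exact_mod_cast h')
  have hsign : ∀ c : ℤ, ¬ (2 : ℤ) ∣ W.c₄ → (4 : ℤ) ∣ c + 1 → (W.c₆ = c ∨ W.c₆ = -c) →
      W.c₆ = c := by
    intro c h h1 h2
    have h3 := c₆_add_one h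
    omega
  obtain ⟨a, b, ⟨ha, h4, h6, hD⟩ | ⟨hb, h4, h6, hD⟩⟩ := exists_two hW2 hx
  · have hco := isCoprime_two hW (Or.inl ⟨ha, h4, hD⟩)
    have hb0 : b ≠ 0 := by
      rintro rfl
      exact hΔ (by rw [hD]; ring)
    have hv0 : a ^ 2 - 64 * b ≠ 0 := fun h0 => hΔ (by rw [hD, h0, mul_zero])
    have hco' : IsCoprime b (a ^ 2 - 64 * b) := by
      have h1 : IsCoprime b (a ^ 2) := hco.symm.pow_right
      have h2 : a ^ 2 - 64 * b = a ^ 2 + b * (-64) := by ring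
      rw [h2]
      exact h1.add_mul_left_right _
    rcases dioph_setzer hq hq2 (a := a) ha hco' hb0 hv0
      (fun q hq hd => hbad q hq (by rw [hD, sq]; exact (hd.mul_right _).mul_right _))
      (fun q hq hd => hbad q hq (by rw [hD]; exact hd.mul_left _)) (by ring)
      with ⟨hq17, rfl, h1, h2⟩ | ⟨hq17, rfl, h1, h2⟩ | ⟨hq17, rfl, h1, h2⟩ | ⟨rfl, m, hm⟩
    · have h3 : W.c₄ = 273 := by rcases h2 with rfl | rfl <;> rw [h4] <;> norm_num
      refine Or.inl ⟨hq17, Or.inr (Or.inl ⟨h3, hsign 4455 (by rw [h3]; norm_num) (by norm_num) ?_,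
        by rw [hD, h1]; norm_num⟩)⟩
      rcases h2 with rfl | rfl
      · left; rw [h6]; norm_num
      · right; rw [h6]; norm_num
    · have h3 : W.c₄ = 33 := by rcases h2 with rfl | rfl <;> rw [h4] <;> norm_num
      refine Or.inl ⟨hq17, Or.inr (Or.inr (Or.inr ⟨h3,
        hsign (-81) (by rw [h3]; norm_num) (by norm_num) ?_, by rw [hD, h1]; norm_num⟩))⟩
      rcases h2 with rfl | rfl
      · left; rw [h6]; norm_num
      · right; rw [h6]; norm_num
    · have h3 : W.c₄ = 273 := by rcases h2 with rfl | rfl <;> rw [h4] <;> norm_num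
      refine Or.inl ⟨hq17, Or.inr (Or.inl ⟨h3, hsign 4455 (by rw [h3]; norm_num) (by norm_num) ?_,
        by rw [hD, h1]; norm_num⟩)⟩
      rcases h2 with rfl | rfl
      · right; rw [h6]; norm_num
      · left; rw [h6]; norm_num
    · right
      -- `a ≡ 1` modulo `4`
      have h4' : W.c₄ = a ^ 2 + 48 := by rw [h4]; ring
      have h6' : W.c₆ = -(a * (a ^ 2 + 72)) := by rw [h6]; ring
      have hc2 : ¬ (2 : ℤ) ∣ W.c₄ := by
        rw [h4']
        rintro ⟨c, hc⟩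
        exact ha (Int.prime_two.dvd_of_dvd_pow (n := 2) ⟨c - 24, by linarith⟩)
      obtain ⟨k, hk⟩ : ∃ k, a = 4 * k + 1 := by
        obtain ⟨k, hk⟩ : ∃ k, a = 2 * k + 1 := ⟨a / 2, by omega⟩
        have h5 := c₆_add_one hc2
        rw [h6', hk] at h5
        have h7 : (4 : ℤ) ∣ 2 * k := by
          obtain ⟨c, hc⟩ := h5
          exact ⟨-c - 2 * k ^ 3 - 3 * k ^ 2 - 37 * k - 18, by linarith⟩
        exact ⟨k / 2, by omega⟩
      subst hk
      refine ⟨k, m, by rw [← hm]; ring, Or.inl ⟨h4', h6', ?_⟩⟩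
      rw [hD, hm]
      ring
  · have hco := isCoprime_two hW (Or.inr ⟨hb, h4, hD⟩)
    obtain ⟨u, hu⟩ : (64 : ℤ) ∣ a ^ 2 - b := by
      have h1 : IsCoprime (64 : ℤ) (b ^ 2) := by
        have h2 : IsCoprime (2 : ℤ) b := (Int.prime_two.coprime_iff_not_dvd).mpr hb
        have h3 : (64 : ℤ) = 2 ^ 6 := by norm_num
        rw [h3]
        exact h2.pow
      exact h1.dvd_of_dvd_mul_left ⟨W.Δ, hD.symm⟩
    have hD' : W.Δ = b ^ 2 * u := by
      rw [hu] at hD
      linarith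
    have ha : ¬ (2 : ℤ) ∣ a := by
      intro h
      apply hb
      have h1 : b = a ^ 2 - 64 * u := by linarith
      rw [h1, sq]
      exact dvd_sub (h.mul_right _) ⟨32 * u, by ring⟩
    have hb0 : b ≠ 0 := fun h0 => hb (h0 ▸ dvd_zero _)
    have hu0 : u ≠ 0 := by
      rintro rfl
      exact hΔ (by rw [hD', mul_zero])
    have hco' : IsCoprime u b := by
      have h1 : IsCoprime b (a ^ 2) := hco.symm.pow_right
      have h2 : a ^ 2 = 64 * u + b * 1 := by linarith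
      rw [h2] at h1
      exact (IsCoprime.of_add_mul_left_right h1).of_mul_right_right.symm
    rcases dioph_setzer hq hq2 (a := a) ha hco' hu0 hb0
      (fun q hq hd => hbad q hq (by rw [hD']; exact hd.mul_left _))
      (fun q hq hd => hbad q hq (by rw [hD', sq]; exact (hd.mul_right _).mul_right _))
      (by linarith) with ⟨hq17, rfl, rfl, h2⟩ | ⟨hq17, rfl, rfl, h2⟩ | ⟨hq17, rfl, rfl, h2⟩ |
        ⟨rfl, m, hm⟩
    · have h3 : W.c₄ = 4353 := by rcases h2 with rfl | rfl <;> rw [h4] <;> norm_num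
      refine Or.inl ⟨hq17, Or.inr (Or.inr (Or.inl ⟨h3,
        hsign 287199 (by rw [h3]; norm_num) (by norm_num) ?_, by rw [hD']; norm_num⟩))⟩
      rcases h2 with rfl | rfl
      · right; rw [h6]; norm_num
      · left; rw [h6]; norm_num
    · have h3 : W.c₄ = 273 := by rcases h2 with rfl | rfl <;> rw [h4] <;> norm_num
      refine Or.inl ⟨hq17, Or.inr (Or.inl ⟨h3,
        hsign 4455 (by rw [h3]; norm_num) (by norm_num) ?_, by rw [hD']; norm_num⟩)⟩
      rcases h2 with rfl | rfl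
      · right; rw [h6]; norm_num
      · left; rw [h6]; norm_num
    · have h3 : W.c₄ = 33 := by rcases h2 with rfl | rfl <;> rw [h4] <;> norm_num
      refine Or.inl ⟨hq17, Or.inl ⟨h3, hsign 12015 (by rw [h3]; norm_num) (by norm_num) ?_,
        by rw [hD']; norm_num⟩⟩
      rcases h2 with rfl | rfl
      · left; rw [h6]; norm_num
      · right; rw [h6]; norm_num
    · right
      have hb' : b = a ^ 2 + 64 := by linarith
      have h4' : W.c₄ = a ^ 2 - 192 := by rw [h4, hb']; ring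
      have h6' : W.c₆ = a * (a ^ 2 + 576) := by rw [h6, hb']; ring
      have hc2 : ¬ (2 : ℤ) ∣ W.c₄ := by
        rw [h4']
        rintro ⟨c, hc⟩
        exact ha (Int.prime_two.dvd_of_dvd_pow (n := 2) ⟨c + 96, by linarith⟩)
      -- `a ≡ - 1` modulo `4`
      obtain ⟨k, hk⟩ : ∃ k, a = -(4 * k + 1) := by
        obtain ⟨k, hk⟩ : ∃ k, a = -(2 * k + 1) := ⟨(-a) / 2, by omega⟩
        have h5 := c₆_add_one hc2
        rw [h6', hk] at h5
        have h7 : (4 : ℤ) ∣ 2 * k := by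
          obtain ⟨c, hc⟩ := h5
          exact ⟨-c - 2 * k ^ 3 - 3 * k ^ 2 - 289 * k - 144, by linarith⟩
        exact ⟨k / 2, by omega⟩
      subst hk
      refine ⟨k, m, by rw [← hm, hb']; ring, Or.inr ⟨by rw [h4']; ring, by rw [h6']; ring, ?_⟩⟩
      rw [hD', hm]
      ring

end Fermat.Agent.Cor.MO
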