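import Fermat.Agent.Corollaries.MO.Odd
import Fermat.Agent.Corollaries.MO.Five
import Fermat.Agent.Corollaries.MO.Setzer
import Fermat.Agent.Corollaries.Table.ThreeCurves
import Fermat.Agent.Corollaries.Table.Seventeen

/-!
# Elliptic curves of prime conductor: the theorem of Neumann and Setzer

`W` is a semistable Weierstrass equation over `ℤ` with exactly one bad prime `q`.

* `invariants_of_odd_dvd`: if an odd prime divides the exponent of `q` in the discriminant, then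
  `W` is `11a1`, `19a1` or `37b1`, with discriminants `-11⁵`, `-19³`, `37³`;
* `setzer_neumann`: if `W` has a rational point of order two, then `q = 17` and `W` is one of the
  four curves of conductor `17`, or `q = a² + 64` with `a = 4 k + 1` and `W` is isomorphic over
  `ℤ` to `y² + x y = x³ + k x² - x` (discriminant `q`) or to
  `y² + x y = x³ + k x² + 4 x + a` (discriminant `- q²`);
* `setzer_neumann_iff`: there is an elliptic curve over `ℚ` of conductor the prime `q` with a rational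
  point of order two if and only if `q = 17` or `q = a² + 64`.
-/

set_option autoImplicit false

namespace Fermat.Agent.Cor.MO

open WeierstrassCurve Fermat.Agent.Cor.Table

variable {W : WeierstrassCurve ℤ}

theorem padicValInt_eq_of_natAbs {q n : ℕ} (hq : q.Prime) {z : ℤ} (h : z.natAbs = q ^ n) :
    padicValInt q z = n := by
  have : Fact q.Prime := ⟨hq⟩
  rw [padicValInt, h, padicValNat.prime_pow]

/-- **Exponents with an odd prime factor.** -/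
theorem invariants_of_odd_dvd (hΔ : W.Δ ≠ 0) (hW : W.IsSemistableModel) {q : ℕ} (hq : q.Prime)
    (hbad : ∀ ℓ : ℕ, ℓ.Prime → (ℓ : ℤ) ∣ W.Δ → ℓ = q) {p : ℕ} (hp : p.Prime) (hp2 : p ≠ 2)
    (hd : p ∣ padicValInt q W.Δ) :
    (q = 11 ∧ W.c₄ = 496 ∧ W.c₆ = 20008 ∧ W.Δ = -11 ^ 5) ∨
      (q = 19 ∧ W.c₄ = 448 ∧ W.c₆ = 10088 ∧ W.Δ = -19 ^ 3) ∨
      (q = 37 ∧ W.c₄ = 1120 ∧ W.c₆ = 36296 ∧ W.Δ = 37 ^ 3) := by
  have hno : ∀ z : ℤ, W.Δ = z → z.natAbs = q → False := by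
    intro z hz hzq
    rw [hz, padicValInt_eq_of_natAbs (n := 1) hq (by rw [hzq, pow_one])] at hd
    exact hp.one_lt.ne' (Nat.dvd_one.mp hd)
  obtain ⟨rfl | rfl, hred⟩ := eq_three_or_five hΔ hW hq hbad hp hp2 hd
  · rcases invariants_of_reducible_three hΔ hW hq hbad hred with
      ⟨rfl, h | h | h⟩ | ⟨rfl, h | h | h⟩
    · exact (hno _ h.2.2 (by norm_num)).elim
    · exact Or.inr (Or.inl ⟨rfl, h⟩)
    · exact (hno _ h.2.2 (by norm_num)).elim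
    · exact (hno _ h.2.2 (by norm_num)).elim
    · exact Or.inr (Or.inr ⟨rfl, h⟩)
    · exact (hno _ h.2.2 (by norm_num)).elim
  · obtain ⟨rfl, h | h | h⟩ := invariants_of_reducible_five hΔ hW hq hbad hred
    · exact Or.inl ⟨rfl, h⟩
    · exact (hno _ h.2.2 (by norm_num)).elim
    · exact (hno _ h.2.2 (by norm_num)).elim

/-- If `c₄` is odd, the exponent has no odd prime factor. -/
theorem eq_two_of_odd_c₄ (hΔ : W.Δ ≠ 0) (hW : W.IsSemistableModel) {q : ℕ} (hq : q.Prime)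
    (hbad : ∀ ℓ : ℕ, ℓ.Prime → (ℓ : ℤ) ∣ W.Δ → ℓ = q) (h4 : ¬ (2 : ℤ) ∣ W.c₄) {p : ℕ}
    (hp : p.Prime) (hd : p ∣ padicValInt q W.Δ) : p = 2 := by
  by_contra hp2
  apply h4
  rcases invariants_of_odd_dvd hΔ hW hq hbad hp hp2 hd with ⟨-, h, -⟩ | ⟨-, h, -⟩ | ⟨-, h, -⟩ <;>
    rw [h] <;> norm_num

/-! ### The curves of Setzer and Neumann -/

/-- `y² + x y = x³ + k x² - x`. -/
def SN1 (k : ℤ) : WeierstrassCurve ℤ := ⟨1, k, 0, -1, 0⟩

/-- `y² + x y = x³ + k x² + 4 x + (4 k + 1)`. -/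
def SN2 (k : ℤ) : WeierstrassCurve ℤ := ⟨1, k, 0, 4, 4 * k + 1⟩

theorem SN1_inv (k : ℤ) : (SN1 k).c₄ = (4 * k + 1) ^ 2 + 48 ∧
    (SN1 k).c₆ = -((4 * k + 1) * ((4 * k + 1) ^ 2 + 72)) ∧ (SN1 k).Δ = (4 * k + 1) ^ 2 + 64 := by
  refine ⟨?_, ?_, ?_⟩ <;>
    simp only [SN1, WeierstrassCurve.c₄, WeierstrassCurve.c₆, WeierstrassCurve.Δ,
      WeierstrassCurve.b₂, WeierstrassCurve.b₄, WeierstrassCurve.b₆, WeierstrassCurve.b₈] <;>
    ring

theorem SN2_inv (k : ℤ) : (SN2 k).c₄ = (4 * k + 1) ^ 2 - 192 ∧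
    (SN2 k).c₆ = -((4 * k + 1) * ((4 * k + 1) ^ 2 + 576)) ∧
    (SN2 k).Δ = -((4 * k + 1) ^ 2 + 64) ^ 2 := by
  refine ⟨?_, ?_, ?_⟩ <;>
    simp only [SN2, WeierstrassCurve.c₄, WeierstrassCurve.c₆, WeierstrassCurve.Δ,
      WeierstrassCurve.b₂, WeierstrassCurve.b₄, WeierstrassCurve.b₆, WeierstrassCurve.b₈] <;>
    ring

/-- The point of order two of `SN1 k`. -/
theorem SN1_root (k : ℤ) : (4 : ℚ) * 0 ^ 3 + (SN1 k).b₂ * 0 ^ 2 + 2 * (SN1 k).b₄ * 0 +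
    (SN1 k).b₆ = 0 := by
  simp [SN1, WeierstrassCurve.b₂, WeierstrassCurve.b₄, WeierstrassCurve.b₆]

/-- The point of order two of `SN2 k`. -/
theorem SN2_root (k : ℤ) : (4 : ℚ) * (-(4 * k + 1) / 4) ^ 3 +
    (SN2 k).b₂ * (-(4 * k + 1) / 4) ^ 2 + 2 * (SN2 k).b₄ * (-(4 * k + 1) / 4) +
    (SN2 k).b₆ = 0 := by
  simp only [SN2, WeierstrassCurve.b₂, WeierstrassCurve.b₄, WeierstrassCurve.b₆]
  push_cast
  ring

theorem not_dvd_of_two_pow {q : ℕ} (hq : q.Prime) (hq2 : q ≠ 2) (n : ℕ) :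
    ¬ (q : ℤ) ∣ 2 ^ n := by
  intro h
  have h1 : q ∣ 2 ^ n := by exact_mod_cast h
  exact hq2 ((Nat.prime_dvd_prime_iff_eq hq Nat.prime_two).mp (hq.dvd_of_dvd_pow h1))

theorem SN1_facts {k : ℤ} {q : ℕ} (hq : q.Prime) (h : (4 * k + 1) ^ 2 + 64 = (q : ℤ)) :
    (SN1 k).Δ ≠ 0 ∧ (SN1 k).IsSemistableModel ∧ (SN1 k).conductorLevel = q := by
  have hq2 : q ≠ 2 := by
    rintro rfl
    have : 0 ≤ (4 * k + 1) ^ 2 := sq_nonneg _
    push_cast at h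
    linarith
  have hD : (SN1 k).Δ.natAbs = q ^ 1 := by rw [(SN1_inv k).2.2, h, Int.natAbs_natCast, pow_one]
  refine ⟨?_, isSemistableModel_of_pow hq hD ?_, conductorLevel_of_pow hq one_ne_zero hD⟩
  · rw [(SN1_inv k).2.2, h]
    exact_mod_cast hq.ne_zero
  · intro hd
    apply not_dvd_of_two_pow hq hq2 4
    have h1 : (2 : ℤ) ^ 4 = (q : ℤ) - (SN1 k).c₄ := by rw [(SN1_inv k).1, ← h]; ring
    rw [h1]
    exact dvd_sub (dvd_refl _) hd

theorem SN2_facts {k : ℤ} {q : ℕ} (hq : q.Prime) (h : (4 * k + 1) ^ 2 + 64 = (q : ℤ)) :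
    (SN2 k).Δ ≠ 0 ∧ (SN2 k).IsSemistableModel ∧ (SN2 k).conductorLevel = q := by
  have hq2 : q ≠ 2 := by
    rintro rfl
    have : 0 ≤ (4 * k + 1) ^ 2 := sq_nonneg _
    push_cast at h
    linarith
  have hD : (SN2 k).Δ.natAbs = q ^ 2 := by
    rw [(SN2_inv k).2.2, h, Int.natAbs_neg, Int.natAbs_pow, Int.natAbs_natCast]
  refine ⟨?_, isSemistableModel_of_pow hq hD ?_, conductorLevel_of_pow hq two_ne_zero hD⟩
  · rw [(SN2_inv k).2.2, h, neg_ne_zero]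
    exact pow_ne_zero 2 (by exact_mod_cast hq.ne_zero)
  · intro hd
    apply not_dvd_of_two_pow hq hq2 8
    have h1 : (2 : ℤ) ^ 8 = (q : ℤ) - (SN2 k).c₄ := by rw [(SN2_inv k).1, ← h]; ring
    rw [h1]
    exact dvd_sub (dvd_refl _) hd

/-! ### The theorem of Neumann and Setzer -/

/-- The only bad prime of a curve of prime conductor. -/
theorem eq_of_conductorLevel (hΔ : W.Δ ≠ 0) {q : ℕ} (hq : q.Prime) (hN : W.conductorLevel = q) :
    ∀ ℓ : ℕ, ℓ.Prime → (ℓ : ℤ) ∣ W.Δ → ℓ = q := by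
  intro ℓ hℓ hd
  have h := (W.prime_dvd_conductorLevel_iff hΔ hℓ).mpr hd
  rw [hN] at h
  exact (Nat.prime_dvd_prime_iff_eq hℓ hq).mp h

/-- The invariants in the theorem of Neumann and Setzer. -/
theorem setzer_invariants (hΔ : W.Δ ≠ 0) (hW : W.IsSemistableModel) {q : ℕ} (hq : q.Prime)
    (hbad : ∀ ℓ : ℕ, ℓ.Prime → (ℓ : ℤ) ∣ W.Δ → ℓ = q) {x : ℚ}
    (hx : 4 * x ^ 3 + W.b₂ * x ^ 2 + 2 * W.b₄ * x + W.b₆ = 0) :
    (q = 17 ∧ ((W.c₄ = 33 ∧ W.c₆ = 12015 ∧ W.Δ = -17 ^ 4) ∨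
        (W.c₄ = 273 ∧ W.c₆ = 4455 ∧ W.Δ = 17 ^ 2) ∨
        (W.c₄ = 4353 ∧ W.c₆ = 287199 ∧ W.Δ = 17) ∨ (W.c₄ = 33 ∧ W.c₆ = -81 ∧ W.Δ = 17))) ∨
      ∃ k : ℤ, (4 * k + 1) ^ 2 + 64 = (q : ℤ) ∧
        ((W.c₄ = (4 * k + 1) ^ 2 + 48 ∧ W.c₆ = -((4 * k + 1) * ((4 * k + 1) ^ 2 + 72)) ∧
            W.Δ = q) ∨
          (W.c₄ = (4 * k + 1) ^ 2 - 192 ∧ W.c₆ = -((4 * k + 1) * ((4 * k + 1) ^ 2 + 576)) ∧
            W.Δ = -(q : ℤ) ^ 2)) := by
  have hq2 : q ≠ 2 := by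
    rintro rfl
    rcases eleven_or_le_of_unique hΔ hW hq hbad with h | h <;> omega
  rcases invariants_of_root hΔ hW hq hq2 hbad hx with h | ⟨k, m, hk, h⟩
  · exact Or.inl h
  have hm : m = 0 := by
    by_contra hm
    obtain ⟨p, hp, hpd⟩ := Nat.exists_prime_and_dvd (n := 2 * m + 1) (by omega)
    have hp2 : p ≠ 2 := by
      rintro rfl
      omega
    apply hp2
    rcases h with ⟨h4, -, hD⟩ | ⟨h4, -, hD⟩
    · refine eq_two_of_odd_c₄ hΔ hW hq hbad ?_ hp ?_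
      · rw [h4]
        rintro ⟨c, hc⟩
        have h1 : 2 * (8 * k ^ 2 + 4 * k + 24 - c) + 1 = 0 := by linarith
        omega
      · rw [padicValInt_eq_of_natAbs (n := 2 * m + 1) hq (by
          rw [hD, Int.natAbs_pow, Int.natAbs_natCast])]
        exact hpd
    · refine eq_two_of_odd_c₄ hΔ hW hq hbad ?_ hp ?_
      · rw [h4]
        rintro ⟨c, hc⟩
        have h1 : 2 * (8 * k ^ 2 + 4 * k - 96 - c) + 1 = 0 := by linarith
        omega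
      · rw [padicValInt_eq_of_natAbs (n := (2 * m + 1) * 2) hq (by
          rw [hD, Int.natAbs_neg, Int.natAbs_pow, Int.natAbs_pow, Int.natAbs_natCast, ← pow_mul])]
        exact hpd.mul_right 2
  subst hm
  rw [mul_zero, zero_add, pow_one] at hk h
  exact Or.inr ⟨k, hk, h⟩

/-- **The theorem of Neumann and Setzer.** A semistable elliptic curve over `ℚ` of prime conductor
`q` with a rational point of order two is, over `ℤ`, one of the four curves of conductor `17`, or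
`q = (4 k + 1)² + 64` and it is one of the two curves `SN1 k`, `SN2 k`. -/
theorem setzer_neumann (hΔ : W.Δ ≠ 0) (hW : W.IsSemistableModel) {q : ℕ} (hq : q.Prime)
    (hN : W.conductorLevel = q) {x : ℚ}
    (hx : 4 * x ^ 3 + W.b₂ * x ^ 2 + 2 * W.b₄ * x + W.b₆ = 0) :
    ∃ E : WeierstrassCurve ℤ,
      ((q = 17 ∧ (E = E17a1 ∨ E = E17a2 ∨ E = E17a3 ∨ E = E17a4)) ∨
        ∃ k : ℤ, (4 * k + 1) ^ 2 + 64 = (q : ℤ) ∧ (E = SN1 k ∨ E = SN2 k)) ∧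
      ∃ r s t : ℤ, (⟨1, r, s, t⟩ : VariableChange ℤ) • W = E := by
  rcases setzer_invariants hΔ hW hq (eq_of_conductorLevel hΔ hq hN) hx with
    ⟨h17, ⟨h4, h6, -⟩ | ⟨h4, h6, -⟩ | ⟨h4, h6, -⟩ | ⟨h4, h6, -⟩⟩ |
      ⟨k, hk, ⟨h4, h6, -⟩ | ⟨h4, h6, -⟩⟩
  · exact ⟨E17a1, Or.inl ⟨h17, Or.inl rfl⟩,
      exists_variableChange (by rw [h4, E17a1_c₄]) (by rw [h6, E17a1_c₆])⟩
  · exact ⟨E17a2, Or.inl ⟨h17, Or.inr (Or.inl rfl)⟩,
      exists_variableChange (by rw [h4, E17a2_c₄]) (by rw [h6, E17a2_c₆])⟩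
  · exact ⟨E17a3, Or.inl ⟨h17, Or.inr (Or.inr (Or.inl rfl))⟩,
      exists_variableChange (by rw [h4, E17a3_c₄]) (by rw [h6, E17a3_c₆])⟩
  · exact ⟨E17a4, Or.inl ⟨h17, Or.inr (Or.inr (Or.inr rfl))⟩,
      exists_variableChange (by rw [h4, E17a4_c₄]) (by rw [h6, E17a4_c₆])⟩
  · exact ⟨SN1 k, Or.inr ⟨k, hk, Or.inl rfl⟩,
      exists_variableChange (by rw [h4, (SN1_inv k).1]) (by rw [h6, (SN1_inv k).2.1])⟩
  · exact ⟨SN2 k, Or.inr ⟨k, hk, Or.inr rfl⟩,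
      exists_variableChange (by rw [h4, (SN2_inv k).1]) (by rw [h6, (SN2_inv k).2.1])⟩

/-- **Neumann, Setzer**: there is an elliptic curve over `ℚ` of prime conductor `q` with a rational
point of order two if and only if `q = 17` or `q = a² + 64`. -/
theorem setzer_neumann_iff {q : ℕ} (hq : q.Prime) :
    (∃ W : WeierstrassCurve ℤ, W.Δ ≠ 0 ∧ W.IsSemistableModel ∧ W.conductorLevel = q ∧
      ∃ x : ℚ, 4 * x ^ 3 + W.b₂ * x ^ 2 + 2 * W.b₄ * x + W.b₆ = 0) ↔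
    q = 17 ∨ ∃ a : ℤ, (q : ℤ) = a ^ 2 + 64 := by
  constructor
  · rintro ⟨W, hΔ, hW, hN, x, hx⟩
    rcases setzer_invariants hΔ hW hq (eq_of_conductorLevel hΔ hq hN) hx with ⟨h, -⟩ | ⟨k, hk, -⟩
    · exact Or.inl h
    · exact Or.inr ⟨4 * k + 1, hk.symm⟩
  · rintro (rfl | ⟨a, ha⟩)
    · exact ⟨E17a4, by rw [E17a4_Δ]; norm_num, E17a4_semistable, E17a4_conductorLevel, 1,
        E17a4_root⟩
    · have hodd : ¬ (2 : ℤ) ∣ a := by
        rintro ⟨c, rfl⟩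
        have h1 : (2 : ℤ) ∣ (q : ℤ) := ⟨2 * c ^ 2 + 32, by rw [ha]; ring⟩
        have h2 : 2 ∣ q := by exact_mod_cast h1
        have h3 := (Nat.prime_dvd_prime_iff_eq Nat.prime_two hq).mp h2
        subst h3
        have : 0 ≤ (2 * c) ^ 2 := sq_nonneg _
        push_cast at ha
        linarith
      obtain ⟨k, hk⟩ : ∃ k : ℤ, a = 4 * k + 1 ∨ a = -(4 * k + 1) := by
        rcases (by omega : a % 4 = 1 ∨ a % 4 = 3) with h | h
        · exact ⟨a / 4, Or.inl (by omega)⟩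
        · exact ⟨-(a / 4) - 1, Or.inr (by omega)⟩
      have hk' : (4 * k + 1) ^ 2 + 64 = (q : ℤ) := by
        rw [ha]
        rcases hk with rfl | rfl <;> ring
      obtain ⟨h1, h2, h3⟩ := SN1_facts hq hk'
      exact ⟨SN1 k, h1, h2, h3, 0, SN1_root k⟩

end Fermat.Agent.Cor.MO
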