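import Fermat.Agent.Corollaries.MO.GoodTwo
import Fermat.Agent.Corollaries.MO.Prime
import Fermat.Agent.Corollaries.PP.Two

/-!
# Semistable curves with a rational point of order two, and `xᵖ + 2ᵏ yᵖ = z²` for `p = 5, 7, 13`

If `W` is semistable with a rational point of order two, the number of points modulo a good odd
prime `ℓ` is even and at most `2 ℓ + 1`; if `W[p]` is reducible it is divisible by `2 p`. So
(`irreducible_of_root_of_good`) `W[p]` is irreducible if some odd prime `ℓ < p` is a prime of good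
reduction; for instance `p = 5` if `3 ∤ Δ`, and `p = 13` if `1155 ∤ Δ`.

* `pow_add_two_pow_mul_pow_ne_sq_of_good`: `xᵖ + 2ᵏ yᵖ = z²` has no solution with `x` odd, `x`, `y`
  coprime, `64 ∣ 2ᵏ yᵖ ≠ 0`, if some odd prime `ℓ < p` does not divide `x y`; every prime `p ≥ 5`;
* `pow_add_pow_ne_sq_thirteen`: `x¹³ + y¹³ = z²` has no solution with `x`, `y` coprime, `x y ≠ 0`
  even and not divisible by `1155 = 3 · 5 · 7 · 11`.
-/

set_option autoImplicit false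

noncomputable section

namespace Fermat.Agent.Cor.MO

open WeierstrassCurve Fermat.Agent.Cor.Table

variable {W : WeierstrassCurve ℤ}

/-- **`W` semistable with a rational point of order two: `W[p]` is irreducible if some odd prime
`ℓ < p` is a prime of good reduction.** -/
theorem irreducible_of_root_of_good (hΔ : W.Δ ≠ 0) (hW : W.IsSemistableModel) {x : ℚ}
    (hx : 4 * x ^ 3 + W.b₂ * x ^ 2 + 2 * W.b₄ * x + W.b₆ = 0) {ℓ : ℕ} (hℓ : ℓ.Prime)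
    (hℓ2 : ℓ ≠ 2) (hg : W.IsGoodPrimeFor ℓ) {p : ℕ} (hp : p.Prime) (hlt : ℓ < p) :
    W.ModRepIsIrreducible p := by
  by_contra hred
  have hp2 : p ≠ 2 := by
    have := hℓ.two_le
    omega
  have h1 := HW.dvd_of_reducible hΔ hW hp hp2 hred hℓ hg (by omega)
  have h2 := even_apOfModel_of_root hΔ hx hℓ hℓ2 hg
  have hodd : (2 : ℤ) ∣ (ℓ : ℤ) + 1 := by
    have h3 := hℓ.eq_two_or_odd
    omega
  have h3 : (2 : ℤ) ∣ (ℓ : ℤ) + 1 - W.apOfModel ℓ := dvd_sub hodd h2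
  have hcop : IsCoprime (2 : ℤ) (p : ℤ) := by
    have h4 : Nat.Coprime 2 p := (Nat.coprime_primes Nat.prime_two hp).mpr (Ne.symm hp2)
    exact_mod_cast Nat.isCoprime_iff_coprime.mpr h4
  have h4 : (2 * (p : ℤ)) ∣ (ℓ : ℤ) + 1 - W.apOfModel ℓ := hcop.mul_dvd h3 h1
  have : Fact ℓ.Prime := ⟨hℓ⟩
  obtain ⟨h5, h6⟩ := S58aux.card_bounds ℓ (W.reductionMod ℓ)
  rw [WeierstrassCurve.apOfModel, WeierstrassCurve.traceOfFrobenius, Nat.card_zmod] at h4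
  have h7 : ((2 * p : ℕ) : ℤ) ∣ ((W.reductionMod ℓ).card : ℤ) := by
    have h8 : ((W.reductionMod ℓ).card : ℤ) =
        (ℓ : ℤ) + 1 - ((ℓ : ℤ) + 1 - ((W.reductionMod ℓ).card : ℤ)) := by ring
    rw [h8]
    push_cast
    exact h4
  have h9 : 2 * p ∣ (W.reductionMod ℓ).card := Int.natCast_dvd_natCast.mp h7
  have h10 := Nat.le_of_dvd (by omega) h9
  omega

/-- The curve `Y² + XY = X³ + s X² + t X` has the point `(0, 0)` of order two. -/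
theorem curveTwo_root (s t : ℤ) : (4 : ℚ) * 0 ^ 3 + (curveTwo s t).b₂ * 0 ^ 2 +
    2 * (curveTwo s t).b₄ * 0 + (curveTwo s t).b₆ = 0 := by
  simp [curveTwo, WeierstrassCurve.b₆]

/-- **The key statement**: `a + 64 t = c²`, `a`, `t` coprime and not zero, `a` odd, and `ℓ < p` an
odd prime not dividing `a t`: for every level `L` of genus zero there is a prime `q ∤ L` with
`p ∤ v_q(t² a)`. -/
theorem exists_prime_two_of_good {p : ℕ} (hp : p.Prime) {a t c : ℤ} (h : a + 64 * t = c ^ 2)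
    (ha : a ≠ 0) (ht : t ≠ 0) (hat : IsCoprime a t) (hodd : ¬ (2 : ℤ) ∣ a) {ℓ : ℕ}
    (hℓ : ℓ.Prime) (hℓ2 : ℓ ≠ 2) (hlt : ℓ < p) (hℓa : ¬ (ℓ : ℤ) ∣ a) (hℓt : ¬ (ℓ : ℤ) ∣ t)
    {L : ℕ} (hL : L ∈ zeroLevels) :
    ∃ q : ℕ, q.Prime ∧ ¬ q ∣ L ∧ ¬ p ∣ padicValInt q (t ^ 2 * a) := by
  obtain ⟨s, hs⟩ : ∃ s : ℤ, c ^ 2 = (1 + 4 * s) ^ 2 := by
    have hc : ¬ (2 : ℤ) ∣ c := by
      intro h2
      apply hodd
      have h3 : (2 : ℤ) ∣ c ^ 2 := dvd_pow h2 two_ne_zero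
      omega
    rcases (by omega : c % 4 = 1 ∨ c % 4 = 3) with h4 | h4
    · exact ⟨c / 4, by rw [show 1 + 4 * (c / 4) = c by omega]⟩
    · exact ⟨(-c) / 4, by rw [show 1 + 4 * (-c / 4) = -c by omega, neg_sq]⟩
  have ha' : a = (1 + 4 * s) ^ 2 - 64 * t := by rw [← hs, ← h]; ring
  have hΔ : (curveTwo s t).Δ = t ^ 2 * a := by rw [curveTwo_Δ, ← ha']
  have hΔ0 : (curveTwo s t).Δ ≠ 0 := by
    rw [hΔ]; exact mul_ne_zero (pow_ne_zero _ ht) ha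
  have hss : (curveTwo s t).IsSemistableModel := curveTwo_semistable (by rwa [← ha'])
  have hg : (curveTwo s t).IsGoodPrimeFor ℓ := by
    intro hd
    rw [hΔ] at hd
    have hℓ' := Nat.prime_iff_prime_int.mp hℓ
    rcases hℓ'.dvd_or_dvd hd with h3 | h3
    · exact hℓt (hℓ'.dvd_of_dvd_pow h3)
    · exact hℓa h3
  obtain ⟨q, h1, -, h2, h3⟩ := exists_prime_not_dvd_of_mem hΔ0 hss hp
    (by have := hℓ.two_le; omega)
    (irreducible_of_root_of_good hΔ0 hss (curveTwo_root s t) hℓ hℓ2 hg hp hlt) hL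
  exact ⟨q, h1, h2, by rwa [hΔ] at h3⟩

/-- **`xᵖ + 2ᵏ yᵖ = z²`** with `x` odd, `x`, `y` coprime, `64 ∣ 2ᵏ yᵖ ≠ 0`: no solution if some odd
prime `ℓ < p` does not divide `x y`. -/
theorem pow_add_two_pow_mul_pow_ne_sq_of_good {p : ℕ} (hp : p.Prime) {x y : ℤ} (hy : y ≠ 0)
    (hxy : IsCoprime x y) (hx : ¬ (2 : ℤ) ∣ x) {k : ℕ} (h64 : (64 : ℤ) ∣ 2 ^ k * y ^ p) {ℓ : ℕ}
    (hℓ : ℓ.Prime) (hℓ2 : ℓ ≠ 2) (hlt : ℓ < p) (hℓx : ¬ (ℓ : ℤ) ∣ x) (hℓy : ¬ (ℓ : ℤ) ∣ y)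
    (z : ℤ) : x ^ p + 2 ^ k * y ^ p ≠ z ^ 2 := by
  intro h
  obtain ⟨t, ht⟩ := h64
  have hx0 : x ≠ 0 := fun h0 => hx (h0 ▸ dvd_zero _)
  have hb0 : (2 : ℤ) ^ k * y ^ p ≠ 0 := mul_ne_zero (pow_ne_zero _ two_ne_zero) (pow_ne_zero _ hy)
  have ht0 : t ≠ 0 := by
    rintro rfl
    exact hb0 (by rw [ht, mul_zero])
  have hc2 : IsCoprime x 2 := ((Int.prime_two.irreducible.coprime_iff_not_dvd).mpr hx).symm
  have hcop : IsCoprime (x ^ p) (64 * t) := by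
    rw [← ht]
    exact (hc2.pow).mul_right hxy.pow
  have hℓ' := Nat.prime_iff_prime_int.mp hℓ
  have hℓ2' : ¬ (ℓ : ℤ) ∣ 2 := by
    intro h1
    exact hℓ2 ((Nat.prime_dvd_prime_iff_eq hℓ Nat.prime_two).mp (by exact_mod_cast h1))
  obtain ⟨q, hq, hq2, hv⟩ := exists_prime_two_of_good hp (a := x ^ p) (t := t) (c := z)
    (by rw [← ht]; exact h) (pow_ne_zero _ hx0) ht0 hcop.of_mul_right_right
    (fun h1 => hx (Int.prime_two.dvd_of_dvd_pow h1)) hℓ hℓ2 hlt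
    (fun h1 => hℓx (hℓ'.dvd_of_dvd_pow h1)) (fun h1 => by
      have h2 : (ℓ : ℤ) ∣ 2 ^ k * y ^ p := by rw [ht]; exact h1.mul_left 64
      rcases hℓ'.dvd_or_dvd h2 with h3 | h3
      · exact hℓ2' (hℓ'.dvd_of_dvd_pow h3)
      · exact hℓy (hℓ'.dvd_of_dvd_pow h3)) (L := 2) (by decide)
  apply hv
  have : Fact q.Prime := ⟨hq⟩
  have hq' := Nat.prime_iff_prime_int.mp hq
  have hq2' : ¬ (q : ℤ) ∣ 2 := by
    intro h1
    have h2 : q ∣ 2 := by exact_mod_cast h1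
    exact hq2 h2
  have hpow : ∀ j : ℕ, padicValInt q (2 ^ j) = 0 := fun j =>
    padicValInt.eq_zero_of_not_dvd fun h1 => hq2' (hq'.dvd_of_dvd_pow h1)
  have ht' : padicValInt q t = p * padicValInt q y := by
    have h1 : padicValInt q (2 ^ k * y ^ p) = padicValInt q (2 ^ 6 * t) := by
      rw [ht]
      norm_num
    rw [padicValInt.mul (pow_ne_zero _ two_ne_zero) (pow_ne_zero _ hy),
      padicValInt.mul (pow_ne_zero _ two_ne_zero) ht0, hpow, hpow, zero_add, zero_add,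
      padicValInt_pow_eq] at h1
    exact h1.symm
  rw [padicValInt.mul (pow_ne_zero _ ht0) (pow_ne_zero _ hx0), padicValInt_pow_eq, ht',
    padicValInt_pow_eq]
  exact dvd_add ((dvd_mul_right p _).mul_left 2) (dvd_mul_right p _)

/-- **`x⁵ + 2ᵏ y⁵ = z²`**, `k ≥ 6`, `x` odd, `x`, `y` coprime, `3 ∤ x y`: no solution. -/
theorem pow_five_add_two_pow_ne_sq {x y : ℤ} (hy : y ≠ 0) (hxy : IsCoprime x y)
    (hx : ¬ (2 : ℤ) ∣ x) {k : ℕ} (hk : 6 ≤ k) (h3x : ¬ (3 : ℤ) ∣ x) (h3y : ¬ (3 : ℤ) ∣ y)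
    (z : ℤ) : x ^ 5 + 2 ^ k * y ^ 5 ≠ z ^ 2 :=
  pow_add_two_pow_mul_pow_ne_sq_of_good Nat.prime_five hy hxy hx
    (Dvd.dvd.mul_right (by simpa using pow_dvd_pow (2 : ℤ) hk) _) Nat.prime_three (by norm_num)
    (by norm_num) (by exact_mod_cast h3x) (by exact_mod_cast h3y) z

/-- **`x¹³ + y¹³ = z²`** has no solution with `x`, `y` coprime, `x y ≠ 0` even and not divisible by
`1155 = 3 · 5 · 7 · 11`. -/
theorem pow_add_pow_ne_sq_thirteen {x y : ℤ} (hx0 : x ≠ 0) (hy0 : y ≠ 0) (hxy : IsCoprime x y)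
    (heven : (2 : ℤ) ∣ x * y) (h : ¬ (1155 : ℤ) ∣ x * y) (z : ℤ) : x ^ 13 + y ^ 13 ≠ z ^ 2 := by
  obtain ⟨ℓ, hℓ, hℓ2, hlt, hd⟩ : ∃ ℓ : ℕ, ℓ.Prime ∧ ℓ ≠ 2 ∧ ℓ < 13 ∧ ¬ (ℓ : ℤ) ∣ x * y := by
    by_contra hcon
    push Not at hcon
    have h3 := hcon 3 (by norm_num) (by norm_num) (by norm_num)
    have h5 := hcon 5 (by norm_num) (by norm_num) (by norm_num)
    have h7 := hcon 7 (by norm_num) (by norm_num) (by norm_num)
    have h11 := hcon 11 (by norm_num) (by norm_num) (by norm_num)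
    push_cast at h3 h5 h7 h11
    omega
  have key : ∀ x y : ℤ, y ≠ 0 → IsCoprime x y → (2 : ℤ) ∣ y → ¬ (ℓ : ℤ) ∣ x * y →
      x ^ 13 + y ^ 13 ≠ z ^ 2 := by
    intro x y hy0 hxy h2 hd h
    refine pow_add_two_pow_mul_pow_ne_sq_of_good (p := 13) (by norm_num) hy0 hxy (k := 0)
      (fun h1 => Int.prime_two.not_isUnit (hxy.isUnit_of_dvd' h1 h2)) ?_ hℓ hℓ2 hlt
      (fun h1 => hd (h1.mul_right y)) (fun h1 => hd (h1.mul_left x)) z (by simpa using h)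
    rw [pow_zero, one_mul]
    exact sixtyfour_dvd (by norm_num) h2
  rcases Int.prime_two.dvd_or_dvd heven with h2 | h2
  · intro h1
    exact key y x hx0 hxy.symm h2 (by rwa [mul_comm]) (by rw [add_comm]; exact h1)
  · exact key x y hy0 hxy h2 hd

end Fermat.Agent.Cor.MO

end
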