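import Fermat.Agent.Corollaries.MO.Odd
import Fermat.Agent.Corollaries.Surj.TateAll
import Fermat.Agent.Corollaries.Mazur.Main

/-!
# Semistable curves with good reduction at `2`, at `3` or at `5`

`W` a semistable Weierstrass equation over `ℤ`. If `W[p]` is reducible, then `p` divides the number
of points modulo every good prime `ℓ ≠ p`, which is at most `2 ℓ + 1`. Hence:

* if `2 ∤ Δ`, then for every prime `p ≥ 7` the group `Gal(ℚ̄/ℚ)` acts on `W[p]` and on `T_p W`
  through all automorphisms (`repP_surjective_of_good_two`, `tate_surjective_of_good_two`), one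
  element of the Galois group for all `p ≥ 7` together (`exists_adelic_of_good_two`), and on `W[N]`
  for all `N` prime to `30` (`surjMod_of_good_two`);
* if `30 ∤ Δ`, the same for all primes `p ≥ 11`, the prime `13` included (`irreducible_of_thirty`,
  `tate_surjective_of_thirty`; Mazur's theorem gives `p = 11` and `p ≥ 17` for all semistable `W`).
-/

set_option autoImplicit false

noncomputable section

open WeierstrassCurve WeierstrassCurve.Affine WeierstrassCurve.Affine.Point Module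
open Fermat.Agent.ECRed Fermat.Agent.Tate Fermat.Agent.Classic
open scoped WeierstrassCurve.Affine

namespace Fermat.Agent.Cor.MO

local notation "Γℚ" => (AlgebraicClosure ℚ ≃ₐ[ℚ] AlgebraicClosure ℚ)

variable {W : WeierstrassCurve ℤ}

/-- If `W[p]` is reducible and `ℓ ≠ p` is a good prime, then `p ≤ 2 ℓ + 1`. -/
theorem le_of_reducible_of_good (hΔ : W.Δ ≠ 0) (hW : W.IsSemistableModel) {ℓ : ℕ} (hℓ : ℓ.Prime)
    (hg : W.IsGoodPrimeFor ℓ) {p : ℕ} (hp : p.Prime) (hp2 : p ≠ 2) (hne : ℓ ≠ p)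
    (hred : ¬ W.ModRepIsIrreducible p) : p ≤ 2 * ℓ + 1 := by
  have h1 := HW.dvd_of_reducible hΔ hW hp hp2 hred hℓ hg hne
  have : Fact ℓ.Prime := ⟨hℓ⟩
  obtain ⟨h3, h4⟩ := S58aux.card_bounds ℓ (W.reductionMod ℓ)
  rw [WeierstrassCurve.apOfModel, WeierstrassCurve.traceOfFrobenius, Nat.card_zmod] at h1
  have h5 : (p : ℤ) ∣ ((W.reductionMod ℓ).card : ℤ) := by
    have h6 : ((W.reductionMod ℓ).card : ℤ) =
        (ℓ : ℤ) + 1 - ((ℓ : ℤ) + 1 - ((W.reductionMod ℓ).card : ℤ)) := by ring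
    rw [h6]
    exact h1
  have h7 : p ∣ (W.reductionMod ℓ).card := Int.natCast_dvd_natCast.mp h5
  exact (Nat.le_of_dvd (by omega) h7).trans h4

/-- **`W[p]` is irreducible for all primes `p ≥ 11`**, the prime `13` included, if `W` is
semistable and `30 ∤ Δ`. -/
theorem irreducible_of_thirty (hΔ : W.Δ ≠ 0) (hW : W.IsSemistableModel) (h30 : ¬ (30 : ℤ) ∣ W.Δ)
    {p : ℕ} (hp : p.Prime) (h11 : 11 ≤ p) : W.ModRepIsIrreducible p := by
  by_contra hred
  have hex : W.IsGoodPrimeFor 2 ∨ W.IsGoodPrimeFor 3 ∨ W.IsGoodPrimeFor 5 := by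
    by_contra hcon
    push Not at hcon
    obtain ⟨h2, h3, h5⟩ := hcon
    have h2' : (2 : ℤ) ∣ W.Δ := by
      by_contra h
      exact h2 (by exact_mod_cast h)
    have h3' : (3 : ℤ) ∣ W.Δ := by
      by_contra h
      exact h3 (by exact_mod_cast h)
    have h5' : (5 : ℤ) ∣ W.Δ := by
      by_contra h
      exact h5 (by exact_mod_cast h)
    omega
  have hp13 : p = 11 ∨ 13 ≤ p := by
    rcases Nat.lt_or_ge p 13 with h | h
    · left
      have h12 : p ≠ 12 := by
        rintro rfl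
        exact absurd hp (by norm_num)
      omega
    · exact Or.inr h
  rcases hp13 with rfl | h13
  · exact hred (modRepIsIrreducible hp (Or.inl rfl) hΔ hW)
  · rcases hex with h | h | h
    · have := le_of_reducible_of_good hΔ hW Nat.prime_two h hp (by omega) (by omega) hred
      omega
    · have := le_of_reducible_of_good hΔ hW Nat.prime_three h hp (by omega) (by omega) hred
      omega
    · have := le_of_reducible_of_good hΔ hW Nat.prime_five h hp (by omega) (by omega) hred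
      omega

/-- **`Gal(ℚ̄/ℚ)` acts on `T_p W` through all automorphisms for every prime `p ≥ 11`**, the prime
`13` included, if `W` is semistable and `30 ∤ Δ`. -/
theorem tate_surjective_of_thirty (hΔ : W.Δ ≠ 0) (hW : W.IsSemistableModel)
    (h30 : ¬ (30 : ℤ) ∣ W.Δ) {p : ℕ} [hp : Fact p.Prime] (h11 : 11 ≤ p)
    (e : TMod p ((W.map (Int.castRingHom ℚ))⁄(AlgebraicClosure ℚ)).Point
      ≃ₗ[ℤ_[p]] TMod p ((W.map (Int.castRingHom ℚ))⁄(AlgebraicClosure ℚ)).Point) :
    ∃ σ : Γℚ, (tateRep (W.map (Int.castRingHom ℚ)) (map_Δ_ne_zero hΔ) p).ρ σ = e.toLinearMap :=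
  tate_surjective_of_semistable hΔ hW (by omega) (irreducible_of_thirty hΔ hW h30 hp.out h11) e

/-- **`Gal(ℚ̄/ℚ) → GL₂(𝔽_p)` is surjective for every prime `p ≥ 7`** if `W` is semistable with good
reduction at `2`. -/
theorem repP_surjective_of_good_two (hΔ : W.Δ ≠ 0) (hW : W.IsSemistableModel)
    (h2 : W.IsGoodPrimeFor 2) {p : ℕ} [hp : Fact p.Prime] (h7 : 7 ≤ p) :
    Function.Surjective (repP p hΔ) :=
  repP_surjective hΔ hW (by omega) (modRepIsIrreducible_of_good_two hΔ hW h2 hp.out h7)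

/-- **`Gal(ℚ̄/ℚ)` acts on `T_p W` through all automorphisms for every prime `p ≥ 7`** if `W` is
semistable with good reduction at `2`. -/
theorem tate_surjective_of_good_two (hΔ : W.Δ ≠ 0) (hW : W.IsSemistableModel)
    (h2 : W.IsGoodPrimeFor 2) {p : ℕ} [hp : Fact p.Prime] (h7 : 7 ≤ p)
    (e : TMod p ((W.map (Int.castRingHom ℚ))⁄(AlgebraicClosure ℚ)).Point
      ≃ₗ[ℤ_[p]] TMod p ((W.map (Int.castRingHom ℚ))⁄(AlgebraicClosure ℚ)).Point) :
    ∃ σ : Γℚ, (tateRep (W.map (Int.castRingHom ℚ)) (map_Δ_ne_zero hΔ) p).ρ σ = e.toLinearMap :=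
  tate_surjective_of_semistable hΔ hW (by omega)
    (modRepIsIrreducible_of_good_two hΔ hW h2 hp.out h7) e

/-- **One element of `Gal(ℚ̄/ℚ)` for all primes `p ≥ 7` together**: `W` semistable with good
reduction at `2`, `e p` an automorphism of `T_p W` for every `p`. -/
theorem exists_adelic_of_good_two (hΔ : W.Δ ≠ 0) (hW : W.IsSemistableModel)
    (h2 : W.IsGoodPrimeFor 2)
    (e : ∀ (p : ℕ) [Fact p.Prime],
      TMod p ((W.map (Int.castRingHom ℚ))⁄(AlgebraicClosure ℚ)).Point ≃ₗ[ℤ_[p]]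
        TMod p ((W.map (Int.castRingHom ℚ))⁄(AlgebraicClosure ℚ)).Point) :
    ∃ σ : Γℚ, ∀ (p : ℕ) [Fact p.Prime], 7 ≤ p →
      (tateRep (W.map (Int.castRingHom ℚ)) (map_Δ_ne_zero hΔ) p).ρ σ = (e p).toLinearMap := by
  obtain ⟨σ, hσ⟩ := exists_adelic_of_odd hΔ hW e
  exact ⟨σ, fun p hp h7 => hσ p (by omega) (modRepIsIrreducible_of_good_two hΔ hW h2 hp.out h7)⟩

/-- **`Gal(ℚ̄/ℚ)` acts on `W[N]` through all automorphisms for every `N` prime to `30`**, `W`
semistable with good reduction at `2`. -/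
theorem surjMod_of_good_two (hΔ : W.Δ ≠ 0) (hW : W.IsSemistableModel) (h2 : W.IsGoodPrimeFor 2)
    {N : ℕ} (hN : Nat.Coprime N 30) : SurjMod W N := by
  have hodd : Odd N := by
    rw [← Nat.not_even_iff_odd]
    intro h
    have h3 : 2 ∣ Nat.gcd N 30 := Nat.dvd_gcd (even_iff_two_dvd.mp h) (by norm_num)
    rw [hN] at h3
    omega
  refine surjMod_of_odd hΔ hW hodd fun p hp hpN => ?_
  refine modRepIsIrreducible_of_good_two hΔ hW h2 hp ?_
  by_contra hlt
  have h1 := hp.two_le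
  have h4 : p ∣ 30 := by
    have h5 : p = 2 ∨ p = 3 ∨ p = 4 ∨ p = 5 ∨ p = 6 := by omega
    rcases h5 with rfl | rfl | rfl | rfl | rfl
    · norm_num
    · norm_num
    · exact absurd hp (by norm_num)
    · norm_num
    · norm_num
  have h3 : p ∣ Nat.gcd N 30 := Nat.dvd_gcd hpN h4
  rw [hN] at h3
  exact hp.one_lt.ne' (Nat.dvd_one.mp h3)

end Fermat.Agent.Cor.MO

end
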