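import Fermat.Agent.Corollaries.MO.Main
import Fermat.Agent.Corollaries.Surj.TateAll

/-!
# Galois representations of elliptic curves of prime conductor

Let `W` be a semistable Weierstrass equation over `ℤ` of prime conductor `q`.

* `reducible_cases`: if `W[p]` is reducible for a prime `p`, then `p = 2` and `q = 17` or
  `q = a² + 64`, or `p = 3` and `q = 19` or `q = 37`, or `p = 5` and `q = 11`.

Let `q` be none of `11`, `17`, `19`, `37` and not of the form `a² + 64`. Then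

* `modRepIsIrreducible_all`: `W[p]` is irreducible for **every** prime `p`;
* `repP_surjective_all`, `tate_surjective_all`: `Gal(ℚ̄/ℚ)` acts on `W[p]` and on the Tate module
  `T_p W` through all automorphisms, for **every** prime `p`;
* `exists_adelic_odd`: one element of `Gal(ℚ̄/ℚ)` realises given automorphisms of the Tate modules
  for all odd `p` together;
* `eq_zero_of_fixed`: there is no rational torsion point other than `0` (Miyawaki);
* `eq_torsion_of_stable`: the only finite subgroups of `W(ℚ̄)` stable under `Gal(ℚ̄/ℚ)` are the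
  `W[n]`: the curve has no rational isogenies except the multiplications.
-/

set_option autoImplicit false

noncomputable section

namespace Fermat.Agent.Cor.MO

open WeierstrassCurve WeierstrassCurve.Affine.Point
open scoped WeierstrassCurve.Affine
open Fermat.Agent.ECFrob Fermat.Agent.Classic Fermat.Agent.Tate Fermat.Agent.S30aux
open Fermat.Agent.Cor.Table
open Matrix

local notation "Γℚ" => (AlgebraicClosure ℚ ≃ₐ[ℚ] AlgebraicClosure ℚ)

variable {W : WeierstrassCurve ℤ}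

/-! ### Reducible representations -/

/-- **If `W[2]` is reducible, there is a rational point of order two** (any `W`). -/
theorem exists_root_of_reducible_two (hΔ : W.Δ ≠ 0) (hred : ¬ W.ModRepIsIrreducible 2) :
    ∃ x : ℚ, 4 * x ^ 3 + W.b₂ * x ^ 2 + 2 * W.b₄ * x + W.b₆ = 0 := by
  obtain ⟨v, hv, hst⟩ := HW.exists_stable_of_reducible (p := 2) hΔ hred
  refine not_irreducible_two hΔ fun ℓ hℓ h2 hg => ?_
  obtain ⟨A, hA, φ, hφ⟩ := Frob.exists_frobenius ℓ hℓ
  have htr := trace_repP_frobenius (p := 2) hΔ hℓ hg h2 hA hφ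
  have hdet := det_repP_frobenius (p := 2) hΔ hℓ hg h2 hA hφ
  obtain ⟨a, ha⟩ := hst φ
  have ha' : (repP 2 hΔ φ : Matrix (Fin 2) (Fin 2) (ZMod 2)) *ᵥ v = a • v := ha
  have h5 : ((ℓ : ℕ) : ZMod 2) = 1 := by
    have h6 : ℓ % 2 = 1 := Nat.odd_iff.mp (hℓ.odd_of_ne_two h2)
    rw [← ZMod.natCast_mod, h6, Nat.cast_one]
  have hfix : (repP 2 hΔ φ : Matrix (Fin 2) (Fin 2) (ZMod 2)) *ᵥ v = v := by
    have h01 : ∀ c : ZMod 2, c = 0 ∨ c = 1 := by decide
    rcases h01 a with rfl | rfl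
    · exfalso
      rw [zero_smul] at ha'
      have h1 := Matrix.exists_mulVec_eq_zero_iff.mp ⟨v, hv, ha'⟩
      rw [hdet, h5] at h1
      exact one_ne_zero h1
    · rw [ha', one_smul]
  have h1 : (1 - (repP 2 hΔ φ : Matrix (Fin 2) (Fin 2) (ZMod 2))).det = 0 := by
    refine Matrix.exists_mulVec_eq_zero_iff.mp ⟨v, hv, ?_⟩
    rw [Matrix.sub_mulVec, one_mulVec, hfix, sub_self]
  have h3 : ∀ M : Matrix (Fin 2) (Fin 2) (ZMod 2), (1 - M).det = 1 - M.trace + M.det := by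
    decide
  rw [h3, htr, hdet, h5] at h1
  have h8 : (2 : ZMod 2) = 0 := by decide
  have h7 : ((W.apOfModel ℓ : ℤ) : ZMod 2) = 0 := by linear_combination -h1 + h8
  exact_mod_cast (ZMod.intCast_zmod_eq_zero_iff_dvd (W.apOfModel ℓ) 2).mp h7

/-- **The reducible mod `p` representations of curves of prime conductor.** -/
theorem reducible_cases (hΔ : W.Δ ≠ 0) (hW : W.IsSemistableModel) {q : ℕ} (hq : q.Prime)
    (hN : W.conductorLevel = q) {p : ℕ} (hp : p.Prime) (hred : ¬ W.ModRepIsIrreducible p) :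
    (p = 2 ∧ (q = 17 ∨ ∃ a : ℤ, (q : ℤ) = a ^ 2 + 64)) ∨ (p = 3 ∧ (q = 19 ∨ q = 37)) ∨
      (p = 5 ∧ q = 11) := by
  have hbad := eq_of_conductorLevel hΔ hq hN
  have h5 := le_five_of_reducible hΔ hW (isGoodPrimeFor_two hΔ hW hq hbad) hp hred
  have h2 := hp.two_le
  interval_cases p
  · obtain ⟨x, hx⟩ := exists_root_of_reducible_two hΔ hred
    exact Or.inl ⟨rfl, (setzer_neumann_iff hq).mp ⟨W, hΔ, hW, hN, x, hx⟩⟩
  · rcases invariants_of_reducible_three hΔ hW hq hbad hred with ⟨h, -⟩ | ⟨h, -⟩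
    · exact Or.inr (Or.inl ⟨rfl, Or.inl h⟩)
    · exact Or.inr (Or.inl ⟨rfl, Or.inr h⟩)
  · exact absurd hp (by norm_num)
  · exact Or.inr (Or.inr ⟨rfl, (invariants_of_reducible_five hΔ hW hq hbad hred).1⟩)

/-- The prime `q` is not one of the exceptions `11`, `17`, `19`, `37`, `a² + 64`. -/
def IsGeneric (q : ℕ) : Prop :=
  (q ≠ 11 ∧ q ≠ 17 ∧ q ≠ 19 ∧ q ≠ 37) ∧ ∀ a : ℤ, (q : ℤ) ≠ a ^ 2 + 64

/-- **`W[p]` is irreducible for every prime `p`.** -/
theorem modRepIsIrreducible_all (hΔ : W.Δ ≠ 0) (hW : W.IsSemistableModel) {q : ℕ} (hq : q.Prime)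
    (hN : W.conductorLevel = q) (hgen : IsGeneric q) {p : ℕ} (hp : p.Prime) :
    W.ModRepIsIrreducible p := by
  by_contra hred
  obtain ⟨⟨h11, h17, h19, h37⟩, hsq⟩ := hgen
  rcases reducible_cases hΔ hW hq hN hp hred with ⟨-, h | ⟨a, h⟩⟩ | ⟨-, h | h⟩ | ⟨-, h⟩
  · exact h17 h
  · exact hsq a h
  · exact h19 h
  · exact h37 h
  · exact h11 h

/-! ### Surjectivity -/

/-- The exponent of `q` in the discriminant is `1`. -/
theorem padicValInt_eq_one (hΔ : W.Δ ≠ 0) (hW : W.IsSemistableModel) {q : ℕ} (hq : q.Prime)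
    (hN : W.conductorLevel = q) (hgen : IsGeneric q) : padicValInt q W.Δ = 1 := by
  refine padicValInt_eq_of_natAbs hq ?_
  rcases disc_eq hΔ hW hq hN hgen.1 hgen.2 with h | h
  · rw [h, Int.natAbs_natCast, pow_one]
  · rw [h, Int.natAbs_neg, Int.natAbs_natCast, pow_one]

theorem isMultAt_self (hΔ : W.Δ ≠ 0) (hW : W.IsSemistableModel) {q : ℕ} (hq : q.Prime)
    (hN : W.conductorLevel = q) : ECRed.IsMultAt W q :=
  isMultAt_of_semistable hW hΔ hq ((W.prime_dvd_conductorLevel_iff hΔ hq).mp (hN ▸ dvd_refl q))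

/-- **`Gal(ℚ̄/ℚ) → GL₂(𝔽_p)` is surjective for every prime `p`.** -/
theorem repP_surjective_all (hΔ : W.Δ ≠ 0) (hW : W.IsSemistableModel) {q : ℕ} (hq : q.Prime)
    (hN : W.conductorLevel = q) (hgen : IsGeneric q) (p : ℕ) [hp : Fact p.Prime] :
    Function.Surjective (repP p hΔ) := by
  refine repP_surjective_of_isMultAt (isMultAt_self hΔ hW hq hN) ?_
    (modRepIsIrreducible_all hΔ hW hq hN hgen hp.out)
  rw [padicValInt_eq_one hΔ hW hq hN hgen]
  exact fun h => hp.out.one_lt.ne' (Nat.dvd_one.mp h)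

/-- **`Gal(ℚ̄/ℚ)` acts on `T_p W` through all automorphisms, for every prime `p`.** -/
theorem tate_surjective_all (hΔ : W.Δ ≠ 0) (hW : W.IsSemistableModel) {q : ℕ} (hq : q.Prime)
    (hN : W.conductorLevel = q) (hgen : IsGeneric q) (p : ℕ) [hp : Fact p.Prime]
    (e : TMod p ((W.map (Int.castRingHom ℚ))⁄(AlgebraicClosure ℚ)).Point
      ≃ₗ[ℤ_[p]] TMod p ((W.map (Int.castRingHom ℚ))⁄(AlgebraicClosure ℚ)).Point) :
    ∃ σ : Γℚ, (tateRep (W.map (Int.castRingHom ℚ)) (Fermat.Agent.Tate.map_Δ_ne_zero hΔ) p).ρ σ =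
      e.toLinearMap := by
  by_cases hp2 : p = 2
  · subst hp2
    have hq2 : q ≠ 2 := by
      rintro rfl
      rcases eleven_or_le_of_unique hΔ hW hq (eq_of_conductorLevel hΔ hq hN) with h | h <;> omega
    refine tate_surjective_two hΔ hW hq hq2 ?_ (modRepIsIrreducible_all hΔ hW hq hN hgen hp.out) e
    rw [padicValInt_eq_one hΔ hW hq hN hgen]
    decide
  · exact tate_surjective_of_semistable hΔ hW hp2
      (modRepIsIrreducible_all hΔ hW hq hN hgen hp.out) e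

/-- **One element of `Gal(ℚ̄/ℚ)` for all odd primes together.** -/
theorem exists_adelic_odd (hΔ : W.Δ ≠ 0) (hW : W.IsSemistableModel) {q : ℕ} (hq : q.Prime)
    (hN : W.conductorLevel = q) (hgen : IsGeneric q)
    (e : ∀ (p : ℕ) [Fact p.Prime],
      TMod p ((W.map (Int.castRingHom ℚ))⁄(AlgebraicClosure ℚ)).Point ≃ₗ[ℤ_[p]]
        TMod p ((W.map (Int.castRingHom ℚ))⁄(AlgebraicClosure ℚ)).Point) :
    ∃ σ : Γℚ, ∀ (p : ℕ) [Fact p.Prime], p ≠ 2 →
      (tateRep (W.map (Int.castRingHom ℚ)) (Fermat.Agent.Tate.map_Δ_ne_zero hΔ) p).ρ σ = (e p).toLinearMap := by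
  obtain ⟨σ, hσ⟩ := exists_adelic_of_odd hΔ hW e
  exact ⟨σ, fun p hp hp2 => hσ p hp2 (modRepIsIrreducible_all hΔ hW hq hN hgen hp.out)⟩

/-- `Gal(ℚ̄/ℚ)` acts on `W[n]`, `n` odd, through all automorphisms. -/
theorem surjMod_odd (hΔ : W.Δ ≠ 0) (hW : W.IsSemistableModel) {q : ℕ} (hq : q.Prime)
    (hN : W.conductorLevel = q) (hgen : IsGeneric q) {n : ℕ} (hn : Odd n) : SurjMod W n :=
  surjMod_of_odd hΔ hW hn fun _ hp _ => modRepIsIrreducible_all hΔ hW hq hN hgen hp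

/-! ### Torsion and stable subgroups -/

/-- If `W[p]` is irreducible, a stable subgroup with a non-zero element killed by `p` contains
`W[p]`. -/
theorem torsion_le_of_irreducible (hΔ : W.Δ ≠ 0) {p : ℕ} (hp : p.Prime)
    (hirr : W.ModRepIsIrreducible p) (L : AddSubgroup (Mazur.Pt W))
    (hL : ∀ σ : Γℚ, ∀ x ∈ L, σ • x ∈ L) {y : Mazur.Pt W} (hy : y ∈ L) (hy0 : y ≠ 0)
    (hyp : p • y = 0) : ∀ x : Mazur.Pt W, p • x = 0 → x ∈ L := by
  have : Fact p.Prime := ⟨hp⟩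
  intro x hx
  obtain ⟨e, he⟩ := exists_equiv p hΔ
  have hmem : ∀ z : Mazur.Pt W, p • z = 0 → z ∈ Submodule.torsionBy ℤ
      ((W.map (Int.castRingHom ℚ))⁄(AlgebraicClosure ℚ)).Point (p : ℤ) := fun z hz =>
    (Fermat.Agent.Torsion.mem_torsionBy_nat_iff p z).mpr hz
  set Y : Submodule.torsionBy ℤ
      ((W.map (Int.castRingHom ℚ))⁄(AlgebraicClosure ℚ)).Point (p : ℤ) := ⟨y, hmem y hyp⟩ with hY
  set X : Submodule.torsionBy ℤ
      ((W.map (Int.castRingHom ℚ))⁄(AlgebraicClosure ℚ)).Point (p : ℤ) := ⟨x, hmem x hx⟩ with hX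
  have hv : e Y ≠ 0 := by
    rw [ne_eq, LinearEquiv.map_eq_zero_iff]
    exact fun h => hy0 (congrArg Subtype.val h)
  obtain ⟨g, ⟨σ, rfl⟩, hg⟩ := (noInvLine_range_iff p hΔ).mp hirr _ hv
  -- `Y` and `σ Y` are a basis
  set v := e Y with hvdef
  set w := e (σ • Y) with hwdef
  have hw : ∀ a : ZMod p, w ≠ a • v := fun a => by rw [hwdef, he]; exact hg a
  have hdet : v 0 * w 1 - v 1 * w 0 ≠ 0 := by
    intro h0
    by_cases hv0 : v 0 = 0
    · have hv1 : v 1 ≠ 0 := fun h1 => hv (by funext i; fin_cases i; exacts [hv0, h1])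
      have hw0 : w 0 = 0 := by
        rw [hv0, zero_mul, zero_sub, neg_eq_zero] at h0
        exact (mul_eq_zero.mp h0).resolve_left hv1
      refine hw (w 1 / v 1) ?_
      funext i
      fin_cases i
      · simp [hv0, hw0]
      · simp [div_mul_cancel₀ _ hv1]
    · refine hw (w 0 / v 0) ?_
      funext i
      fin_cases i
      · simp [div_mul_cancel₀ _ hv0]
      · simp only [Fin.mk_one, Pi.smul_apply, smul_eq_mul]
        rw [div_mul_eq_mul_div, eq_div_iff hv0]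
        linear_combination h0
  obtain ⟨a, b, hab⟩ : ∃ a b : ZMod p, e X = a • v + b • w := by
    set D := v 0 * w 1 - v 1 * w 0 with hD
    refine ⟨(e X 0 * w 1 - e X 1 * w 0) / D, (v 0 * e X 1 - v 1 * e X 0) / D, ?_⟩
    funext i
    fin_cases i
    · simp only [Fin.zero_eta, Pi.add_apply, Pi.smul_apply, smul_eq_mul]
      rw [div_mul_eq_mul_div, div_mul_eq_mul_div, ← add_div, eq_div_iff hdet]
      ring
    · simp only [Fin.mk_one, Pi.add_apply, Pi.smul_apply, smul_eq_mul]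
      rw [div_mul_eq_mul_div, div_mul_eq_mul_div, ← add_div, eq_div_iff hdet]
      ring
  have hXe : X = a • Y + b • (σ • Y) := by
    apply e.injective
    rw [hab, map_add, map_smul, map_smul]
  have hsmul : ∀ (c : ZMod p) (Z : Submodule.torsionBy ℤ
      ((W.map (Int.castRingHom ℚ))⁄(AlgebraicClosure ℚ)).Point (p : ℤ)),
      (Z : Mazur.Pt W) ∈ L → ((c • Z : Submodule.torsionBy ℤ
        ((W.map (Int.castRingHom ℚ))⁄(AlgebraicClosure ℚ)).Point (p : ℤ)) : Mazur.Pt W) ∈ L := by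
    intro c Z hZ
    obtain ⟨k, rfl⟩ : ∃ k : ℕ, (k : ZMod p) = c := ⟨c.val, ZMod.natCast_zmod_val c⟩
    rw [Nat.cast_smul_eq_nsmul]
    exact L.nsmul_mem hZ k
  have h1 : (X : Mazur.Pt W) ∈ L := by
    rw [hXe]
    exact L.add_mem (hsmul a Y hy) (hsmul b _ (hL σ y hy))
  exact h1

/-- A rational point of order `p` makes `W[p]` reducible. -/
theorem not_irreducible_of_fixed (hΔ : W.Δ ≠ 0) {p : ℕ} (hp : p.Prime) {y : Mazur.Pt W}
    (hy0 : y ≠ 0) (hyp : p • y = 0) (hfix : ∀ σ : Γℚ, σ • y = y) :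
    ¬ W.ModRepIsIrreducible p := by
  have : Fact p.Prime := ⟨hp⟩
  intro hirr
  obtain ⟨e, he⟩ := exists_equiv p hΔ
  set Y : Submodule.torsionBy ℤ
      ((W.map (Int.castRingHom ℚ))⁄(AlgebraicClosure ℚ)).Point (p : ℤ) :=
    ⟨y, (Fermat.Agent.Torsion.mem_torsionBy_nat_iff p y).mpr hyp⟩ with hY
  have hv : e Y ≠ 0 := by
    rw [ne_eq, LinearEquiv.map_eq_zero_iff]
    exact fun h => hy0 (congrArg Subtype.val h)
  obtain ⟨g, ⟨σ, rfl⟩, hg⟩ := (noInvLine_range_iff p hΔ).mp hirr _ hv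
  refine hg 1 ?_
  rw [← he, one_smul]
  exact congrArg e (Subtype.ext (hfix σ))

theorem smul_nsmul_pt (σ : Γℚ) (n : ℕ) (x : Mazur.Pt W) : σ • (n • x) = n • (σ • x) :=
  map_nsmul (DistribSMul.toAddMonoidHom (Mazur.Pt W) σ) n x

/-- If `W[p]` is irreducible for all `p`, there is no rational torsion. -/
theorem eq_zero_of_irreducible (hΔ : W.Δ ≠ 0)
    (hirr : ∀ p : ℕ, p.Prime → W.ModRepIsIrreducible p) {x : Mazur.Pt W}
    (hfix : ∀ σ : Γℚ, σ • x = x) {n : ℕ} (hn : n ≠ 0) (hx : n • x = 0) : x = 0 := by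
  by_contra hx0
  have hord : addOrderOf x ≠ 0 := by
    intro h
    have h1 := addOrderOf_dvd_of_nsmul_eq_zero hx
    rw [h, zero_dvd_iff] at h1
    exact hn h1
  have hord1 : addOrderOf x ≠ 1 := fun h => hx0 (AddMonoid.addOrderOf_eq_one_iff.mp h)
  obtain ⟨p, hp, m, hm⟩ := Nat.exists_prime_and_dvd hord1
  have hm0 : m ≠ 0 := by
    rintro rfl
    exact hord (by rw [hm, mul_zero])
  refine not_irreducible_of_fixed hΔ hp (y := m • x) (fun h => ?_) ?_ (fun σ => ?_) (hirr p hp)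
  · have h1 := addOrderOf_dvd_of_nsmul_eq_zero h
    rw [hm] at h1
    have h2 := Nat.le_of_dvd (Nat.pos_of_ne_zero hm0) h1
    have h3 := hp.two_le
    nlinarith [Nat.pos_of_ne_zero hm0]
  · rw [← mul_nsmul', ← hm, addOrderOf_nsmul_eq_zero]
  · rw [smul_nsmul_pt, hfix]

/-- If `W[p]` is irreducible for all `p`, the finite stable subgroups are the `W[n]`. -/
theorem exists_eq_torsion (hΔ : W.Δ ≠ 0) (hirr : ∀ p : ℕ, p.Prime → W.ModRepIsIrreducible p) :
    ∀ (m : ℕ) (L : AddSubgroup (Mazur.Pt W)), Finite L → Nat.card L = m →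
      (∀ σ : Γℚ, ∀ x ∈ L, σ • x ∈ L) → ∃ n : ℕ, n ≠ 0 ∧ ∀ x : Mazur.Pt W, x ∈ L ↔ n • x = 0 := by
  intro m
  induction m using Nat.strong_induction_on with
  | _ m ih =>
  intro L hfin hcard hL
  by_cases hbot : L = ⊥
  · refine ⟨1, one_ne_zero, fun x => ?_⟩
    rw [hbot, AddSubgroup.mem_bot, one_nsmul]
  -- an element of prime order
  obtain ⟨x, hxL, hx0⟩ := (AddSubgroup.ne_bot_iff_exists_ne_zero.mp hbot).elim
    fun x hx => (⟨x.1, x.2, fun h => hx (Subtype.ext h)⟩ : ∃ x ∈ L, x ≠ 0)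
  have hord : addOrderOf x ≠ 0 := by
    have h1 : addOrderOf (⟨x, hxL⟩ : L) ≠ 0 := (addOrderOf_pos _).ne'
    rwa [← AddSubgroup.addOrderOf_coe] at h1
  have hord1 : addOrderOf x ≠ 1 := fun h => hx0 (AddMonoid.addOrderOf_eq_one_iff.mp h)
  obtain ⟨p, hp, k, hk⟩ := Nat.exists_prime_and_dvd hord1
  have hk0 : k ≠ 0 := by
    rintro rfl
    exact hord (by rw [hk, mul_zero])
  have hy0 : k • x ≠ 0 := by
    intro h
    have h1 := addOrderOf_dvd_of_nsmul_eq_zero h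
    rw [hk] at h1
    have h2 := Nat.le_of_dvd (Nat.pos_of_ne_zero hk0) h1
    have h3 := hp.two_le
    nlinarith [Nat.pos_of_ne_zero hk0]
  have hyp : p • (k • x) = 0 := by rw [← mul_nsmul', ← hk, addOrderOf_nsmul_eq_zero]
  have hyL : k • x ∈ L := L.nsmul_mem hxL k
  have hle := torsion_le_of_irreducible hΔ hp (hirr p hp) L hL hyL hy0 hyp
  -- the subgroup `p L`
  set f : L →+ Mazur.Pt W := (nsmulAddMonoidHom p : Mazur.Pt W →+ Mazur.Pt W).comp L.subtype
  have hfx : ∀ z : L, f z = p • (z : Mazur.Pt W) := fun _ => rfl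
  have hfinr : Finite f.range := Set.finite_range f
  have hlt : Nat.card f.range < m := by
    rw [← hcard]
    have h1 := AddSubgroup.card_mul_index f.ker
    rw [AddSubgroup.index_ker] at h1
    have h2 : 1 < Nat.card f.ker := by
      rw [Finite.one_lt_card_iff_nontrivial]
      refine ⟨⟨⟨⟨k • x, hyL⟩, ?_⟩, 0, fun h => hy0 ?_⟩⟩
      · rw [AddMonoidHom.mem_ker, hfx]
        exact hyp
      · exact congrArg (fun z : f.ker => ((z : L) : Mazur.Pt W)) h
    have h3 : 0 < Nat.card f.range := Nat.card_pos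
    rw [← h1]
    nlinarith
  obtain ⟨n, hn0, hn⟩ := ih _ hlt f.range hfinr rfl (by
    rintro σ _ ⟨z, rfl⟩
    refine ⟨⟨σ • (z : Mazur.Pt W), hL σ _ z.2⟩, ?_⟩
    rw [hfx, hfx, smul_nsmul_pt])
  refine ⟨n * p, mul_ne_zero hn0 hp.ne_zero, fun z => ⟨fun hz => ?_, fun hz => ?_⟩⟩
  · have h1 : p • z ∈ f.range := ⟨⟨z, hz⟩, rfl⟩
    rw [mul_nsmul']
    exact (hn _).mp h1
  · have h1 : p • z ∈ f.range := (hn _).mpr (by rw [← mul_nsmul']; exact hz)
    obtain ⟨w, hw⟩ := h1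
    rw [hfx] at hw
    have h2 : z - (w : Mazur.Pt W) ∈ L := hle _ (by rw [nsmul_sub, hw, sub_self])
    have h3 := L.add_mem h2 w.2
    rwa [sub_add_cancel] at h3

/-- **There is no rational torsion** for prime conductor `q` not `11`, `17`, `19`, `37`, `a² + 64`. -/
theorem eq_zero_of_fixed (hΔ : W.Δ ≠ 0) (hW : W.IsSemistableModel) {q : ℕ} (hq : q.Prime)
    (hN : W.conductorLevel = q) (hgen : IsGeneric q) {x : Mazur.Pt W}
    (hfix : ∀ σ : Γℚ, σ • x = x) {n : ℕ} (hn : n ≠ 0) (hx : n • x = 0) : x = 0 :=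
  eq_zero_of_irreducible hΔ (fun _ hp => modRepIsIrreducible_all hΔ hW hq hN hgen hp) hfix hn hx

/-- **The only finite stable subgroups are the `W[n]`** for prime conductor `q` not `11`, `17`,
`19`, `37`, `a² + 64`. -/
theorem eq_torsion_of_stable (hΔ : W.Δ ≠ 0) (hW : W.IsSemistableModel) {q : ℕ} (hq : q.Prime)
    (hN : W.conductorLevel = q) (hgen : IsGeneric q) (L : AddSubgroup (Mazur.Pt W)) [hf : Finite L]
    (hL : ∀ σ : Γℚ, ∀ x ∈ L, σ • x ∈ L) :
    ∃ n : ℕ, n ≠ 0 ∧ ∀ x : Mazur.Pt W, x ∈ L ↔ n • x = 0 :=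
  exists_eq_torsion hΔ (fun _ hp => modRepIsIrreducible_all hΔ hW hq hN hgen hp) _ L hf rfl hL

end Fermat.Agent.Cor.MO
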