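import Fermat.Agent.Corollaries.Surj.SerreCurve
import Fermat.Agent.Corollaries.MO.Surj

/-!
# Curves of prime conductor are Serre curves

`W` a semistable elliptic curve over `ℚ` (Weierstrass equation over `ℤ`) of prime conductor `q`,
`q` different from `11`, `17`, `19`, `37` and `a² + 64` (`IsGeneric q`). By Mestre - Oesterlé
`v_q(Δ) = 1`, and `W[p]` is irreducible for every prime `p`. Hence the theorem on Serre curves
(`Surj/SerreCurve`) applies: the image of `Gal(ℚ̄/ℚ)` in `∏ Aut(T_p W)`, the product over all primes,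
has index two, the smallest possible (`index_range_eq_two`), and consists of the families `(e p)`
for which there is `σ₀` with `det (e p)` the cyclotomic character of `σ₀` and `e 2` even if and only
if `σ₀` fixes `√Δ` (`mem_range_iff`).
-/

set_option autoImplicit false

noncomputable section

open WeierstrassCurve WeierstrassCurve.Affine WeierstrassCurve.Affine.Point Module
open Fermat.Agent.ECRed Fermat.Agent.Tate Fermat.Agent.S30aux
open scoped WeierstrassCurve.Affine

namespace Fermat.Agent.Cor.MO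

local notation "Qbar" => AlgebraicClosure ℚ
local notation "Γℚ" => (AlgebraicClosure ℚ ≃ₐ[ℚ] AlgebraicClosure ℚ)

variable {W : WeierstrassCurve ℤ}

/-- The hypotheses of the theorem on Serre curves. -/
theorem serreHyp (hΔ : W.Δ ≠ 0) (hW : W.IsSemistableModel) {q : ℕ} (hq : q.Prime)
    (hN : W.conductorLevel = q) (hgen : IsGeneric q) : SerreHyp W := by
  have h1 := padicValInt_eq_one hΔ hW hq hN hgen
  have hq5 : 5 ≤ q := by
    rcases eleven_or_le_of_unique hΔ hW hq (eq_of_conductorLevel hΔ hq hN) with h | h <;> omega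
  have hd : (q : ℤ) ∣ W.Δ := (W.prime_dvd_conductorLevel_iff hΔ hq).mp (hN ▸ dvd_refl q)
  exact
    { ne := hΔ
      ss := hW
      irr := fun p hp => modRepIsIrreducible_all hΔ hW hq hN hgen hp
      two := ⟨q, hq, hq5, hd, by rw [h1]; decide⟩
      three := ⟨q, hq, hq5, hd, by rw [h1]; decide⟩ }

/-- **Curves of prime conductor are Serre curves**: the image of `Gal(ℚ̄/ℚ)` in `∏ Aut(T_p W)`,
the product over all primes, has index two. -/
theorem index_range_eq_two (hΔ : W.Δ ≠ 0) (hW : W.IsSemistableModel) {q : ℕ} (hq : q.Prime)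
    (hN : W.conductorLevel = q) (hgen : IsGeneric q) :
    (adelicAut hΔ fun _ => True).range.index = 2 :=
  (serreHyp hΔ hW hq hN hgen).index_range_adelicAut

/-- The image of `Gal(ℚ̄/ℚ)` in `∏ Aut(T_p W)`. -/
theorem mem_range_iff (hΔ : W.Δ ≠ 0) (hW : W.IsSemistableModel) {q : ℕ} (hq : q.Prime)
    (hN : W.conductorLevel = q) (hgen : IsGeneric q) {δ : Qbar}
    (hδ : δ ^ 2 = ((W.Δ : ℤ) : Qbar))
    (e : ∀ p : PrimesOf fun _ => True, (Tp W p ≃ₗ[ℤ_[(p : ℕ)]] Tp W p)) :
    e ∈ (adelicAut hΔ fun _ => True).range ↔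
      ∃ σ₀ : Γℚ, (∀ p : PrimesOf fun _ => True, LinearMap.det (e p).toLinearMap =
        ((cyc (p : ℕ) σ₀ : ℤ_[(p : ℕ)]ˣ) : ℤ_[(p : ℕ)])) ∧
        (EvenAut W (e prTwo) ↔ σ₀ δ = δ) :=
  (serreHyp hΔ hW hq hN hgen).mem_range_adelicAut_iff hδ e

end Fermat.Agent.Cor.MO

end
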