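import Fermat.Agent.Corollaries.K4.Small.PPThree
import Fermat.Agent.Corollaries.MT.Sharp
import Fermat.Agent.Corollaries.MT.Irred

/-!
# Points of order `21` and the equations `A xᵖ + B yᵖ = z³` for every prime `p ≥ 5`, `p ≠ 13`

An elliptic curve over `ℚ` has no rational point of order `21` (`MT/Sharp.lean`, helper61). If a semistable curve with
a rational point of order three had reducible mod `7` representation, it or its quotient by a line of order `7` would
have a rational point of order `21`. So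

* `irreducible_of_point_three`: a semistable elliptic curve over `ℚ` with a rational point of order three has
  irreducible mod `p` representation for every prime `p ≥ 5`, `p ≠ 13`; `repP_surjective_of_point_three`,
  `tate_surjective_of_point_three`: the representation mod `p` and the `p`-adic one are surjective;
* `irreducible_three_of_point`: with a rational point of order `5` or `7` the mod `3` representation is irreducible;
* `pow_add_pow_ne_cube_of_dvd` (Darmon - Merel): `xⁿ + yⁿ = z³` has no solution with `x`, `y` coprime, `x y ≠ 0`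
  divisible by `3`, if `n` has a prime factor `p ≥ 5`, `p ≠ 13` (`pow_add_pow_ne_cube_of_prime`: a prime factor
  different from `2` and `13`); `three_coeff`, `pow_add_mul_pow_ne_cube`, `two_pow_mul_pow_add_pow_ne_cube`,
  `cube_add_ne_pow`: the other equations of `PP/Three.lean`.

(`K4/Small/PPThree.lean` has the primes `5`, `11` and `p ≥ 17`.)
-/

set_option autoImplicit false

noncomputable section

open WeierstrassCurve WeierstrassCurve.Affine

namespace Fermat.Agent.Cor.MO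

open Fermat.Agent.Cor.K1
open Fermat.Agent.Cor.Small (HasPoint hasPoint_three modRepIsIrreducible_of_property noPoint_fifteen)

local notation "ℚbar" => AlgebraicClosure ℚ

variable {W : WeierstrassCurve ℤ}

/-- **No point of order `21`** over `ℚ̄` fixed by Galois. -/
theorem noPoint_twentyone (E : WeierstrassCurve ℚ) [E.IsElliptic] (P : Pts E)
    (hfix : ∀ σ : Gam, σ • P = P) : addOrderOf P ≠ 21 := by
  intro hP
  obtain ⟨Q, hQ⟩ := MT.exists_rat_point E hfix
  have h2 : addOrderOf Q = 21 := by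
    rw [← addOrderOf_baseChange, hQ, hP]
  have h3 : ∀ (C : WeierstrassCurve ℚ), C = E → ∀ Q : C.toAffine.Point,
      addOrderOf Q ≠ 21 := by
    rintro C rfl Q
    exact MT.addOrderOf_ne_twentyone C.isUnit_Δ.ne_zero Q
  exact h3 (E⁄ℚ) E.map_id Q h2

/-- Rational points of prime orders `r ≠ p` give one of order `r p`. -/
theorem noPoint_of_hasPoint {E : WeierstrassCurve ℚ} {r p : ℕ} (hr : r.Prime) (hp : p.Prime)
    (hne : r ≠ p) (H : ∀ P : Pts E, (∀ σ : Gam, σ • P = P) → addOrderOf P ≠ r * p)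
    (h : HasPoint r E) (P : Pts E) (hfix : ∀ σ : Gam, σ • P = P) : addOrderOf P ≠ p := by
  intro hP
  obtain ⟨T, hT0, hT, hTfix⟩ := h
  have hF : Fact r.Prime := ⟨hr⟩
  have h1 : addOrderOf T = r := addOrderOf_eq_prime hT hT0
  refine H (T + P) (fun σ => by
    rw [Point.algEquiv_smul_def, map_add, ← Point.algEquiv_smul_def, ← Point.algEquiv_smul_def,
      hTfix, hfix]) ?_
  rw [(AddCommute.all T P).addOrderOf_add_eq_mul_addOrderOf_of_coprime (by
    rw [h1, hP]; exact (Nat.coprime_primes hr hp).mpr hne), h1, hP]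

/-- A semistable curve with a rational point of prime order `r ≠ p`, `p ≠ 2`: `W[p]` is irreducible if no elliptic
curve over `ℚ` has a rational point of order `r p`. -/
theorem irreducible_of_hasPoint {r p : ℕ} (hr : r.Prime) (hp : p.Prime) (hp2 : p ≠ 2)
    (hne : r ≠ p) (H : ∀ (E : WeierstrassCurve ℚ) [E.IsElliptic] (P : Pts E),
      (∀ σ : Gam, σ • P = P) → addOrderOf P ≠ r * p) (hΔ : W.Δ ≠ 0)
    (hW : W.IsSemistableModel) (h : HasPoint r (W.map (Int.castRingHom ℚ))) :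
    W.ModRepIsIrreducible p :=
  modRepIsIrreducible_of_property hp hp2 (HasPoint r)
    (fun _ _ φ _ hφ hker h => h.of_hom ((Nat.coprime_primes hr hp).mpr hne) φ hφ hker)
    (fun E _ h P hfix => noPoint_of_hasPoint hr hp hne (H E) h P hfix)
    (K1.quotients hp hp2) hΔ hW h

/-- **Every prime `p ≥ 5`, `p ≠ 13`**: a semistable elliptic curve over `ℚ` with a rational point of order three has
irreducible mod `p` representation. -/
theorem irreducible_of_point_three (hΔ : W.Δ ≠ 0) (hW : W.IsSemistableModel)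
    (h3 : HasPoint 3 (W.map (Int.castRingHom ℚ))) {p : ℕ} (hp : p.Prime) (hp5 : 5 ≤ p)
    (hp13 : p ≠ 13) : W.ModRepIsIrreducible p := by
  by_cases h7 : p = 7
  · subst h7
    exact irreducible_of_hasPoint Nat.prime_three hp (by norm_num) (by norm_num)
      (fun E _ P hfix => noPoint_twentyone E P hfix) hΔ hW h3
  · refine Cor.irreducible_of_point_three hΔ hW h3 hp ?_
    by_contra hcon
    push Not at hcon
    obtain ⟨h5, h11, h17⟩ := hcon
    interval_cases p <;> first | omega | exact absurd hp (by norm_num)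

/-- **Rational points of order `5` or `7`**: the mod `3` representation of a semistable elliptic curve over `ℚ` with
such a point is irreducible. -/
theorem irreducible_three_of_point (hΔ : W.Δ ≠ 0) (hW : W.IsSemistableModel) {r : ℕ}
    (hr : r = 5 ∨ r = 7) (h : HasPoint r (W.map (Int.castRingHom ℚ))) :
    W.ModRepIsIrreducible 3 := by
  rcases hr with rfl | rfl
  · exact irreducible_of_hasPoint Nat.prime_five Nat.prime_three (by norm_num) (by norm_num)
      (fun E _ P hfix => noPoint_fifteen E P hfix) hΔ hW h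
  · exact irreducible_of_hasPoint (by norm_num) Nat.prime_three (by norm_num) (by norm_num)
      (fun E _ P hfix => noPoint_twentyone E P hfix) hΔ hW h

/-- **Surjectivity** of the mod `p` representation, matrix form. -/
theorem repP_surjective_of_point_three (hΔ : W.Δ ≠ 0) (hW : W.IsSemistableModel)
    (h3 : HasPoint 3 (W.map (Int.castRingHom ℚ))) {p : ℕ} [hp : Fact p.Prime] (hp5 : 5 ≤ p)
    (hp13 : p ≠ 13) : Function.Surjective (Classic.repP p hΔ) :=
  repP_surjective hΔ hW (by omega) (irreducible_of_point_three hΔ hW h3 hp.out hp5 hp13)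

/-- **Surjectivity of the `p`-adic representation.** -/
theorem tate_surjective_of_point_three (hΔ : W.Δ ≠ 0) (hW : W.IsSemistableModel)
    (h3 : HasPoint 3 (W.map (Int.castRingHom ℚ))) {p : ℕ} [hp : Fact p.Prime] (hp5 : 5 ≤ p)
    (hp13 : p ≠ 13)
    (e : Tate.TMod p ((W.map (Int.castRingHom ℚ))⁄(AlgebraicClosure ℚ)).Point
      ≃ₗ[ℤ_[p]] Tate.TMod p ((W.map (Int.castRingHom ℚ))⁄(AlgebraicClosure ℚ)).Point) :
    ∃ σ : AlgebraicClosure ℚ ≃ₐ[ℚ] AlgebraicClosure ℚ,
      (Tate.tateRep (W.map (Int.castRingHom ℚ)) (Tate.map_Δ_ne_zero hΔ) p).ρ σ = e.toLinearMap :=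
  have h : SurjMod W p := fun g => exists_smul_eq_of_repP_surjective hΔ
    (repP_surjective_of_point_three hΔ hW h3 hp5 hp13) g
  h.tate hΔ hp5 e

/-! ### The equations -/

/-- `W[p]` is irreducible for every semistable curve of the family `curveThree`, every prime `p ≥ 5`, `p ≠ 13`. -/
theorem irredThree_all {p : ℕ} (hp : p.Prime) (hp5 : 5 ≤ p) (hp13 : p ≠ 13) :
    PPS.Aux.IrredThree p := fun _ _ hΔ hss =>
  irreducible_of_point_three hΔ hss (hasPoint_three hΔ rfl rfl rfl) hp hp5 hp13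

/-- **Darmon - Merel, `3 ∣ xy`**: `xⁿ + yⁿ = z³` has no solution with `x`, `y` coprime, `x y ≠ 0` divisible by `3`, if
`n` has a prime factor `p ≥ 5`, `p ≠ 13`. -/
theorem pow_add_pow_ne_cube_of_dvd {p : ℕ} (hp : p.Prime) (hp5 : 5 ≤ p) (hp13 : p ≠ 13) {n : ℕ}
    (hn : p ∣ n) {x y : ℤ} (hx : x ≠ 0) (hy : y ≠ 0) (hxy : IsCoprime x y)
    (hthree : (3 : ℤ) ∣ x * y) (z : ℤ) : x ^ n + y ^ n ≠ z ^ 3 :=
  PPS.Aux.pow_add_pow_ne_cube_of_dvd hp (by omega) (irredThree_all hp hp5 hp13) hn hx hy hxy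
    hthree z

/-- **`xⁿ + yⁿ = z³`** has no solution with `x`, `y` coprime, `x y ≠ 0` divisible by `3`, if `n` has a prime factor
different from `2` and `13` (the factor `3` is Fermat's last theorem for the exponent `3`). -/
theorem pow_add_pow_ne_cube_of_prime {q n : ℕ} (hq : q.Prime) (hn : q ∣ n) (h2 : q ≠ 2)
    (h13 : q ≠ 13) {x y : ℤ} (hx : x ≠ 0) (hy : y ≠ 0) (hxy : IsCoprime x y)
    (hthree : (3 : ℤ) ∣ x * y) (z : ℤ) : x ^ n + y ^ n ≠ z ^ 3 := by
  by_cases h3 : q = 3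
  · subst h3
    obtain ⟨m, rfl⟩ := hn
    intro h
    have hz : z ≠ 0 := by
      rintro rfl
      rcases Nat.eq_zero_or_pos m with rfl | hm
      · norm_num at h
      · have h4 : x ^ (3 * m) ∣ y ^ (3 * m) := ⟨-1, by linear_combination h⟩
        have h5 : IsUnit (x ^ (3 * m)) :=
          (hxy.pow (m := 3 * m) (n := 3 * m)).isUnit_of_dvd' dvd_rfl h4
        have h6 : IsUnit x := (isUnit_pow_iff (by omega)).mp h5
        have h7 : y ^ (3 * m) ∣ x ^ (3 * m) := ⟨-1, by linear_combination h⟩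
        have h8 : IsUnit (y ^ (3 * m)) :=
          (hxy.pow (m := 3 * m) (n := 3 * m)).isUnit_of_dvd' h7 dvd_rfl
        have h9 : IsUnit y := (isUnit_pow_iff (by omega)).mp h8
        exact Int.prime_three.not_isUnit (isUnit_of_dvd_unit hthree (h6.mul h9))
    refine (fermatLastTheoremFor_iff_int.mp fermatLastTheoremThree) (x ^ m) (y ^ m) z
      (pow_ne_zero _ hx) (pow_ne_zero _ hy) hz ?_
    rw [← pow_mul, ← pow_mul, mul_comm m 3]
    exact h
  · have hq5 : 5 ≤ q := by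
      have h4 := hq.two_le
      by_contra hcon
      interval_cases q <;> first | omega | exact absurd hq (by norm_num)
    exact pow_add_pow_ne_cube_of_dvd hq hq5 h13 hn hx hy hxy hthree z

/-- **`x⁷ + y⁷ = z³`** has no solution with `x`, `y` coprime, `x y ≠ 0` divisible by `3`. -/
theorem pow_seven_ne_cube {x y : ℤ} (hx : x ≠ 0) (hy : y ≠ 0) (hxy : IsCoprime x y)
    (hthree : (3 : ℤ) ∣ x * y) (z : ℤ) : x ^ 7 + y ^ 7 ≠ z ^ 3 :=
  pow_add_pow_ne_cube_of_dvd (p := 7) (by norm_num) (by norm_num) (by norm_num) dvd_rfl hx hy hxy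
    hthree z

/-- **The equation `A xᵖ + B yᵖ = z³`** (Bennett - Vatsal - Yazdani), every prime `p ≥ 5`, `p ≠ 13`: `A x`, `B y`
coprime and `≠ 0`, `27 ∣ B yᵖ`, the primes `≠ 3` of `A B` dividing a level `L` of genus zero, and `3 ∣ L` or
`v₃(B yᵖ) ≡ 3 mod p`: no solution. -/
theorem three_coeff {p : ℕ} (hp : p.Prime) (hp5 : 5 ≤ p) (hp13 : p ≠ 13) {A B x y z : ℤ}
    (he : A * x ^ p + B * y ^ p = z ^ 3) (hcop : IsCoprime (A * x) (B * y))
    (h27 : (27 : ℤ) ∣ B * y ^ p) (hx : A * x ≠ 0) (hy : B * y ≠ 0) {L : ℕ}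
    (hL : L ∈ zeroLevels) (hA : ∀ q : ℕ, q.Prime → q ≠ 3 → (q : ℤ) ∣ A → q ∣ L)
    (hB : ∀ q : ℕ, q.Prime → q ≠ 3 → (q : ℤ) ∣ B → q ∣ L)
    (h3 : 3 ∣ L ∨ p ∣ padicValInt 3 (B * y ^ p / 27)) : False :=
  PPS.Aux.three_coeff hp (by omega) (irredThree_all hp hp5 hp13) he hcop h27 hx hy hL hA hB h3

/-- **`xᵖ + 2ᵐ 3ᵏ yᵖ = z³`**, every prime `p ≥ 5`, `p ≠ 13`: no solution with `x` prime to `6 y`, `x y ≠ 0`, and
`k ≥ 3` or `3 ∣ y`. -/
theorem pow_add_mul_pow_ne_cube {p : ℕ} (hp : p.Prime) (hp5 : 5 ≤ p) (hp13 : p ≠ 13) {x y : ℤ}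
    (hx : x ≠ 0) (hy : y ≠ 0) {k m : ℕ} (hxy : IsCoprime x (6 * y)) (hk : 3 ≤ k ∨ (3 : ℤ) ∣ y)
    (z : ℤ) : x ^ p + 2 ^ m * 3 ^ k * y ^ p ≠ z ^ 3 :=
  PPS.Aux.pow_add_mul_pow_ne_cube hp (by omega) (irredThree_all hp hp5 hp13) hx hy hxy hk z

/-- **`2ᵐ xᵖ + yᵖ = z³`**, every prime `p ≥ 5`, `p ≠ 13`: no solution with `2 x`, `y` coprime, `x y ≠ 0` divisible by
`3`. -/
theorem two_pow_mul_pow_add_pow_ne_cube {p : ℕ} (hp : p.Prime) (hp5 : 5 ≤ p) (hp13 : p ≠ 13)
    {x y : ℤ} (hx : x ≠ 0) (hy : y ≠ 0) {m : ℕ} (hxy : IsCoprime (2 * x) y)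
    (hthree : (3 : ℤ) ∣ x * y) (z : ℤ) : 2 ^ m * x ^ p + y ^ p ≠ z ^ 3 :=
  PPS.Aux.two_pow_mul_pow_add_pow_ne_cube hp (by omega) (irredThree_all hp hp5 hp13) hx hy hxy
    hthree z

/-- **`z³ ± 2ᵐ 3ᵏ ≠ xⁿ`** for `x` prime to `6`, `k ≥ 3`, if `n` has a prime factor `p ≥ 5`, `p ≠ 13`. -/
theorem cube_add_ne_pow {p : ℕ} (hp : p.Prime) (hp5 : 5 ≤ p) (hp13 : p ≠ 13) {n : ℕ} (hn : p ∣ n)
    {x : ℤ} (hx : IsCoprime x 6) {k m : ℕ} (hk : 3 ≤ k) (z : ℤ) :
    z ^ 3 + 2 ^ m * 3 ^ k ≠ x ^ n ∧ z ^ 3 - 2 ^ m * 3 ^ k ≠ x ^ n := by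
  obtain ⟨r, rfl⟩ := hn
  rw [mul_comm p r, pow_mul]
  exact ⟨PPS.Aux.cube_add_mul_pow_ne_pow hp (by omega) (irredThree_all hp hp5 hp13) hx.pow_left hk z,
    PPS.Aux.cube_sub_mul_pow_ne_pow hp (by omega) (irredThree_all hp hp5 hp13) hx.pow_left hk z⟩

end Fermat.Agent.Cor.MO

end
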