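import Fermat.Agent.Corollaries.MO.TwentySeven
import Fermat.Agent.ECFrob.Main

/-!
# The point of order three and `xᵖ + yᵖ = z³` for `p = 5, 7, 13`

The curve `Y² + c XY + t Y = X³` (`curveThree c t`) has the point `(0, 0)` of order three, so `3`
divides the number of its points modulo every prime `ℓ ∤ t`. If it is semistable and `W[p]` is
reducible, `p ≥ 5`, the number of points modulo a good prime `ℓ ≠ p` is divisible by `3 p`; by
Hasse's theorem it is at most `ℓ + 1 + 2 √ℓ`. So (`curveThree_irreducible_of_good`) `W[p]` is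
irreducible if there is a good prime `ℓ ≠ p` with `ℓ + 1 + 2 √ℓ < 3 p`.

* `pow_add_three_pow_mul_pow_ne_cube_of_good`: `xᵖ + 3ᵏ yᵖ = z³` has no solution with `3 ∤ x`, `x`,
  `y` coprime, `27 ∣ 3ᵏ yᵖ ≠ 0` if such a prime `ℓ ≠ 3` does not divide `x y`; every prime `p ≥ 5`;
* `pow_five_add_pow_five_ne_cube`, `pow_seven_add_pow_seven_ne_cube`,
  `pow_add_pow_ne_cube_thirteen`: `xᵖ + yᵖ = z³` has no solution with `x`, `y` coprime, `x y ≠ 0`
  divisible by `3` and not divisible by `14 = 2 · 7` (`p = 5`), by `110 = 2 · 5 · 11` (`p = 7`), by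
  `5720330 = 2 · 5 · 7 · 11 · 17 · 19 · 23` (`p = 13`).
-/

set_option autoImplicit false

noncomputable section

namespace Fermat.Agent.Cor.MO

open WeierstrassCurve WeierstrassCurve.Affine

section Field

variable {F : Type*} [Field F]

/-- The curve `Y² + c XY + t Y = X³` over a field. -/
def VThree (c t : F) : WeierstrassCurve F := ⟨c, 0, t, 0, 0⟩

theorem VThree_nonsingular (c : F) {t : F} (ht : t ≠ 0) : (VThree c t).toAffine.Nonsingular 0 0 := by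
  rw [Affine.nonsingular_iff, Affine.equation_iff]
  simp [VThree, ht, eq_comm]

variable [DecidableEq F]

/-- The point `(0, 0)`. -/
def ptThree (c : F) {t : F} (ht : t ≠ 0) : (VThree c t).toAffine.Point :=
  Point.some 0 0 (VThree_nonsingular c ht)

theorem ptThree_add (c : F) {t : F} (ht : t ≠ 0) : ptThree c ht + ptThree c ht = -ptThree c ht := by
  have hne : (0 : F) ≠ (VThree c t).toAffine.negY 0 0 := by
    simp [VThree, Affine.negY, ht, eq_comm]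
  have hs : (VThree c t).toAffine.slope 0 0 0 0 = 0 := by
    rw [slope_of_Y_ne rfl hne]
    simp [VThree, Affine.negY]
  unfold ptThree
  rw [Point.add_self_of_Y_ne hne, Point.neg_some, Point.some.injEq, hs]
  constructor
  · simp [VThree, Affine.addX]
  · simp [VThree, Affine.addY, Affine.negAddY, Affine.addX, Affine.negY]

theorem three_nsmul_ptThree (c : F) {t : F} (ht : t ≠ 0) : 3 • ptThree c ht = 0 := by
  have e : 3 • ptThree c ht = (ptThree c ht + ptThree c ht) + ptThree c ht := by abel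
  rw [e, ptThree_add, neg_add_cancel]

theorem three_dvd_card_VThree [Finite F] (c : F) {t : F} (ht : t ≠ 0) :
    3 ∣ Nat.card (VThree c t).toAffine.Point := by
  have hfin : Finite (VThree c t).toAffine.Point := inferInstance
  have : Fact (Nat.Prime 3) := ⟨by norm_num⟩
  have h1 : addOrderOf (ptThree c ht) = 3 :=
    addOrderOf_eq_prime (three_nsmul_ptThree c ht) (Point.some_ne_zero _)
  rw [← h1]
  exact addOrderOf_dvd_natCard _

end Field

/-- `3` divides the number of points of `curveThree c t` modulo every prime `ℓ ∤ t`. -/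
theorem three_dvd_curveThree {c t : ℤ} {ℓ : ℕ} (hℓ : ℓ.Prime) (ht : ¬ (ℓ : ℤ) ∣ t) :
    (3 : ℤ) ∣ ℓ + 1 - (curveThree c t).apOfModel ℓ := by
  have : Fact ℓ.Prime := ⟨hℓ⟩
  have ht' : ((t : ℤ) : ZMod ℓ) ≠ 0 := fun h => ht ((ZMod.intCast_zmod_eq_zero_iff_dvd t ℓ).mp h)
  have h1 : (curveThree c t).reductionMod ℓ = VThree (c : ZMod ℓ) (t : ZMod ℓ) := by
    simp only [curveThree, WeierstrassCurve.reductionMod, WeierstrassCurve.map, VThree]
    simp
  have h2 := three_dvd_card_VThree (c : ZMod ℓ) ht'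
  rw [apOfModel, h1, traceOfFrobenius, WeierstrassCurve.card, Nat.card_zmod]
  have h3 : (ℓ : ℤ) + 1 -
      ((ℓ : ℤ) + 1 - (Nat.card (VThree (c : ZMod ℓ) (t : ZMod ℓ)).toAffine.Point : ℤ)) =
      (Nat.card (VThree (c : ZMod ℓ) (t : ZMod ℓ)).toAffine.Point : ℤ) := by ring
  rw [h3]
  exact_mod_cast h2

/-- Hasse's theorem for the reduction modulo a good prime. -/
theorem apOfModel_sq_le {W : WeierstrassCurve ℤ} {ℓ : ℕ} (hℓ : ℓ.Prime) (hg : W.IsGoodPrimeFor ℓ) :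
    W.apOfModel ℓ ^ 2 ≤ 4 * ℓ := by
  have : Fact ℓ.Prime := ⟨hℓ⟩
  have hΔ : (W.reductionMod ℓ).Δ ≠ 0 := by
    rw [WeierstrassCurve.reductionMod, WeierstrassCurve.map_Δ]
    intro h
    exact hg ((ZMod.intCast_zmod_eq_zero_iff_dvd W.Δ ℓ).mp (by simpa using h))
  have hell : (W.reductionMod ℓ).IsElliptic := ⟨isUnit_iff_ne_zero.mpr hΔ⟩
  have h1 := Fermat.Agent.ECFrob.hasse_bound (W.reductionMod ℓ)
  rw [ZMod.card] at h1
  exact h1

/-- **`W[p]` is irreducible**, `W = curveThree c t` semistable, `p ≥ 5`, if there is a good prime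
`ℓ ≠ p` with `ℓ + 1 + 2 √ℓ < 3 p`. -/
theorem curveThree_irreducible_of_good {c t : ℤ} (h0 : (curveThree c t).Δ ≠ 0)
    (hss : (curveThree c t).IsSemistableModel) {p : ℕ} (hp : p.Prime) (hp5 : 5 ≤ p) {ℓ : ℕ}
    (hℓ : ℓ.Prime) (hne : ℓ ≠ p) (hg : (curveThree c t).IsGoodPrimeFor ℓ) (hlt : ℓ + 1 < 3 * p)
    (hlt2 : 4 * (ℓ : ℤ) < (3 * p - (ℓ + 1)) ^ 2) : (curveThree c t).ModRepIsIrreducible p := by
  by_contra hred
  have h1 := HW.dvd_of_reducible h0 hss hp (by omega) hred hℓ hg hne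
  have ht : ¬ (ℓ : ℤ) ∣ t := by
    intro h
    apply hg
    rw [curveThree_Δ]
    exact (dvd_pow h three_ne_zero).mul_right _
  have h2 := three_dvd_curveThree (c := c) hℓ ht
  have hcop : IsCoprime (3 : ℤ) (p : ℤ) := by
    have h4 : Nat.Coprime 3 p := (Nat.coprime_primes Nat.prime_three hp).mpr (by omega)
    exact_mod_cast Nat.isCoprime_iff_coprime.mpr h4
  obtain ⟨k, hk⟩ := hcop.mul_dvd h2 h1
  have h5 := apOfModel_sq_le hℓ hg
  have h6 := HW.apOfModel_lt (W := curveThree c t) hℓ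
  set a := (curveThree c t).apOfModel ℓ
  have hp0 : (0 : ℤ) < p := by exact_mod_cast hp.pos
  have hk1 : 1 ≤ k := by
    by_contra hk1
    have hk2 : k ≤ 0 := by omega
    have : 3 * (p : ℤ) * k ≤ 0 := mul_nonpos_of_nonneg_of_nonpos (by positivity) hk2
    omega
  have h7 : 3 * (p : ℤ) ≤ ℓ + 1 - a := by
    rw [hk]
    nlinarith
  have h8 : (0 : ℤ) < 3 * p - (ℓ + 1) := by
    have : ((ℓ + 1 : ℕ) : ℤ) < ((3 * p : ℕ) : ℤ) := by exact_mod_cast hlt
    push_cast at this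
    omega
  nlinarith

/-- **The key statement**: `a + 27 t = c³`, `a` prime to `27 t`, both not zero, and `ℓ ≠ p` a prime
not dividing `a t` with `ℓ + 1 + 2 √ℓ < 3 p`: for every level `L` of genus zero there is a prime
`q ∤ L` with `p ∤ v_q(t³ a)`. -/
theorem exists_prime_three_of_good {p : ℕ} (hp : p.Prime) (hp5 : 5 ≤ p) {a t c : ℤ}
    (h : a + 27 * t = c ^ 3) (ha : a ≠ 0) (ht : t ≠ 0) (hat : IsCoprime a (27 * t)) {ℓ : ℕ}
    (hℓ : ℓ.Prime) (hne : ℓ ≠ p) (hlt : ℓ + 1 < 3 * p)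
    (hlt2 : 4 * (ℓ : ℤ) < (3 * p - (ℓ + 1)) ^ 2) (hℓa : ¬ (ℓ : ℤ) ∣ a) (hℓt : ¬ (ℓ : ℤ) ∣ t)
    {L : ℕ} (hL : L ∈ zeroLevels) :
    ∃ q : ℕ, q.Prime ∧ ¬ q ∣ L ∧ ¬ p ∣ padicValInt q (t ^ 3 * a) := by
  have ha' : a = c ^ 3 - 27 * t := by rw [← h]; ring
  have hΔ : (curveThree c t).Δ = t ^ 3 * a := by rw [curveThree_Δ, ← ha']
  have hΔ0 : (curveThree c t).Δ ≠ 0 := by
    rw [hΔ]; exact mul_ne_zero (pow_ne_zero _ ht) ha
  have hss : (curveThree c t).IsSemistableModel := curveThree_semistable (by rwa [← ha'])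
  have hg : (curveThree c t).IsGoodPrimeFor ℓ := by
    intro hd
    rw [hΔ] at hd
    have hℓ' := Nat.prime_iff_prime_int.mp hℓ
    rcases hℓ'.dvd_or_dvd hd with h3 | h3
    · exact hℓt (hℓ'.dvd_of_dvd_pow h3)
    · exact hℓa h3
  obtain ⟨q, h1, -, h2, h3⟩ := exists_prime_not_dvd_of_mem hΔ0 hss hp (by omega)
    (curveThree_irreducible_of_good hΔ0 hss hp hp5 hℓ hne hg hlt hlt2) hL
  exact ⟨q, h1, h2, by rwa [hΔ] at h3⟩

/-- **`xᵖ + 3ᵏ yᵖ = z³`** with `3 ∤ x`, `x`, `y` coprime, `27 ∣ 3ᵏ yᵖ ≠ 0`, `p ≥ 5`: no solution if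
some prime `ℓ ∉ {3, p}` with `ℓ + 1 + 2 √ℓ < 3 p` does not divide `x y`. -/
theorem pow_add_three_pow_mul_pow_ne_cube_of_good {p : ℕ} (hp : p.Prime) (hp5 : 5 ≤ p) {x y : ℤ}
    (hx0 : x ≠ 0) (hy : y ≠ 0) (hxy : IsCoprime x y) (hx : ¬ (3 : ℤ) ∣ x) {k : ℕ}
    (h27 : (27 : ℤ) ∣ 3 ^ k * y ^ p) {ℓ : ℕ} (hℓ : ℓ.Prime) (hℓ3 : ℓ ≠ 3) (hne : ℓ ≠ p)
    (hlt : ℓ + 1 < 3 * p) (hlt2 : 4 * (ℓ : ℤ) < (3 * p - (ℓ + 1)) ^ 2) (hℓx : ¬ (ℓ : ℤ) ∣ x)
    (hℓy : ¬ (ℓ : ℤ) ∣ y) (z : ℤ) : x ^ p + 3 ^ k * y ^ p ≠ z ^ 3 := by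
  intro h
  obtain ⟨t, ht⟩ := h27
  have hb0 : (3 : ℤ) ^ k * y ^ p ≠ 0 := mul_ne_zero (pow_ne_zero _ three_ne_zero) (pow_ne_zero _ hy)
  have ht0 : t ≠ 0 := by
    rintro rfl
    exact hb0 (by rw [ht, mul_zero])
  have hc3 : IsCoprime x 3 := ((Int.prime_three.irreducible.coprime_iff_not_dvd).mpr hx).symm
  have hcop : IsCoprime (x ^ p) (27 * t) := by
    rw [← ht]
    exact (hc3.pow).mul_right hxy.pow
  have hℓ' := Nat.prime_iff_prime_int.mp hℓ
  have hℓ3' : ¬ (ℓ : ℤ) ∣ 3 := by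
    intro h1
    exact hℓ3 ((Nat.prime_dvd_prime_iff_eq hℓ Nat.prime_three).mp (by exact_mod_cast h1))
  obtain ⟨q, hq, hq3, hv⟩ := exists_prime_three_of_good hp hp5 (a := x ^ p) (t := t) (c := z)
    (by rw [← ht]; exact h) (pow_ne_zero _ hx0) ht0 hcop hℓ hne hlt hlt2
    (fun h1 => hℓx (hℓ'.dvd_of_dvd_pow h1)) (fun h1 => by
      have h2 : (ℓ : ℤ) ∣ 3 ^ k * y ^ p := by rw [ht]; exact h1.mul_left 27
      rcases hℓ'.dvd_or_dvd h2 with h3 | h3
      · exact hℓ3' (hℓ'.dvd_of_dvd_pow h3)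
      · exact hℓy (hℓ'.dvd_of_dvd_pow h3)) (L := 3) (by decide)
  apply hv
  have : Fact q.Prime := ⟨hq⟩
  have hq' := Nat.prime_iff_prime_int.mp hq
  have hq3' : ¬ (q : ℤ) ∣ 3 := by
    intro h1
    have h2 : q ∣ 3 := by exact_mod_cast h1
    exact hq3 h2
  have hpow : ∀ j : ℕ, padicValInt q (3 ^ j) = 0 := fun j =>
    padicValInt.eq_zero_of_not_dvd fun h1 => hq3' (hq'.dvd_of_dvd_pow h1)
  have ht' : padicValInt q t = p * padicValInt q y := by
    have h1 : padicValInt q (3 ^ k * y ^ p) = padicValInt q (3 ^ 3 * t) := by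
      rw [ht]
      norm_num
    rw [padicValInt.mul (pow_ne_zero _ three_ne_zero) (pow_ne_zero _ hy),
      padicValInt.mul (pow_ne_zero _ three_ne_zero) ht0, hpow, hpow, zero_add, zero_add,
      padicValInt_pow_eq] at h1
    exact h1.symm
  rw [padicValInt.mul (pow_ne_zero _ ht0) (pow_ne_zero _ hx0), padicValInt_pow_eq, ht',
    padicValInt_pow_eq]
  exact dvd_add ((dvd_mul_right p _).mul_left 3) (dvd_mul_right p _)

/-- **`xᵖ + yᵖ = z³`** with `x`, `y` coprime, `x y ≠ 0` divisible by `3`: no solution if some prime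
`ℓ ∉ {3, p}` with `ℓ + 1 + 2 √ℓ < 3 p` does not divide `x y`; every prime `p ≥ 5`. -/
theorem pow_add_pow_ne_cube_of_good {p : ℕ} (hp : p.Prime) (hp5 : 5 ≤ p) {x y : ℤ} (hx0 : x ≠ 0)
    (hy0 : y ≠ 0) (hxy : IsCoprime x y) (h3 : (3 : ℤ) ∣ x * y) {ℓ : ℕ} (hℓ : ℓ.Prime)
    (hℓ3 : ℓ ≠ 3) (hne : ℓ ≠ p) (hlt : ℓ + 1 < 3 * p)
    (hlt2 : 4 * (ℓ : ℤ) < (3 * p - (ℓ + 1)) ^ 2) (hd : ¬ (ℓ : ℤ) ∣ x * y) (z : ℤ) :
    x ^ p + y ^ p ≠ z ^ 3 := by
  have key : ∀ x y : ℤ, x ≠ 0 → y ≠ 0 → IsCoprime x y → (3 : ℤ) ∣ y → ¬ (ℓ : ℤ) ∣ x * y →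
      x ^ p + y ^ p ≠ z ^ 3 := by
    intro x y hx0 hy0 hxy h3 hd h
    refine pow_add_three_pow_mul_pow_ne_cube_of_good hp hp5 hx0 hy0 hxy (k := 0)
      (fun h1 => Int.prime_three.not_isUnit (hxy.isUnit_of_dvd' h1 h3)) ?_ hℓ hℓ3 hne hlt hlt2
      (fun h1 => hd (h1.mul_right y)) (fun h1 => hd (h1.mul_left x)) z (by simpa using h)
    rw [pow_zero, one_mul]
    exact twentyseven_dvd (by omega) h3
  rcases Int.prime_three.dvd_or_dvd h3 with h2 | h2
  · intro h1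
    exact key y x hy0 hx0 hxy.symm h2 (by rwa [mul_comm]) (by rw [add_comm]; exact h1)
  · exact key x y hx0 hy0 hxy h2 hd

/-- **`x⁵ + y⁵ = z³`** has no solution with `x`, `y` coprime, `x y ≠ 0` divisible by `3` and not
divisible by `14`. -/
theorem pow_five_add_pow_five_ne_cube {x y : ℤ} (hx0 : x ≠ 0) (hy0 : y ≠ 0) (hxy : IsCoprime x y)
    (h3 : (3 : ℤ) ∣ x * y) (h : ¬ (14 : ℤ) ∣ x * y) (z : ℤ) : x ^ 5 + y ^ 5 ≠ z ^ 3 := by
  by_cases h2 : (2 : ℤ) ∣ x * y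
  · exact pow_add_pow_ne_cube_of_good (p := 5) (ℓ := 7) (by norm_num) (by norm_num) hx0 hy0 hxy h3
      (by norm_num) (by norm_num) (by norm_num) (by norm_num) (by norm_num)
      (by push_cast; omega) z
  · exact pow_add_pow_ne_cube_of_good (p := 5) (ℓ := 2) (by norm_num) (by norm_num) hx0 hy0 hxy h3
      (by norm_num) (by norm_num) (by norm_num) (by norm_num) (by norm_num)
      (by exact_mod_cast h2) z

/-- **`x⁷ + y⁷ = z³`** has no solution with `x`, `y` coprime, `x y ≠ 0` divisible by `3` and not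
divisible by `110`. -/
theorem pow_seven_add_pow_seven_ne_cube {x y : ℤ} (hx0 : x ≠ 0) (hy0 : y ≠ 0)
    (hxy : IsCoprime x y) (h3 : (3 : ℤ) ∣ x * y) (h : ¬ (110 : ℤ) ∣ x * y) (z : ℤ) :
    x ^ 7 + y ^ 7 ≠ z ^ 3 := by
  by_cases h2 : (2 : ℤ) ∣ x * y
  · by_cases h5 : (5 : ℤ) ∣ x * y
    · exact pow_add_pow_ne_cube_of_good (p := 7) (ℓ := 11) (by norm_num) (by norm_num) hx0 hy0
        hxy h3 (by norm_num) (by norm_num) (by norm_num) (by norm_num) (by norm_num)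
        (by push_cast; omega) z
    · exact pow_add_pow_ne_cube_of_good (p := 7) (ℓ := 5) (by norm_num) (by norm_num) hx0 hy0
        hxy h3 (by norm_num) (by norm_num) (by norm_num) (by norm_num) (by norm_num)
        (by exact_mod_cast h5) z
  · exact pow_add_pow_ne_cube_of_good (p := 7) (ℓ := 2) (by norm_num) (by norm_num) hx0 hy0 hxy h3
      (by norm_num) (by norm_num) (by norm_num) (by norm_num) (by norm_num)
      (by exact_mod_cast h2) z

/-- **`x¹³ + y¹³ = z³`** has no solution with `x`, `y` coprime, `x y ≠ 0` divisible by `3` and not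
divisible by `5720330 = 2 · 5 · 7 · 11 · 17 · 19 · 23`. -/
theorem pow_add_pow_ne_cube_thirteen {x y : ℤ} (hx0 : x ≠ 0) (hy0 : y ≠ 0)
    (hxy : IsCoprime x y) (h3 : (3 : ℤ) ∣ x * y) (h : ¬ (5720330 : ℤ) ∣ x * y) (z : ℤ) :
    x ^ 13 + y ^ 13 ≠ z ^ 3 := by
  intro hz
  have key : ∀ ℓ : ℕ, ℓ.Prime → ℓ ≠ 3 → ℓ ≠ 13 → ℓ + 1 < 3 * 13 →
      4 * (ℓ : ℤ) < (3 * (13 : ℕ) - (ℓ + 1)) ^ 2 → (ℓ : ℤ) ∣ x * y := by
    intro ℓ hℓ h1 h2 h4 h5
    by_contra hd
    exact pow_add_pow_ne_cube_of_good (p := 13) (by norm_num) (by norm_num) hx0 hy0 hxy h3 hℓ h1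
      h2 h4 h5 hd z hz
  have h2 := key 2 (by norm_num) (by norm_num) (by norm_num) (by norm_num) (by norm_num)
  have h5 := key 5 (by norm_num) (by norm_num) (by norm_num) (by norm_num) (by norm_num)
  have h7 := key 7 (by norm_num) (by norm_num) (by norm_num) (by norm_num) (by norm_num)
  have h11 := key 11 (by norm_num) (by norm_num) (by norm_num) (by norm_num) (by norm_num)
  have h17 := key 17 (by norm_num) (by norm_num) (by norm_num) (by norm_num) (by norm_num)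
  have h19 := key 19 (by norm_num) (by norm_num) (by norm_num) (by norm_num) (by norm_num)
  have h23 := key 23 (by norm_num) (by norm_num) (by norm_num) (by norm_num) (by norm_num)
  have a1 := IsCoprime.mul_dvd (by norm_num) h2 h5
  have a2 := IsCoprime.mul_dvd (by norm_num) a1 h7
  have a3 := IsCoprime.mul_dvd (by norm_num) a2 h11
  have a4 := IsCoprime.mul_dvd (by norm_num) a3 h17
  have a5 := IsCoprime.mul_dvd (by norm_num) a4 h19
  have a6 := IsCoprime.mul_dvd (by norm_num) a5 h23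
  apply h
  norm_num at a6
  exact a6

end Fermat.Agent.Cor.MO

end
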