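import Fermat.Agent.Corollaries.K4S.NoFrey
import Fermat.Agent.Corollaries.MO.PointThree
import Fermat.Agent.Corollaries.MO.PointSeven

/-!
# Levels of positive genus excluded by one coefficient

`W` semistable with `W[p]` irreducible, `p` odd. A normalized eigenform of level `M = serreLevel W p` is congruent to
`W` modulo a prime above `p`; its coefficient at a prime `ℓ ≠ p` not dividing `M` is congruent to `a_ℓ(W)` if `ℓ` is a
good prime and to `± (ℓ + 1)` if it is a bad one. So (`serreLevel_ne`) `M` is not a level all whose eigenforms have a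
rational integer as `ℓ`-th coefficient violating these congruences.
-/

set_option autoImplicit false

noncomputable section

open CuspForm ModularFormClass CongruenceSubgroup WeierstrassCurve Fermat.Agent.ECRed

namespace Fermat.Agent.Cor.MO

variable {W : WeierstrassCurve ℤ}

/-- **Exclusion of a level by one coefficient.** -/
theorem serreLevel_ne (hΔ : W.Δ ≠ 0) (hW : W.IsSemistableModel) {p : ℕ} (hp : p.Prime)
    (hp2 : p ≠ 2) (hirr : W.ModRepIsIrreducible p) {ℓ : ℕ} (hℓ : ℓ.Prime) (hℓp : ℓ ≠ p) {M : ℕ}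
    (hM0 : M ≠ 0) (hℓM : ¬ ℓ ∣ M)
    (hex : ∀ f : CuspForm (Gamma0 M) 2, f.IsNormalizedEigenform →
      ∃ v : ℤ, qCoeff f ℓ = (v : ℂ) ∧ (W.IsGoodPrimeFor ℓ → ¬ (p : ℤ) ∣ v - W.apOfModel ℓ) ∧
        ¬ (p : ℤ) ∣ v - (ℓ + 1) ∧ ¬ (p : ℤ) ∣ v + (ℓ + 1)) : serreLevel W p ≠ M := by
  intro he
  have : Fact p.Prime := ⟨hp⟩
  have hres := resMod_serre hΔ hW hp hp2 hirr
  rw [he] at hres
  obtain ⟨f, 𝔪, hf, h𝔪, hp𝔪, hcong⟩ := hres
  obtain ⟨v, hv, h1, h2, h3⟩ := hex f hf
  by_cases hg : (ℓ : ℤ) ∣ W.Δ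
  · have hmult : IsMultAt W ℓ := ⟨hℓ, hg, hW ℓ hℓ hg, hΔ⟩
    obtain ⟨a, ha, ha'⟩ := coeff_mult_of_resMod hM0 hΔ hp2 hf h𝔪 hp𝔪 hcong hmult hℓM hℓp
    have hav : a = (v : integralClosure ℤ ℂ) := by
      apply Subtype.ext
      rw [ha, hv]
      simp
    subst hav
    rcases ha' with h | h
    · refine h2 (K4S.dvd_of_cast_mem h𝔪.ne_top hp hp𝔪 ?_)
      push_cast at h ⊢
      exact h
    · refine h3 (K4S.dvd_of_cast_mem h𝔪.ne_top hp hp𝔪 ?_)
      push_cast at h ⊢
      exact h
  · obtain ⟨a, ha, ha'⟩ := hcong ℓ hℓ hg hℓM hℓp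
    have hav : a = (v : integralClosure ℤ ℂ) := by
      apply Subtype.ext
      rw [ha, hv]
      simp
    subst hav
    refine h1 hg (K4S.dvd_of_cast_mem h𝔪.ne_top hp hp𝔪 ?_)
    push_cast at ha' ⊢
    exact ha'

/-- The trace of Frobenius at `2` of a curve `Y² + c XY + t Y = X³` with good reduction at `2`: it is divisible by
three and at most two in absolute value. -/
theorem curveThree_ap_two_eq {c t : ℤ} (hg : (curveThree c t).IsGoodPrimeFor 2) :
    (curveThree c t).apOfModel 2 = 0 := by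
  have ht : ¬ ((2 : ℕ) : ℤ) ∣ t := by
    intro h
    apply hg
    rw [curveThree_Δ]
    exact (dvd_pow h three_ne_zero).mul_right _
  have h1 := three_dvd_curveThree (c := c) Nat.prime_two ht
  have h2 := apOfModel_sq_le Nat.prime_two hg
  push_cast at h1 h2
  have h3 : (curveThree c t).apOfModel 2 ≤ 2 := by nlinarith
  have h4 : -2 ≤ (curveThree c t).apOfModel 2 := by nlinarith
  omega

end Fermat.Agent.Cor.MO

end
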