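import Fermat.Agent.Corollaries.MO.LevelCoeff
import Fermat.Agent.Corollaries.MO.Even
import Fermat.Agent.Corollaries.K4.Small.PPTwo

/-!
# The equations `A xᵖ + B yᵖ = z²` at the levels `22` and `26`

The curve `W : Y² + XY = X³ + s X² + t X` has a rational point of order two, so `a₃(W)` is `0` or `± 2` if `W` has good
reduction at `3`. The eigenforms of level `11`, `22` have third coefficient `-1`, those of level `26` have `1` or `-3`,
and none of these is congruent to `0`, `± 2`, `± 4` modulo `p` (`p ≥ 7` resp. `p ≥ 11`). Hence the level of `W[p]` does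
not divide `22` (`freeTwo_twentytwo`) resp. `26` (`freeTwo_twentysix`), and

* `pow_add_mul_pow_ne_sq_of_free`: `xᵖ + 2ᵏ Lᵐ yᵖ = z²` has no solution with `x` prime to `2 L y`, `x y ≠ 0`, and
  `k ≥ 6` or `2 ∣ y`, for `L = 11` and every prime `p ≥ 7`, `p ≠ 13`, and for `L = 13`, `p ≥ 11`, `p ≠ 13`;
* `pow_add_pow_mul_pow_ne_sq`: the same for `xᵖ + Lᵐ yᵖ = z²`, `x` prime to `L y`, `x y ≠ 0` even.
-/

set_option autoImplicit false

noncomputable section

open CuspForm ModularFormClass CongruenceSubgroup WeierstrassCurve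

namespace Fermat.Agent.Cor.MO

/-- No semistable curve of the family `curveTwo` has level dividing `N` at `p`. -/
def FreeTwo (p N : ℕ) : Prop :=
  ∀ s t : ℤ, (curveTwo s t).Δ ≠ 0 → (curveTwo s t).IsSemistableModel →
    ¬ serreLevel (curveTwo s t) p ∣ N

variable {p : ℕ}

/-- `W[p]` is irreducible for every semistable curve of the family `curveTwo`, every prime `p ≥ 7`, `p ≠ 13`. -/
theorem irredTwo_all (hp : p.Prime) (hp7 : 7 ≤ p) (hp13 : p ≠ 13) : PPS.Aux.IrredTwo p := by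
  refine PPS.Aux.irredTwo hp ?_
  by_contra hcon
  push Not at hcon
  obtain ⟨h7, h11, h17⟩ := hcon
  interval_cases p <;> first | omega | exact absurd hp (by norm_num)

/-- The trace of Frobenius at `3` is `0` or `± 2`. -/
theorem curveTwo_ap_three {s t : ℤ} (hΔ : (curveTwo s t).Δ ≠ 0)
    (hg : (curveTwo s t).IsGoodPrimeFor 3) :
    (curveTwo s t).apOfModel 3 = 0 ∨ (curveTwo s t).apOfModel 3 = 2 ∨
      (curveTwo s t).apOfModel 3 = -2 := by
  have h1 := Table.even_apOfModel_of_root hΔ (curveTwo_root s t) Nat.prime_three (by norm_num) hg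
  have h2 := apOfModel_sq_le Nat.prime_three hg
  push_cast at h2
  have h3 : (curveTwo s t).apOfModel 3 ≤ 3 := by nlinarith
  have h4 : -3 ≤ (curveTwo s t).apOfModel 3 := by nlinarith
  omega

theorem serreLevel_ne_two (hp : p.Prime) (hp7 : 7 ≤ p) (hp13 : p ≠ 13) {s t : ℤ}
    (hΔ : (curveTwo s t).Δ ≠ 0) (hss : (curveTwo s t).IsSemistableModel) {M : ℕ}
    (hM0 : M ≠ 0) (h3M : ¬ 3 ∣ M)
    (hex : ∀ f : CuspForm (Gamma0 M) 2, f.IsNormalizedEigenform →
      ∃ v : ℤ, qCoeff f 3 = (v : ℂ) ∧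
        ¬ (p : ℤ) ∣ v * (v - 2) * (v + 2) * (v - 4) * (v + 4)) :
    serreLevel (curveTwo s t) p ≠ M := by
  refine serreLevel_ne hΔ hss hp (by omega) (irredTwo_all hp hp7 hp13 s t hΔ hss)
    Nat.prime_three (by omega) hM0 h3M fun f hf => ?_
  obtain ⟨v, hv, h⟩ := hex f hf
  refine ⟨v, hv, fun hg => ?_, fun h1 => h ?_, fun h1 => h ?_⟩
  · rcases curveTwo_ap_three hΔ hg with h2 | h2 | h2 <;> rw [h2]
    · rw [sub_zero]
      exact fun h1 => h ((((h1.mul_right _).mul_right _).mul_right _).mul_right _)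
    · exact fun h1 => h ((((h1.mul_left _).mul_right _).mul_right _).mul_right _)
    · rw [sub_neg_eq_add]
      exact fun h1 => h (((h1.mul_left _).mul_right _).mul_right _)
  · have h2 : v - (((3 : ℕ) : ℤ) + 1) = v - 4 := by push_cast; ring
    rw [h2] at h1
    exact (h1.mul_left _).mul_right _
  · have h2 : v + (((3 : ℕ) : ℤ) + 1) = v + 4 := by push_cast; ring
    rw [h2] at h1
    exact h1.mul_left _

theorem not_dvd_45 (hp : p.Prime) (hp7 : 7 ≤ p) {n : ℤ} (hn : n.natAbs = 45) :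
    ¬ (p : ℤ) ∣ n := by
  intro h
  have h1 : p ∣ n.natAbs := Int.natCast_dvd.mp h
  rw [hn, show 45 = 3 ^ 2 * 5 by norm_num] at h1
  rcases hp.dvd_mul.mp h1 with h2 | h2
  · have := Nat.le_of_dvd (by norm_num) (hp.dvd_of_dvd_pow h2)
    omega
  · have := Nat.le_of_dvd (by norm_num) h2
    omega

theorem not_dvd_105 (hp : p.Prime) (hp11 : 11 ≤ p) {n : ℤ} (hn : n.natAbs = 105) :
    ¬ (p : ℤ) ∣ n := by
  intro h
  have h1 : p ∣ n.natAbs := Int.natCast_dvd.mp h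
  rw [hn, show 105 = 3 * 5 * 7 by norm_num] at h1
  rcases hp.dvd_mul.mp h1 with h2 | h2
  · rcases hp.dvd_mul.mp h2 with h3 | h3 <;>
    · have := Nat.le_of_dvd (by norm_num) h3
      omega
  · have := Nat.le_of_dvd (by norm_num) h2
    omega

theorem not_eleven_two (hp : p.Prime) (hp7 : 7 ≤ p) (hp13 : p ≠ 13) {s t : ℤ}
    (hΔ : (curveTwo s t).Δ ≠ 0) (hss : (curveTwo s t).IsSemistableModel) :
    serreLevel (curveTwo s t) p ≠ 11 :=
  serreLevel_ne_two hp hp7 hp13 hΔ hss (by norm_num) (by norm_num) fun f hf =>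
    ⟨-1, by rw [K4S.coeff_three_11 hf]; norm_num, not_dvd_45 hp hp7 (by norm_num)⟩

theorem not_twentytwo (hp : p.Prime) (hp7 : 7 ≤ p) (hp13 : p ≠ 13) {s t : ℤ}
    (hΔ : (curveTwo s t).Δ ≠ 0) (hss : (curveTwo s t).IsSemistableModel) :
    serreLevel (curveTwo s t) p ≠ 22 :=
  serreLevel_ne_two hp hp7 hp13 hΔ hss (by norm_num) (by norm_num) fun f hf =>
    ⟨-1, by rw [K4S.coeff_three_22 hf]; norm_num, not_dvd_45 hp hp7 (by norm_num)⟩

theorem not_twentysix (hp : p.Prime) (hp11 : 11 ≤ p) (hp13 : p ≠ 13) {s t : ℤ}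
    (hΔ : (curveTwo s t).Δ ≠ 0) (hss : (curveTwo s t).IsSemistableModel) :
    serreLevel (curveTwo s t) p ≠ 26 :=
  serreLevel_ne_two hp (by omega) hp13 hΔ hss (by norm_num) (by norm_num) fun f hf => by
    rcases K4S.coeff_three_26 hf with h | h
    · exact ⟨1, by rw [h]; norm_num, not_dvd_45 hp (by omega) (by norm_num)⟩
    · exact ⟨-3, by rw [h]; norm_num, not_dvd_105 hp hp11 (by norm_num)⟩

/-- The divisors of `N` are levels of genus zero or excluded. -/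
theorem freeTwo_of (hp : p.Prime) (hp7 : 7 ≤ p) (hp13 : p ≠ 13) {N : ℕ} (hN : N ≠ 0)
    (h : ∀ s t : ℤ, (curveTwo s t).Δ ≠ 0 → (curveTwo s t).IsSemistableModel →
      ∀ M ∈ Nat.divisors N, M ∉ zeroLevels → serreLevel (curveTwo s t) p ≠ M) :
    FreeTwo p N := by
  intro s t hΔ hss hd
  have h1 := serreLevel_notMem hΔ hss hp (by omega) (irredTwo_all hp hp7 hp13 s t hΔ hss)
  exact h s t hΔ hss _ (Nat.mem_divisors.mpr ⟨hd, hN⟩) h1 rfl

/-- **Level `22`.** -/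
theorem freeTwo_twentytwo (hp : p.Prime) (hp7 : 7 ≤ p) (hp13 : p ≠ 13) : FreeTwo p 22 := by
  refine freeTwo_of hp hp7 hp13 (by norm_num) fun s t hΔ hss M hM hM0 => ?_
  have h1 : M = 11 ∨ M = 22 := by
    have h2 : ∀ M ∈ Nat.divisors 22, M ∉ zeroLevels → M = 11 ∨ M = 22 := by decide +kernel
    exact h2 M hM hM0
  rcases h1 with h1 | h1 <;> rw [h1]
  · exact not_eleven_two hp hp7 hp13 hΔ hss
  · exact not_twentytwo hp hp7 hp13 hΔ hss

/-- **Level `26`.** -/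
theorem freeTwo_twentysix (hp : p.Prime) (hp11 : 11 ≤ p) (hp13 : p ≠ 13) : FreeTwo p 26 := by
  refine freeTwo_of hp (by omega) hp13 (by norm_num) fun s t hΔ hss M hM hM0 => ?_
  have h1 : M = 26 := by
    have h2 : ∀ M ∈ Nat.divisors 26, M ∉ zeroLevels → M = 26 := by decide +kernel
    exact h2 M hM hM0
  rw [h1]
  exact not_twentysix hp hp11 hp13 hΔ hss

/-- **The key statement**: `a + 64 t = c²`, `a` odd and prime to `t`, both not zero: there is a prime `q ∤ N` with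
`p ∤ v_q(t² a)`. -/
theorem exists_prime_of_freeTwo {N : ℕ} (hN : FreeTwo p N) {a t c : ℤ}
    (h : a + 64 * t = c ^ 2) (ha : a ≠ 0) (ht : t ≠ 0) (hat : IsCoprime a t)
    (hodd : ¬ (2 : ℤ) ∣ a) :
    ∃ q : ℕ, q.Prime ∧ ¬ q ∣ N ∧ ¬ p ∣ padicValInt q (t ^ 2 * a) := by
  obtain ⟨s, hs⟩ : ∃ s : ℤ, c ^ 2 = (1 + 4 * s) ^ 2 := by
    have hc : ¬ (2 : ℤ) ∣ c := by
      intro h2
      apply hodd
      have h3 : (2 : ℤ) ∣ c ^ 2 := dvd_pow h2 two_ne_zero
      omega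
    rcases (by omega : c % 4 = 1 ∨ c % 4 = 3) with h4 | h4
    · exact ⟨c / 4, by rw [show 1 + 4 * (c / 4) = c by omega]⟩
    · exact ⟨(-c) / 4, by rw [show 1 + 4 * (-c / 4) = -c by omega, neg_sq]⟩
  have ha' : a = (1 + 4 * s) ^ 2 - 64 * t := by rw [← hs, ← h]; ring
  have hΔ : (curveTwo s t).Δ = t ^ 2 * a := by rw [curveTwo_Δ, ← ha']
  have hΔ0 : (curveTwo s t).Δ ≠ 0 := by
    rw [hΔ]; exact mul_ne_zero (pow_ne_zero _ ht) ha
  have hss : (curveTwo s t).IsSemistableModel := curveTwo_semistable (by rwa [← ha'])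
  by_contra hcon
  push Not at hcon
  refine hN s t hΔ0 hss (serreLevel_dvd_of_forall hΔ0 fun q hq hqN => ?_)
  rw [hΔ]
  exact hcon q hq hqN

/-- **The equation `A xᵖ + B yᵖ = z²`**, `A x`, `B y` coprime and `≠ 0`, `64 ∣ B yᵖ`, the primes of `A B` dividing
`N`, `2 ∣ N`, `N` free: no solution. -/
theorem two_coeff_of_free (hp : p.Prime) {N : ℕ} (h2N : 2 ∣ N) (hN : FreeTwo p N)
    {A B x y z : ℤ} (h : A * x ^ p + B * y ^ p = z ^ 2) (hcop : IsCoprime (A * x) (B * y))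
    (h64 : (64 : ℤ) ∣ B * y ^ p) (hx : A * x ≠ 0) (hy : B * y ≠ 0)
    (hA : ∀ q : ℕ, q.Prime → (q : ℤ) ∣ A → q ∣ N) (hB : ∀ q : ℕ, q.Prime → (q : ℤ) ∣ B → q ∣ N) :
    False := by
  obtain ⟨t, ht⟩ := h64
  have hA0 := left_ne_zero_of_mul hx
  have hx0 := right_ne_zero_of_mul hx
  have hB0 := left_ne_zero_of_mul hy
  have hy0 := right_ne_zero_of_mul hy
  have hcop' : IsCoprime (A * x ^ p) (B * y ^ p) := by
    have h1 : IsCoprime ((A * x) ^ p) ((B * y) ^ p) := hcop.pow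
    refine (h1.of_isCoprime_of_dvd_left ?_).of_isCoprime_of_dvd_right ?_
    · rw [mul_pow]; exact mul_dvd_mul_right (dvd_pow_self A hp.ne_zero) _
    · rw [mul_pow]; exact mul_dvd_mul_right (dvd_pow_self B hp.ne_zero) _
  have hb0 : B * y ^ p ≠ 0 := mul_ne_zero hB0 (pow_ne_zero _ hy0)
  have ha0 : A * x ^ p ≠ 0 := mul_ne_zero hA0 (pow_ne_zero _ hx0)
  have ht0 : t ≠ 0 := by
    rintro rfl
    exact hb0 (by rw [ht, mul_zero])
  have hc64 : IsCoprime (A * x ^ p) (64 * t) := by rw [← ht]; exact hcop'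
  have hodd : ¬ (2 : ℤ) ∣ A * x ^ p := by
    intro h1
    have h2 : (2 : ℤ) ∣ 64 * t := Dvd.dvd.mul_right (by norm_num) t
    exact Int.prime_two.not_isUnit (hc64.isUnit_of_dvd' h1 h2)
  obtain ⟨q, hq, hqN, hv⟩ := exists_prime_of_freeTwo hN (a := A * x ^ p) (t := t) (c := z)
    (by rw [← ht]; exact h) ha0 ht0 hc64.of_mul_right_right hodd
  apply hv
  have : Fact q.Prime := ⟨hq⟩
  have hq64 : ¬ (q : ℤ) ∣ 64 := by
    intro h1
    have h2 : (q : ℤ) ∣ 2 := (Nat.prime_iff_prime_int.mp hq).dvd_of_dvd_pow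
      (by simpa using h1 : (q : ℤ) ∣ 2 ^ 6)
    have h3 : q ∣ 2 := by exact_mod_cast h2
    exact hqN (((Nat.prime_dvd_prime_iff_eq hq Nat.prime_two).mp h3) ▸ h2N)
  have key : ∀ C w : ℤ, C ≠ 0 → w ≠ 0 → (∀ q : ℕ, q.Prime → (q : ℤ) ∣ C → q ∣ N) →
      p ∣ padicValInt q (C * w ^ p) := by
    intro C w hC hw hCN
    refine dvd_padicValInt_mul_pow_of_dvd hq hC hw ?_
    rw [padicValInt.eq_zero_of_not_dvd fun h => hqN (hCN q hq h)]
    exact dvd_zero p
  have ht' : p ∣ padicValInt q t := by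
    have h1 := key B y hB0 hy0 hB
    rwa [ht, padicValInt.mul (by norm_num) ht0, padicValInt.eq_zero_of_not_dvd hq64,
      zero_add] at h1
  rw [padicValInt.mul (pow_ne_zero _ ht0) ha0, padicValInt_pow_eq]
  exact dvd_add (ht'.mul_left 2) (key A x hA0 hx0 hA)

/-- The pairs `(p, L)`: `L = 11`, `p ≥ 7`; `L = 13`, `p ≥ 11`; always `p ≠ 13`. -/
def GoodTwo (p L : ℕ) : Prop :=
  p ≠ 13 ∧ ((L = 11 ∧ 7 ≤ p) ∨ (L = 13 ∧ 11 ≤ p))

theorem GoodTwo.free {L : ℕ} (hp : p.Prime) (h : GoodTwo p L) : FreeTwo p (2 * L) := by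
  obtain ⟨h13, ⟨rfl, h7⟩ | ⟨rfl, h11⟩⟩ := h
  · exact freeTwo_twentytwo hp h7 h13
  · exact freeTwo_twentysix hp h11 h13

theorem GoodTwo.prime {L : ℕ} (h : GoodTwo p L) : L.Prime := by
  obtain ⟨-, ⟨rfl, -⟩ | ⟨rfl, -⟩⟩ := h <;> norm_num

theorem GoodTwo.six_le {L : ℕ} (h : GoodTwo p L) : 6 ≤ p := by
  obtain ⟨-, ⟨-, h7⟩ | ⟨-, h11⟩⟩ := h <;> omega

/-- **`xᵖ + 2ᵏ Lᵐ yᵖ = z²`** has no solution with `x` prime to `2 L y`, `x y ≠ 0`, and `k ≥ 6` or `2 ∣ y`: `L = 11`,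
every prime `p ≥ 7`, `p ≠ 13`; `L = 13`, every prime `p ≥ 11`, `p ≠ 13`; all `m`. -/
theorem pow_add_mul_pow_ne_sq_of_free (hp : p.Prime) {L : ℕ} (hL : GoodTwo p L) {x y : ℤ}
    (hx : x ≠ 0) (hy : y ≠ 0) {k m : ℕ} (hxy : IsCoprime x (2 * L * y))
    (hk : 6 ≤ k ∨ (2 : ℤ) ∣ y) (z : ℤ) : x ^ p + 2 ^ k * (L : ℤ) ^ m * y ^ p ≠ z ^ 2 := by
  intro h
  have hL0 : (L : ℤ) ≠ 0 := by exact_mod_cast hL.prime.ne_zero
  have hc1 : IsCoprime x 2 := hxy.of_mul_right_left.of_mul_right_left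
  have hc2 : IsCoprime x L := hxy.of_mul_right_left.of_mul_right_right
  have hc3 : IsCoprime x y := hxy.of_mul_right_right
  refine two_coeff_of_free hp (dvd_mul_right 2 L) (hL.free hp) (A := 1) (B := 2 ^ k * (L : ℤ) ^ m)
    (x := x) (y := y) (z := z) (by rw [one_mul]; exact h) ?_ ?_ (by rwa [one_mul])
    (mul_ne_zero (mul_ne_zero (pow_ne_zero _ two_ne_zero) (pow_ne_zero _ hL0)) hy) ?_ ?_
  · rw [one_mul]
    exact ((hc1.pow_right).mul_right hc2.pow_right).mul_right hc3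
  · rcases hk with hk | hk
    · exact Dvd.dvd.mul_right (Dvd.dvd.mul_right (by simpa using pow_dvd_pow (2 : ℤ) hk) _) _
    · exact (sixtyfour_dvd hL.six_le hk).mul_left _
  · intro q hq h1
    have h3 : q ∣ 1 := by exact_mod_cast h1
    exact absurd (Nat.dvd_one.mp h3) hq.ne_one
  · intro q hq h1
    have hq' := Nat.prime_iff_prime_int.mp hq
    rcases hq'.dvd_or_dvd h1 with h3 | h3
    · have h4 := hq'.dvd_of_dvd_pow h3
      have h5 : q ∣ 2 := by exact_mod_cast h4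
      exact h5.mul_right L
    · have h4 := hq'.dvd_of_dvd_pow h3
      have h5 : q ∣ L := by exact_mod_cast h4
      exact h5.mul_left 2

/-- **`xᵖ + Lᵐ yᵖ = z²`** has no solution with `x` prime to `L y`, `x y ≠ 0` even: `L = 11`, every prime `p ≥ 7`,
`p ≠ 13`; `L = 13`, every prime `p ≥ 11`, `p ≠ 13`; all `m`. -/
theorem pow_add_pow_mul_pow_ne_sq (hp : p.Prime) {L : ℕ} (hL : GoodTwo p L) {x y : ℤ}
    (hx : x ≠ 0) (hy : y ≠ 0) {m : ℕ} (hxy : IsCoprime x (L * y)) (heven : (2 : ℤ) ∣ x * y)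
    (z : ℤ) : x ^ p + (L : ℤ) ^ m * y ^ p ≠ z ^ 2 := by
  intro h
  have hL0 : (L : ℤ) ^ m ≠ 0 := pow_ne_zero _ (by exact_mod_cast hL.prime.ne_zero)
  have hc : IsCoprime x ((L : ℤ) ^ m * y) :=
    (hxy.of_mul_right_left.pow_right).mul_right hxy.of_mul_right_right
  have hone : ∀ q : ℕ, q.Prime → (q : ℤ) ∣ 1 → q ∣ 2 * L := by
    intro q hq h1
    have h3 : q ∣ 1 := by exact_mod_cast h1
    exact absurd (Nat.dvd_one.mp h3) hq.ne_one
  have hLL : ∀ q : ℕ, q.Prime → (q : ℤ) ∣ (L : ℤ) ^ m → q ∣ 2 * L := by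
    intro q hq h1
    have h4 := (Nat.prime_iff_prime_int.mp hq).dvd_of_dvd_pow h1
    have h5 : q ∣ L := by exact_mod_cast h4
    exact h5.mul_left 2
  rcases Int.prime_two.dvd_or_dvd heven with h3 | h3
  · exact two_coeff_of_free hp (dvd_mul_right 2 L) (hL.free hp) (A := (L : ℤ) ^ m) (B := 1)
      (x := y) (y := x) (z := z) (by rw [one_mul, add_comm]; exact h)
      (by rw [one_mul]; exact hc.symm) (by rw [one_mul]; exact sixtyfour_dvd hL.six_le h3)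
      (mul_ne_zero hL0 hy) (by rwa [one_mul]) hLL hone
  · exact two_coeff_of_free hp (dvd_mul_right 2 L) (hL.free hp) (A := 1) (B := (L : ℤ) ^ m)
      (x := x) (y := y) (z := z) (by rw [one_mul]; exact h) (by rw [one_mul]; exact hc)
      ((sixtyfour_dvd hL.six_le h3).mul_left _) (by rwa [one_mul]) (mul_ne_zero hL0 hy) hone hLL

end Fermat.Agent.Cor.MO

end
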