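import Fermat.Agent.Corollaries.MO.LevelThree
import Fermat.Agent.Corollaries.MO.LevelTwo

/-!
# The equations `xᵖ + 27 · 17ᵐ yᵖ = z³` and `xᵖ + 64 · 37ᵐ yᵖ = z²`

The method of `LevelThree.lean` and `LevelTwo.lean` at the prime levels `17` (second coefficient `-1`) and `37` (third
coefficients `-3` and `1`).
-/

set_option autoImplicit false

open CuspForm ModularFormClass CongruenceSubgroup WeierstrassCurve
open FermatAgent.HeckeEigen Fermat.Agent.Oldforms
open Fermat.Agent.Cor.InvGal Fermat.Agent.Cor.K4S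

namespace Fermat.Agent.Cor.MO

theorem form37a_three : ∃ g : CuspForm (Gamma0 37) 2, g.IsNormalizedEigenform ∧
    qCoeff ⇑g 3 = -3 := by
  obtain ⟨g, hg, h⟩ := exists_form_of_curve (W := ⟨0, 0, 1, -1, 0⟩) (M := 37) (k := 1)
    (by decide +kernel) (by decide) (by decide) (by decide) (by decide)
  refine ⟨g, hg, ?_⟩
  rw [h 3 Nat.prime_three (by decide), show cnt ⟨0, 0, 1, -1, 0⟩ 3 = 6 by decide +kernel]
  norm_num

theorem form37b_three : ∃ g : CuspForm (Gamma0 37) 2, g.IsNormalizedEigenform ∧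
    qCoeff ⇑g 3 = 1 := by
  obtain ⟨g, hg, h⟩ := exists_form_of_curve (W := ⟨0, 1, 1, -3, 1⟩) (M := 37) (k := 1)
    (by decide +kernel) (by decide) (by decide) (by decide) (by decide)
  refine ⟨g, hg, ?_⟩
  rw [h 3 Nat.prime_three (by decide), show cnt ⟨0, 1, 1, -3, 1⟩ 3 = 2 by decide +kernel]
  norm_num

/-- The third coefficient of the eigenforms of level `37`. -/
theorem coeff_three_37 {f : CuspForm (Gamma0 37) 2} (hf : f.IsNormalizedEigenform) :
    qCoeff ⇑f 3 = 1 ∨ qCoeff ⇑f 3 = -3 := by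
  obtain ⟨a, ha, ha3⟩ := form37b_three
  obtain ⟨b, hb, hb3⟩ := form37a_three
  obtain ⟨i, hi⟩ := coeff_three_mem (n := 2) (v := ![a, b]) (c := ![1, -3])
    (fun i => by
      fin_cases i
      · exact (hecke3 ha).trans (by rw [ha3]; rfl)
      · exact (hecke3 hb).trans (by rw [hb3]; rfl))
    (by
      rw [LinearIndependent.pair_iff]
      intro s t h
      have h1 := congrArg (fun F : CuspForm (Gamma0 37) 2 => qCoeff ⇑F 1) h
      have h3 := congrArg (fun F : CuspForm (Gamma0 37) 2 => qCoeff ⇑F 3) h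
      simp only [qCoeff_add, qCoeff_smul, ha.qCoeff_one, hb.qCoeff_one, ha3, hb3,
        qCoeff_zero] at h1 h3
      exact ⟨by linear_combination (3 * h1 + h3) / 4, by linear_combination (h1 - h3) / 4⟩)
    (by decide +kernel) two_ne_zero hf
  fin_cases i
  · exact Or.inl hi
  · exact Or.inr hi

variable {p : ℕ}

/-- **Level `17`**, cubes. -/
theorem freeThree_seventeen (hp : p.Prime) (hp5 : 5 ≤ p) (hp13 : p ≠ 13) : FreeThree p 17 := by
  refine freeThree_of hp hp5 hp13 (by norm_num) fun c t hΔ hss M hM hM0 => ?_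
  have h1 : M = 17 := by
    have h2 : ∀ M ∈ Nat.divisors 17, M ∉ zeroLevels → M = 17 := by decide +kernel
    exact h2 M hM hM0
  rw [h1]
  exact not_seventeen hp hp5 hp13 hΔ hss

/-- **Level `37`**, squares. -/
theorem freeTwo_thirtyseven (hp : p.Prime) (hp11 : 11 ≤ p) (hp13 : p ≠ 13) : FreeTwo p 37 := by
  refine freeTwo_of hp (by omega) hp13 (by norm_num) fun s t hΔ hss M hM hM0 => ?_
  have h1 : M = 37 := by
    have h2 : ∀ M ∈ Nat.divisors 37, M ∉ zeroLevels → M = 37 := by decide +kernel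
    exact h2 M hM hM0
  rw [h1]
  refine serreLevel_ne_two hp (by omega) hp13 hΔ hss (by norm_num) (by norm_num) fun f hf => ?_
  rcases coeff_three_37 hf with h | h
  · exact ⟨1, by rw [h]; norm_num, not_dvd_45 hp (by omega) (by norm_num)⟩
  · exact ⟨-3, by rw [h]; norm_num, not_dvd_105 hp hp11 (by norm_num)⟩

/-- **The equation `A xᵖ + 27 B yᵖ = z³`**, `A x` prime to `3 B y`, both `≠ 0`, the primes of `A B` dividing `N`,
`N` free: no solution. -/
theorem twentyseven_of_free (hp : p.Prime) {N : ℕ} (hN : FreeThree p N) {A B x y z : ℤ}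
    (h : A * x ^ p + 27 * (B * y ^ p) = z ^ 3) (hcop : IsCoprime (A * x) (3 * (B * y)))
    (hx : A * x ≠ 0) (hy : B * y ≠ 0) (hA : ∀ q : ℕ, q.Prime → (q : ℤ) ∣ A → q ∣ N)
    (hB : ∀ q : ℕ, q.Prime → (q : ℤ) ∣ B → q ∣ N) : False := by
  have hA0 := left_ne_zero_of_mul hx
  have hx0 := right_ne_zero_of_mul hx
  have hB0 := left_ne_zero_of_mul hy
  have hy0 := right_ne_zero_of_mul hy
  have hc1 : IsCoprime (A * x ^ p) (B * y ^ p) := by
    have h1 : IsCoprime ((A * x) ^ p) ((B * y) ^ p) := hcop.of_mul_right_right.pow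
    refine (h1.of_isCoprime_of_dvd_left ?_).of_isCoprime_of_dvd_right ?_
    · rw [mul_pow]; exact mul_dvd_mul_right (dvd_pow_self A hp.ne_zero) _
    · rw [mul_pow]; exact mul_dvd_mul_right (dvd_pow_self B hp.ne_zero) _
  have hc2 : IsCoprime (A * x ^ p) 27 := by
    have h1 : IsCoprime ((A * x) ^ p) ((3 : ℤ) ^ 3) := hcop.of_mul_right_left.pow
    have h2 : IsCoprime (A * x ^ p) ((3 : ℤ) ^ 3) := h1.of_isCoprime_of_dvd_left (by
      rw [mul_pow]; exact mul_dvd_mul_right (dvd_pow_self A hp.ne_zero) _)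
    rwa [show ((3 : ℤ) ^ 3) = 27 by norm_num] at h2
  have ht0 : B * y ^ p ≠ 0 := mul_ne_zero hB0 (pow_ne_zero _ hy0)
  have ha0 : A * x ^ p ≠ 0 := mul_ne_zero hA0 (pow_ne_zero _ hx0)
  obtain ⟨q, hq, hqN, hv⟩ := exists_prime_of_freeThree hN h ha0 ht0 (hc2.mul_right hc1)
  apply hv
  have : Fact q.Prime := ⟨hq⟩
  have key : ∀ C w : ℤ, C ≠ 0 → w ≠ 0 → (∀ q : ℕ, q.Prime → (q : ℤ) ∣ C → q ∣ N) →
      p ∣ padicValInt q (C * w ^ p) := by
    intro C w hC hw hCN
    refine dvd_padicValInt_mul_pow_of_dvd hq hC hw ?_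
    rw [padicValInt.eq_zero_of_not_dvd fun h => hqN (hCN q hq h)]
    exact dvd_zero p
  rw [padicValInt.mul (pow_ne_zero _ ht0) ha0, padicValInt_pow_eq]
  exact dvd_add ((key B y hB0 hy0 hB).mul_left 3) (key A x hA0 hx0 hA)

/-- **The equation `A xᵖ + 64 B yᵖ = z²`**, `A x` prime to `2 B y`, both `≠ 0`, the primes of `A B` dividing `N`,
`N` free: no solution. -/
theorem sixtyfour_of_free (hp : p.Prime) {N : ℕ} (hN : FreeTwo p N) {A B x y z : ℤ}
    (h : A * x ^ p + 64 * (B * y ^ p) = z ^ 2) (hcop : IsCoprime (A * x) (2 * (B * y)))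
    (hx : A * x ≠ 0) (hy : B * y ≠ 0) (hA : ∀ q : ℕ, q.Prime → (q : ℤ) ∣ A → q ∣ N)
    (hB : ∀ q : ℕ, q.Prime → (q : ℤ) ∣ B → q ∣ N) : False := by
  have hA0 := left_ne_zero_of_mul hx
  have hx0 := right_ne_zero_of_mul hx
  have hB0 := left_ne_zero_of_mul hy
  have hy0 := right_ne_zero_of_mul hy
  have hc1 : IsCoprime (A * x ^ p) (B * y ^ p) := by
    have h1 : IsCoprime ((A * x) ^ p) ((B * y) ^ p) := hcop.of_mul_right_right.pow
    refine (h1.of_isCoprime_of_dvd_left ?_).of_isCoprime_of_dvd_right ?_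
    · rw [mul_pow]; exact mul_dvd_mul_right (dvd_pow_self A hp.ne_zero) _
    · rw [mul_pow]; exact mul_dvd_mul_right (dvd_pow_self B hp.ne_zero) _
  have hodd : ¬ (2 : ℤ) ∣ A * x ^ p := by
    have h1 : IsCoprime ((A * x) ^ p) (2 : ℤ) := hcop.of_mul_right_left.pow_left
    have h2 : IsCoprime (A * x ^ p) (2 : ℤ) := h1.of_isCoprime_of_dvd_left (by
      rw [mul_pow]; exact mul_dvd_mul_right (dvd_pow_self A hp.ne_zero) _)
    intro h3
    exact Int.prime_two.not_isUnit (h2.isUnit_of_dvd' h3 dvd_rfl)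
  have ht0 : B * y ^ p ≠ 0 := mul_ne_zero hB0 (pow_ne_zero _ hy0)
  have ha0 : A * x ^ p ≠ 0 := mul_ne_zero hA0 (pow_ne_zero _ hx0)
  obtain ⟨q, hq, hqN, hv⟩ := exists_prime_of_freeTwo hN h ha0 ht0 hc1 hodd
  apply hv
  have : Fact q.Prime := ⟨hq⟩
  have key : ∀ C w : ℤ, C ≠ 0 → w ≠ 0 → (∀ q : ℕ, q.Prime → (q : ℤ) ∣ C → q ∣ N) →
      p ∣ padicValInt q (C * w ^ p) := by
    intro C w hC hw hCN
    refine dvd_padicValInt_mul_pow_of_dvd hq hC hw ?_
    rw [padicValInt.eq_zero_of_not_dvd fun h => hqN (hCN q hq h)]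
    exact dvd_zero p
  rw [padicValInt.mul (pow_ne_zero _ ht0) ha0, padicValInt_pow_eq]
  exact dvd_add ((key B y hB0 hy0 hB).mul_left 2) (key A x hA0 hx0 hA)

theorem one_dvd_level {N : ℕ} : ∀ q : ℕ, q.Prime → (q : ℤ) ∣ 1 → q ∣ N := by
  intro q hq h1
  have h3 : q ∣ 1 := by exact_mod_cast h1
  exact absurd (Nat.dvd_one.mp h3) hq.ne_one

/-- **`xᵖ + 27 · 17ᵐ yᵖ = z³`** has no solution with `x` prime to `3 · 17 y`, `x y ≠ 0`: every prime `p ≥ 5`,
`p ≠ 13`, all `m`. -/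
theorem pow_add_seventeen_ne_cube (hp : p.Prime) (hp5 : 5 ≤ p) (hp13 : p ≠ 13) {x y : ℤ}
    (hx : x ≠ 0) (hy : y ≠ 0) {m : ℕ} (hxy : IsCoprime x (3 * (17 * y))) (z : ℤ) :
    x ^ p + 27 * (17 ^ m * y ^ p) ≠ z ^ 3 := by
  intro h
  refine twentyseven_of_free hp (freeThree_seventeen hp hp5 hp13) (A := 1) (B := 17 ^ m) (x := x)
    (y := y) (z := z) (by rw [one_mul]; exact h) ?_ (by rwa [one_mul])
    (mul_ne_zero (pow_ne_zero _ (by norm_num)) hy) one_dvd_level ?_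
  · rw [one_mul]
    exact hxy.of_mul_right_left.mul_right
      ((hxy.of_mul_right_right.of_mul_right_left.pow_right).mul_right
        hxy.of_mul_right_right.of_mul_right_right)
  · intro q hq h1
    have h4 := (Nat.prime_iff_prime_int.mp hq).dvd_of_dvd_pow h1
    exact_mod_cast h4

/-- **`xᵖ + 64 · 37ᵐ yᵖ = z²`** has no solution with `x` prime to `2 · 37 y`, `x y ≠ 0`: every prime `p ≥ 11`,
`p ≠ 13`, all `m`. -/
theorem pow_add_thirtyseven_ne_sq (hp : p.Prime) (hp11 : 11 ≤ p) (hp13 : p ≠ 13) {x y : ℤ}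
    (hx : x ≠ 0) (hy : y ≠ 0) {m : ℕ} (hxy : IsCoprime x (2 * (37 * y))) (z : ℤ) :
    x ^ p + 64 * (37 ^ m * y ^ p) ≠ z ^ 2 := by
  intro h
  refine sixtyfour_of_free hp (freeTwo_thirtyseven hp hp11 hp13) (A := 1) (B := 37 ^ m) (x := x)
    (y := y) (z := z) (by rw [one_mul]; exact h) ?_ (by rwa [one_mul])
    (mul_ne_zero (pow_ne_zero _ (by norm_num)) hy) one_dvd_level ?_
  · rw [one_mul]
    exact hxy.of_mul_right_left.mul_right
      ((hxy.of_mul_right_right.of_mul_right_left.pow_right).mul_right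
        hxy.of_mul_right_right.of_mul_right_right)
  · intro q hq h1
    have h4 := (Nat.prime_iff_prime_int.mp hq).dvd_of_dvd_pow h1
    exact_mod_cast h4

end Fermat.Agent.Cor.MO
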