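import Fermat.Agent.Corollaries.MO.LevelCoeff
import Fermat.Agent.Corollaries.MO.CoeffTwo

/-!
# The equations `A xᵖ + B yᵖ = z³` at the levels `15`, `21`, `33`

The curve `W : Y² + c XY + t Y = X³` has a rational point of order three, so `a₂(W) = 0` if `W` has good reduction at
`2`. The eigenforms of level `15`, `21` have second coefficient `-1`, those of level `33` have `-2` or `1`, and none of
these is congruent to `0` or `± 3` modulo `p` (`p ≥ 5` resp. `p ≥ 7`). Hence the level of `W[p]` does not divide `15`,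
`21` (`freeThree_fifteen`, `freeThree_twentyone`) resp. `33` (`freeThree_thirtythree`), and

* `pow_add_mul_pow_ne_cube_of_free`: `xᵖ + 3ᵏ Lᵐ yᵖ = z³` has no solution with `x` prime to `3 L y`, `x y ≠ 0`, and
  `k ≥ 3` or `3 ∣ y`, for `L = 5, 7` and every prime `p ≥ 5`, `p ≠ 13`, and for `L = 11`, `p ≥ 7`, `p ≠ 13`;
* `pow_add_pow_mul_pow_ne_cube`: the same for `xᵖ + Lᵐ yᵖ = z³`, `x` prime to `L y`, `x y ≠ 0` divisible by `3`.

(`PP/Three.lean` has levels of genus zero only: there is no cusp form.)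
-/

set_option autoImplicit false

noncomputable section

open CuspForm ModularFormClass CongruenceSubgroup WeierstrassCurve

namespace Fermat.Agent.Cor.MO

/-- No semistable curve of the family `curveThree` has level dividing `N` at `p`. -/
def FreeThree (p N : ℕ) : Prop :=
  ∀ c t : ℤ, (curveThree c t).Δ ≠ 0 → (curveThree c t).IsSemistableModel →
    ¬ serreLevel (curveThree c t) p ∣ N

variable {p : ℕ}

theorem serreLevel_ne_three (hp : p.Prime) (hp5 : 5 ≤ p) (hp13 : p ≠ 13) {c t : ℤ}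
    (hΔ : (curveThree c t).Δ ≠ 0) (hss : (curveThree c t).IsSemistableModel) {M : ℕ}
    (hM0 : M ≠ 0) (h2M : ¬ 2 ∣ M)
    (hex : ∀ f : CuspForm (Gamma0 M) 2, f.IsNormalizedEigenform →
      ∃ v : ℤ, qCoeff f 2 = (v : ℂ) ∧ ¬ (p : ℤ) ∣ v * (v - 3) * (v + 3)) :
    serreLevel (curveThree c t) p ≠ M := by
  refine serreLevel_ne hΔ hss hp (by omega) (irredThree_all hp hp5 hp13 c t hΔ hss)
    Nat.prime_two (by omega) hM0 h2M fun f hf => ?_
  obtain ⟨v, hv, h⟩ := hex f hf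
  refine ⟨v, hv, fun hg => ?_, fun h1 => h ?_, fun h1 => h ?_⟩
  · rw [curveThree_ap_two_eq hg, sub_zero]
    exact fun h1 => h ((h1.mul_right _).mul_right _)
  · have h2 : v - (((2 : ℕ) : ℤ) + 1) = v - 3 := by push_cast; ring
    rw [h2] at h1
    exact (h1.mul_left _).mul_right _
  · have h2 : v + (((2 : ℕ) : ℤ) + 1) = v + 3 := by push_cast; ring
    rw [h2] at h1
    exact h1.mul_left _

theorem not_dvd_eight (hp : p.Prime) (hp3 : 3 ≤ p) {n : ℤ} (hn : n.natAbs = 8) :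
    ¬ (p : ℤ) ∣ n := by
  intro h
  have h1 : p ∣ n.natAbs := Int.natCast_dvd.mp h
  rw [hn, show 8 = 2 ^ 3 by norm_num] at h1
  have h2 := Nat.le_of_dvd (by norm_num) (hp.dvd_of_dvd_pow h1)
  omega

theorem not_dvd_ten (hp : p.Prime) (hp7 : 7 ≤ p) {n : ℤ} (hn : n.natAbs = 10) :
    ¬ (p : ℤ) ∣ n := by
  intro h
  have h1 : p ∣ n.natAbs := Int.natCast_dvd.mp h
  rw [hn] at h1
  have h2 := Nat.le_of_dvd (by norm_num) h1
  interval_cases p <;> first | omega | exact absurd hp (by norm_num)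

theorem not_fifteen (hp : p.Prime) (hp5 : 5 ≤ p) (hp13 : p ≠ 13) {c t : ℤ}
    (hΔ : (curveThree c t).Δ ≠ 0) (hss : (curveThree c t).IsSemistableModel) :
    serreLevel (curveThree c t) p ≠ 15 :=
  serreLevel_ne_three hp hp5 hp13 hΔ hss (by norm_num) (by norm_num) fun f hf =>
    ⟨-1, by rw [coeff_two_15 hf]; norm_num, not_dvd_eight hp (by omega) (by norm_num)⟩

theorem not_twentyone (hp : p.Prime) (hp5 : 5 ≤ p) (hp13 : p ≠ 13) {c t : ℤ}
    (hΔ : (curveThree c t).Δ ≠ 0) (hss : (curveThree c t).IsSemistableModel) :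
    serreLevel (curveThree c t) p ≠ 21 :=
  serreLevel_ne_three hp hp5 hp13 hΔ hss (by norm_num) (by norm_num) fun f hf =>
    ⟨-1, by rw [coeff_two_21 hf]; norm_num, not_dvd_eight hp (by omega) (by norm_num)⟩

theorem not_seventeen (hp : p.Prime) (hp5 : 5 ≤ p) (hp13 : p ≠ 13) {c t : ℤ}
    (hΔ : (curveThree c t).Δ ≠ 0) (hss : (curveThree c t).IsSemistableModel) :
    serreLevel (curveThree c t) p ≠ 17 :=
  serreLevel_ne_three hp hp5 hp13 hΔ hss (by norm_num) (by norm_num) fun f hf =>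
    ⟨-1, by rw [coeff_two_17 hf]; norm_num, not_dvd_eight hp (by omega) (by norm_num)⟩

theorem not_eleven (hp : p.Prime) (hp7 : 7 ≤ p) (hp13 : p ≠ 13) {c t : ℤ}
    (hΔ : (curveThree c t).Δ ≠ 0) (hss : (curveThree c t).IsSemistableModel) :
    serreLevel (curveThree c t) p ≠ 11 :=
  serreLevel_ne_three hp (by omega) hp13 hΔ hss (by norm_num) (by norm_num) fun f hf =>
    ⟨-2, by rw [coeff_two_11 hf]; norm_num, not_dvd_ten hp hp7 (by norm_num)⟩

theorem not_thirtythree (hp : p.Prime) (hp7 : 7 ≤ p) (hp13 : p ≠ 13) {c t : ℤ}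
    (hΔ : (curveThree c t).Δ ≠ 0) (hss : (curveThree c t).IsSemistableModel) :
    serreLevel (curveThree c t) p ≠ 33 :=
  serreLevel_ne_three hp (by omega) hp13 hΔ hss (by norm_num) (by norm_num) fun f hf => by
    rcases coeff_two_33 hf with h | h
    · exact ⟨-2, by rw [h]; norm_num, not_dvd_ten hp hp7 (by norm_num)⟩
    · exact ⟨1, by rw [h]; norm_num, not_dvd_eight hp (by omega) (by norm_num)⟩

/-- The divisors of `N` are levels of genus zero or excluded. -/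
theorem freeThree_of (hp : p.Prime) (hp5 : 5 ≤ p) (hp13 : p ≠ 13) {N : ℕ} (hN : N ≠ 0)
    (h : ∀ c t : ℤ, (curveThree c t).Δ ≠ 0 → (curveThree c t).IsSemistableModel →
      ∀ M ∈ Nat.divisors N, M ∉ zeroLevels → serreLevel (curveThree c t) p ≠ M) :
    FreeThree p N := by
  intro c t hΔ hss hd
  have h1 := serreLevel_notMem hΔ hss hp (by omega) (irredThree_all hp hp5 hp13 c t hΔ hss)
  exact h c t hΔ hss _ (Nat.mem_divisors.mpr ⟨hd, hN⟩) h1 rfl

/-- **Level `15`.** -/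
theorem freeThree_fifteen (hp : p.Prime) (hp5 : 5 ≤ p) (hp13 : p ≠ 13) : FreeThree p 15 := by
  refine freeThree_of hp hp5 hp13 (by norm_num) fun c t hΔ hss M hM hM0 => ?_
  have h1 : M = 15 := by
    have h2 : ∀ M ∈ Nat.divisors 15, M ∉ zeroLevels → M = 15 := by decide +kernel
    exact h2 M hM hM0
  rw [h1]
  exact not_fifteen hp hp5 hp13 hΔ hss

/-- **Level `21`.** -/
theorem freeThree_twentyone (hp : p.Prime) (hp5 : 5 ≤ p) (hp13 : p ≠ 13) : FreeThree p 21 := by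
  refine freeThree_of hp hp5 hp13 (by norm_num) fun c t hΔ hss M hM hM0 => ?_
  have h1 : M = 21 := by
    have h2 : ∀ M ∈ Nat.divisors 21, M ∉ zeroLevels → M = 21 := by decide +kernel
    exact h2 M hM hM0
  rw [h1]
  exact not_twentyone hp hp5 hp13 hΔ hss

/-- **Level `33`.** -/
theorem freeThree_thirtythree (hp : p.Prime) (hp7 : 7 ≤ p) (hp13 : p ≠ 13) : FreeThree p 33 := by
  refine freeThree_of hp (by omega) hp13 (by norm_num) fun c t hΔ hss M hM hM0 => ?_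
  have h1 : M = 11 ∨ M = 33 := by
    have h2 : ∀ M ∈ Nat.divisors 33, M ∉ zeroLevels → M = 11 ∨ M = 33 := by decide +kernel
    exact h2 M hM hM0
  rcases h1 with h1 | h1 <;> rw [h1]
  · exact not_eleven hp hp7 hp13 hΔ hss
  · exact not_thirtythree hp hp7 hp13 hΔ hss

/-- **The key statement**: `a + 27 t = c³`, `a` prime to `27 t`, both not zero: there is a prime `q ∤ N` with
`p ∤ v_q(t³ a)`. -/
theorem exists_prime_of_freeThree {N : ℕ} (hN : FreeThree p N) {a t c : ℤ}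
    (h : a + 27 * t = c ^ 3) (ha : a ≠ 0) (ht : t ≠ 0) (hat : IsCoprime a (27 * t)) :
    ∃ q : ℕ, q.Prime ∧ ¬ q ∣ N ∧ ¬ p ∣ padicValInt q (t ^ 3 * a) := by
  have ha' : a = c ^ 3 - 27 * t := by rw [← h]; ring
  have hΔ : (curveThree c t).Δ = t ^ 3 * a := by rw [curveThree_Δ, ← ha']
  have hΔ0 : (curveThree c t).Δ ≠ 0 := by
    rw [hΔ]; exact mul_ne_zero (pow_ne_zero _ ht) ha
  have hss : (curveThree c t).IsSemistableModel := curveThree_semistable (by rwa [← ha'])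
  by_contra hcon
  push Not at hcon
  refine hN c t hΔ0 hss (serreLevel_dvd_of_forall hΔ0 fun q hq hqN => ?_)
  rw [hΔ]
  exact hcon q hq hqN

/-- **The equation `A xᵖ + B yᵖ = z³`**, `A x`, `B y` coprime and `≠ 0`, `27 ∣ B yᵖ`, the primes of `A B` dividing
`N`, `3 ∣ N`, `N` free: no solution. -/
theorem three_coeff_of_free (hp : p.Prime) {N : ℕ} (h3N : 3 ∣ N) (hN : FreeThree p N)
    {A B x y z : ℤ} (h : A * x ^ p + B * y ^ p = z ^ 3) (hcop : IsCoprime (A * x) (B * y))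
    (h27 : (27 : ℤ) ∣ B * y ^ p) (hx : A * x ≠ 0) (hy : B * y ≠ 0)
    (hA : ∀ q : ℕ, q.Prime → (q : ℤ) ∣ A → q ∣ N) (hB : ∀ q : ℕ, q.Prime → (q : ℤ) ∣ B → q ∣ N) :
    False := by
  obtain ⟨t, ht⟩ := h27
  have hA0 := left_ne_zero_of_mul hx
  have hx0 := right_ne_zero_of_mul hx
  have hB0 := left_ne_zero_of_mul hy
  have hy0 := right_ne_zero_of_mul hy
  have hcop' : IsCoprime (A * x ^ p) (B * y ^ p) := by
    have h1 : IsCoprime ((A * x) ^ p) ((B * y) ^ p) := hcop.pow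
    refine (h1.of_isCoprime_of_dvd_left ?_).of_isCoprime_of_dvd_right ?_
    · rw [mul_pow]; exact mul_dvd_mul_right (dvd_pow_self A hp.ne_zero) _
    · rw [mul_pow]; exact mul_dvd_mul_right (dvd_pow_self B hp.ne_zero) _
  have hb0 : B * y ^ p ≠ 0 := mul_ne_zero hB0 (pow_ne_zero _ hy0)
  have ha0 : A * x ^ p ≠ 0 := mul_ne_zero hA0 (pow_ne_zero _ hx0)
  have ht0 : t ≠ 0 := by
    rintro rfl
    exact hb0 (by rw [ht, mul_zero])
  obtain ⟨q, hq, hqN, hv⟩ := exists_prime_of_freeThree hN (a := A * x ^ p) (t := t) (c := z)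
    (by rw [← ht]; exact h) ha0 ht0 (by rw [← ht]; exact hcop')
  apply hv
  have : Fact q.Prime := ⟨hq⟩
  have hq27 : ¬ (q : ℤ) ∣ 27 := by
    intro h1
    have h2 : (q : ℤ) ∣ 3 := (Nat.prime_iff_prime_int.mp hq).dvd_of_dvd_pow
      (by simpa using h1 : (q : ℤ) ∣ 3 ^ 3)
    have h3 : q ∣ 3 := by exact_mod_cast h2
    exact hqN (((Nat.prime_dvd_prime_iff_eq hq Nat.prime_three).mp h3) ▸ h3N)
  have key : ∀ C w : ℤ, C ≠ 0 → w ≠ 0 → (∀ q : ℕ, q.Prime → (q : ℤ) ∣ C → q ∣ N) →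
      p ∣ padicValInt q (C * w ^ p) := by
    intro C w hC hw hCN
    refine dvd_padicValInt_mul_pow_of_dvd hq hC hw ?_
    rw [padicValInt.eq_zero_of_not_dvd fun h => hqN (hCN q hq h)]
    exact dvd_zero p
  have ht' : p ∣ padicValInt q t := by
    have h1 := key B y hB0 hy0 hB
    rwa [ht, padicValInt.mul (by norm_num) ht0, padicValInt.eq_zero_of_not_dvd hq27,
      zero_add] at h1
  rw [padicValInt.mul (pow_ne_zero _ ht0) ha0, padicValInt_pow_eq]
  exact dvd_add (ht'.mul_left 3) (key A x hA0 hx0 hA)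

/-- The pairs `(p, L)`: `L = 5, 7`, `p ≥ 5`; `L = 11`, `p ≥ 7`; always `p ≠ 13`. -/
def GoodThree (p L : ℕ) : Prop :=
  p ≠ 13 ∧ (((L = 5 ∨ L = 7) ∧ 5 ≤ p) ∨ (L = 11 ∧ 7 ≤ p))

theorem GoodThree.free {L : ℕ} (hp : p.Prime) (h : GoodThree p L) : FreeThree p (3 * L) := by
  obtain ⟨h13, ⟨rfl | rfl, h5⟩ | ⟨rfl, h7⟩⟩ := h
  · exact freeThree_fifteen hp h5 h13
  · exact freeThree_twentyone hp h5 h13
  · exact freeThree_thirtythree hp h7 h13

theorem GoodThree.prime {L : ℕ} (h : GoodThree p L) : L.Prime := by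
  obtain ⟨-, ⟨rfl | rfl, -⟩ | ⟨rfl, -⟩⟩ := h <;> norm_num

/-- **`xᵖ + 3ᵏ Lᵐ yᵖ = z³`** has no solution with `x` prime to `3 L y`, `x y ≠ 0`, and `k ≥ 3` or `3 ∣ y`:
`L = 5, 7`, every prime `p ≥ 5`, `p ≠ 13`; `L = 11`, every prime `p ≥ 7`, `p ≠ 13`; all `m`. -/
theorem pow_add_mul_pow_ne_cube_of_free (hp : p.Prime) {L : ℕ} (hL : GoodThree p L) {x y : ℤ}
    (hx : x ≠ 0) (hy : y ≠ 0) {k m : ℕ} (hxy : IsCoprime x (3 * L * y))
    (hk : 3 ≤ k ∨ (3 : ℤ) ∣ y) (z : ℤ) : x ^ p + 3 ^ k * (L : ℤ) ^ m * y ^ p ≠ z ^ 3 := by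
  intro h
  have hp3 : 3 ≤ p := by
    obtain ⟨-, ⟨-, h5⟩ | ⟨-, h7⟩⟩ := hL <;> omega
  have hL0 : (L : ℤ) ≠ 0 := by exact_mod_cast hL.prime.ne_zero
  have hc1 : IsCoprime x 3 := hxy.of_mul_right_left.of_mul_right_left
  have hc2 : IsCoprime x L := hxy.of_mul_right_left.of_mul_right_right
  have hc3 : IsCoprime x y := hxy.of_mul_right_right
  refine three_coeff_of_free hp (dvd_mul_right 3 L) (hL.free hp) (A := 1) (B := 3 ^ k * (L : ℤ) ^ m)
    (x := x) (y := y) (z := z) (by rw [one_mul]; exact h) ?_ ?_ (by rwa [one_mul])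
    (mul_ne_zero (mul_ne_zero (pow_ne_zero _ three_ne_zero) (pow_ne_zero _ hL0)) hy) ?_ ?_
  · rw [one_mul]
    exact ((hc1.pow_right).mul_right hc2.pow_right).mul_right hc3
  · rcases hk with hk | hk
    · exact Dvd.dvd.mul_right (Dvd.dvd.mul_right (by simpa using pow_dvd_pow (3 : ℤ) hk) _) _
    · exact (twentyseven_dvd hp3 hk).mul_left _
  · intro q hq h1
    have h3 : q ∣ 1 := by exact_mod_cast h1
    exact absurd (Nat.dvd_one.mp h3) hq.ne_one
  · intro q hq h1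
    have hq' := Nat.prime_iff_prime_int.mp hq
    rcases hq'.dvd_or_dvd h1 with h3 | h3
    · have h4 := hq'.dvd_of_dvd_pow h3
      have h5 : q ∣ 3 := by exact_mod_cast h4
      exact h5.mul_right L
    · have h4 := hq'.dvd_of_dvd_pow h3
      have h5 : q ∣ L := by exact_mod_cast h4
      exact h5.mul_left 3

/-- **`xᵖ + Lᵐ yᵖ = z³`** has no solution with `x` prime to `L y`, `x y ≠ 0` divisible by `3`: `L = 5, 7`, every prime
`p ≥ 5`, `p ≠ 13`; `L = 11`, every prime `p ≥ 7`, `p ≠ 13`; all `m`. -/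
theorem pow_add_pow_mul_pow_ne_cube (hp : p.Prime) {L : ℕ} (hL : GoodThree p L) {x y : ℤ}
    (hx : x ≠ 0) (hy : y ≠ 0) {m : ℕ} (hxy : IsCoprime x (L * y)) (hthree : (3 : ℤ) ∣ x * y)
    (z : ℤ) : x ^ p + (L : ℤ) ^ m * y ^ p ≠ z ^ 3 := by
  intro h
  have hp3 : 3 ≤ p := by
    obtain ⟨-, ⟨-, h5⟩ | ⟨-, h7⟩⟩ := hL <;> omega
  have hL0 : (L : ℤ) ^ m ≠ 0 := pow_ne_zero _ (by exact_mod_cast hL.prime.ne_zero)
  have hc : IsCoprime x ((L : ℤ) ^ m * y) :=
    (hxy.of_mul_right_left.pow_right).mul_right hxy.of_mul_right_right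
  have hone : ∀ q : ℕ, q.Prime → (q : ℤ) ∣ 1 → q ∣ 3 * L := by
    intro q hq h1
    have h3 : q ∣ 1 := by exact_mod_cast h1
    exact absurd (Nat.dvd_one.mp h3) hq.ne_one
  have hLL : ∀ q : ℕ, q.Prime → (q : ℤ) ∣ (L : ℤ) ^ m → q ∣ 3 * L := by
    intro q hq h1
    have h4 := (Nat.prime_iff_prime_int.mp hq).dvd_of_dvd_pow h1
    have h5 : q ∣ L := by exact_mod_cast h4
    exact h5.mul_left 3
  rcases Int.prime_three.dvd_or_dvd hthree with h3 | h3
  · exact three_coeff_of_free hp (dvd_mul_right 3 L) (hL.free hp) (A := (L : ℤ) ^ m) (B := 1)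
      (x := y) (y := x) (z := z) (by rw [one_mul, add_comm]; exact h)
      (by rw [one_mul]; exact hc.symm) (by rw [one_mul]; exact twentyseven_dvd hp3 h3)
      (mul_ne_zero hL0 hy) (by rwa [one_mul]) hLL hone
  · exact three_coeff_of_free hp (dvd_mul_right 3 L) (hL.free hp) (A := 1) (B := (L : ℤ) ^ m)
      (x := x) (y := y) (z := z) (by rw [one_mul]; exact h) (by rw [one_mul]; exact hc)
      ((twentyseven_dvd hp3 h3).mul_left _) (by rwa [one_mul]) (mul_ne_zero hL0 hy) hone hLL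

end Fermat.Agent.Cor.MO

end
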