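import Fermat.Agent.Corollaries.Surj.SerreCond
import Fermat.Agent.Corollaries.MO.Index

/-!
# Curves of prime conductor: the levels `N` with surjective representation on `W[N]`

`W` a semistable elliptic curve over `ℚ` (Weierstrass equation over `ℤ`) of prime conductor `q`,
`q` different from `11`, `17`, `19`, `37` and `a² + 64`, so that `Δ = ± q`. Then `Gal(ℚ̄/ℚ)` acts on
`W[N]` through all automorphisms

* if and only if `2 q ∤ N`, in case `Δ ≡ 1 mod 4` (`surjMod_iff_one`);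
* if and only if `4 q ∤ N`, in case `Δ ≡ 3 mod 4` (`surjMod_iff_three`).
-/

set_option autoImplicit false

noncomputable section

open WeierstrassCurve WeierstrassCurve.Affine WeierstrassCurve.Affine.Point Module
open Fermat.Agent.ECRed Fermat.Agent.Tate Fermat.Agent.S30aux
open scoped WeierstrassCurve.Affine

namespace Fermat.Agent.Cor.MO

local notation "Qbar" => AlgebraicClosure ℚ
local notation "Γℚ" => (AlgebraicClosure ℚ ≃ₐ[ℚ] AlgebraicClosure ℚ)

variable {W : WeierstrassCurve ℤ}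

/-! ### Discriminants congruent to `3` modulo `4` -/

/-- There is `σ` which fixes the roots of unity of order `2 m`, `m` odd, and changes the sign of
the square root of `-1`. -/
theorem exists_fixMu_neg {m : ℕ} (hm : Odd m) {i : Qbar} (hi : i ^ 2 = -1) :
    ∃ σ : Γℚ, FixMu (2 * m) σ ∧ σ i = -i := by
  have hm0 : m ≠ 0 := hm.pos.ne'
  have hco : Nat.Coprime m 4 := by
    have h : Nat.Coprime m (2 ^ 2) := (Nat.coprime_two_right.mpr hm).pow_right 2
    exact h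
  obtain ⟨k, hk1, hk2⟩ := Nat.chineseRemainder hco 1 3
  have hkm : Nat.Coprime k m := by
    rw [Nat.Coprime, Nat.ModEq.gcd_eq hk1, Nat.gcd_one_left]
  have hk4 : Nat.Coprime k 4 := by
    rw [Nat.Coprime, Nat.ModEq.gcd_eq hk2]
    decide
  obtain ⟨σ, hσ⟩ := exists_conj_pow (N := m * 4) (by positivity) (hkm.mul_right hk4)
  have hfix : FixMu m σ := by
    intro ζ hζ
    rw [hσ ζ (by rw [pow_mul, hζ, one_pow]), pow_eq_pow_mod k hζ, hk1, ← pow_eq_pow_mod 1 hζ,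
      pow_one]
  refine ⟨σ, fun ζ hζ => ?_, ?_⟩
  · have h1 : (ζ ^ m) ^ 2 = 1 := by rw [← pow_mul, mul_comm m 2, hζ]
    have h2' : ζ ^ m = 1 ∨ ζ ^ m = -1 := by
      have h3 : (ζ ^ m - 1) * (ζ ^ m + 1) = 0 := by linear_combination h1
      rcases mul_eq_zero.mp h3 with h4 | h4
      · exact Or.inl (sub_eq_zero.mp h4)
      · exact Or.inr (eq_neg_of_add_eq_zero_left h4)
    rcases h2' with h2 | h2
    · exact hfix ζ h2
    · have h3 := hfix (-ζ) (by rw [hm.neg_pow, h2, neg_neg])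
      rw [map_neg] at h3
      exact neg_injective h3
  · have hi4 : i ^ 4 = 1 := by
      have h1 : i ^ 4 = (i ^ 2) ^ 2 := by ring
      rw [h1, hi]
      ring
    rw [hσ i (by rw [mul_comm, pow_mul, hi4, one_pow]), pow_eq_pow_mod k hi4, hk2]
    have h1 : i ^ (3 % 4) = i ^ 2 * i := by norm_num; ring
    rw [h1, hi]
    ring

/-- **The levels with surjective representation**, `W` a Serre curve (`SerreHyp`) with
`Δ ≡ 3 mod 4`: `N` odd, or `4 ∤ N`, or some prime with odd exponent in `Δ` does not divide `N`. -/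
theorem surjMod_iff_of_mod_three (H : SerreHyp W) (h4 : W.Δ % 4 = 3) {N : ℕ} (hN : N ≠ 0) :
    SurjMod W N ↔ ¬ 4 ∣ N ∨ ∃ ℓ : ℕ, ℓ.Prime ∧ ¬ 2 ∣ padicValInt ℓ W.Δ ∧ ¬ ℓ ∣ N := by
  obtain ⟨i, hi⟩ : ∃ i : Qbar, i ^ 2 = -1 := IsAlgClosed.exists_pow_nat_eq (-1) (by norm_num)
  obtain ⟨x, hx, hfix⟩ := exists_sqrt_fixMu (d := -W.Δ) (by omega)
  have hi4 : i ^ 4 = 1 := by
    have h1 : i ^ 4 = (i ^ 2) ^ 2 := by ring
    rw [h1, hi]
    ring
  have hval : ∀ p : ℕ, padicValInt p (-W.Δ) = padicValInt p W.Δ := by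
    intro p
    rw [padicValInt, padicValInt, Int.natAbs_neg]
  have hδ : (i * x) ^ 2 = ((W.Δ : ℤ) : Qbar) := by
    rw [mul_pow, hi, hx]
    push_cast
    ring
  have hdvd : ∀ ℓ : ℕ, ¬ 2 ∣ padicValInt ℓ W.Δ → (ℓ : ℤ) ∣ W.Δ := by
    intro ℓ hv
    by_contra h
    exact hv (by rw [padicValInt.eq_zero_of_not_dvd h]; exact dvd_zero _)
  have hne2 : ∀ ℓ : ℕ, ¬ 2 ∣ padicValInt ℓ W.Δ → ℓ ≠ 2 := by
    rintro ℓ hv rfl
    have h1 : (2 : ℤ) ∣ W.Δ := by exact_mod_cast hdvd 2 hv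
    omega
  rw [H.surjMod_iff hδ hN]
  have hex : (∃ ℓ : ℕ, ℓ.Prime ∧ ¬ 2 ∣ padicValInt ℓ W.Δ ∧ ¬ ℓ ∣ N) →
      ∃ σ : Γℚ, FixMu N σ ∧ σ (i * x) ≠ i * x := by
    rintro ⟨ℓ, hℓ, hv, hℓN⟩
    exact exists_fixMu_of_isMultAt (isMultAt_of_semistable H.ss H.ne hℓ (hdvd ℓ hv)) hv
      (hne2 ℓ hv) hN hℓN hδ
  constructor
  · rintro (h | ⟨σ, hσ, hσδ⟩)
    · left
      intro h1
      exact (Nat.not_even_iff_odd.mpr h) (even_iff_two_dvd.mpr ((by norm_num : 2 ∣ 4).trans h1))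
    · by_contra hcon
      push Not at hcon
      obtain ⟨h4N, hall⟩ := hcon
      apply hσδ
      rw [map_mul, (hσ.of_dvd h4N) i hi4,
        hfix σ fun p hp hv => hσ.of_dvd (hall p hp (by rwa [hval] at hv))]
  · rintro (h | h)
    · by_cases hex' : ∃ ℓ : ℕ, ℓ.Prime ∧ ¬ 2 ∣ padicValInt ℓ W.Δ ∧ ¬ ℓ ∣ N
      · exact Or.inr (hex hex')
      push Not at hex'
      rcases Nat.even_or_odd N with ⟨m, hm⟩ | ho
      · right
        have hm2 : N = 2 * m := by omega
        have hmo : Odd m := by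
          rw [← Nat.not_even_iff_odd]
          rintro ⟨j, hj⟩
          exact h ⟨j, by omega⟩
        obtain ⟨σ, hσ, hσi⟩ := exists_fixMu_neg hmo hi
        refine ⟨σ, by rwa [hm2], ?_⟩
        have hσx : σ x = x := hfix σ fun p hp hv => by
          rw [hval] at hv
          have h1 := hex' p hp hv
          rw [hm2] at h1
          exact hσ.of_dvd h1
        rw [map_mul, hσi, hσx, neg_mul]
        have h0 : i * x ≠ 0 := by
          intro h0
          rw [h0] at hδ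
          have h1 : ((W.Δ : ℤ) : Qbar) ≠ 0 := by exact_mod_cast H.ne
          apply h1
          rw [← hδ]
          ring
        exact fun h1 => h0 (self_eq_neg.mp h1.symm)
      · exact Or.inl ho
    · exact Or.inr (hex h)

/-! ### Prime conductor -/

/-- The only prime with odd exponent in the discriminant is `q`. -/
theorem exists_odd_val_iff (hΔ : W.Δ ≠ 0) (hW : W.IsSemistableModel) {q : ℕ} (hq : q.Prime)
    (hN : W.conductorLevel = q) (hgen : IsGeneric q) (N : ℕ) :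
    (∃ ℓ : ℕ, ℓ.Prime ∧ ¬ 2 ∣ padicValInt ℓ W.Δ ∧ ¬ ℓ ∣ N) ↔ ¬ q ∣ N := by
  constructor
  · rintro ⟨ℓ, hℓ, hv, h⟩
    have hd : (ℓ : ℤ) ∣ W.Δ := by
      by_contra h
      exact hv (by rw [padicValInt.eq_zero_of_not_dvd h]; exact dvd_zero _)
    rwa [eq_of_conductorLevel hΔ hq hN ℓ hℓ hd] at h
  · intro h
    exact ⟨q, hq, by rw [padicValInt_eq_one hΔ hW hq hN hgen]; decide, h⟩

theorem q_odd (hΔ : W.Δ ≠ 0) (hW : W.IsSemistableModel) {q : ℕ} (hq : q.Prime)
    (hN : W.conductorLevel = q) : q ≠ 2 := by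
  rintro rfl
  rcases eleven_or_le_of_unique hΔ hW hq (eq_of_conductorLevel hΔ hq hN) with h | h <;> omega

/-- **`Δ ≡ 1 mod 4`**: `Gal(ℚ̄/ℚ)` acts on `W[N]` through all automorphisms if and only if
`2 q ∤ N`. -/
theorem surjMod_iff_one (hΔ : W.Δ ≠ 0) (hW : W.IsSemistableModel) {q : ℕ} (hq : q.Prime)
    (hN : W.conductorLevel = q) (hgen : IsGeneric q) (h4 : W.Δ % 4 = 1) {N : ℕ} (hN0 : N ≠ 0) :
    SurjMod W N ↔ ¬ 2 * q ∣ N := by
  rw [(serreHyp hΔ hW hq hN hgen).surjMod_iff_of_mod_four h4 hN0,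
    exists_odd_val_iff hΔ hW hq hN hgen]
  have hcop : Nat.Coprime 2 q :=
    (Nat.coprime_primes Nat.prime_two hq).mpr (Ne.symm (q_odd hΔ hW hq hN))
  rw [← Nat.not_even_iff_odd, even_iff_two_dvd]
  constructor
  · rintro (h | h) h2
    · exact h ((dvd_mul_right 2 q).trans h2)
    · exact h ((dvd_mul_left q 2).trans h2)
  · intro h
    by_contra hcon
    push Not at hcon
    exact h (hcop.mul_dvd_of_dvd_of_dvd hcon.1 hcon.2)

/-- **`Δ ≡ 3 mod 4`**: `Gal(ℚ̄/ℚ)` acts on `W[N]` through all automorphisms if and only if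
`4 q ∤ N`. -/
theorem surjMod_iff_three (hΔ : W.Δ ≠ 0) (hW : W.IsSemistableModel) {q : ℕ} (hq : q.Prime)
    (hN : W.conductorLevel = q) (hgen : IsGeneric q) (h4 : W.Δ % 4 = 3) {N : ℕ} (hN0 : N ≠ 0) :
    SurjMod W N ↔ ¬ 4 * q ∣ N := by
  rw [surjMod_iff_of_mod_three (serreHyp hΔ hW hq hN hgen) h4 hN0,
    exists_odd_val_iff hΔ hW hq hN hgen]
  have hcop : Nat.Coprime 4 q := by
    have h : Nat.Coprime (2 ^ 2) q :=
      ((Nat.coprime_primes Nat.prime_two hq).mpr (Ne.symm (q_odd hΔ hW hq hN))).pow_left 2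
    exact h
  constructor
  · rintro (h | h) h2
    · exact h ((dvd_mul_right 4 q).trans h2)
    · exact h ((dvd_mul_left q 4).trans h2)
  · intro h
    by_contra hcon
    push Not at hcon
    exact h (hcop.mul_dvd_of_dvd_of_dvd hcon.1 hcon.2)

end Fermat.Agent.Cor.MO

end
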