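import Fermat.Agent.Corollaries.MO.Cubic
import Fermat.Prelude.Def_FLTPrelim_Modularity

/-!
# Semistable curves whose discriminant is a square up to sign

If `W` is a semistable integral Weierstrass equation and `|Δ|` is a square, then `W` has a rational point of
order two: otherwise the cubic field of a point of order two would be unramified outside `2`, and the
discriminant of its ring of integers would be at most `4`.  Here this is done with binary cubic forms
`(a, b, c, d)`: a double root modulo `q` is moved to `0`, and `(a, b, q c, q² d)` is replaced by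
`(a q, b, c, d)`; the quantity `b² - 3 a c` (`c₄` for the form `(4, b₂, 2 b₄, b₆)`) does not change.
-/

set_option autoImplicit false

namespace Fermat.Agent.Cor.MO

open WeierstrassCurve

/-- The discriminant of `a x³ + b x² + c x + d`. -/
def disc3 {R : Type*} [CommRing R] (a b c d : R) : R :=
  b ^ 2 * c ^ 2 - 4 * a * c ^ 3 - 4 * b ^ 3 * d - 27 * a ^ 2 * d ^ 2 + 18 * a * b * c * d

theorem disc3_translate (a b c d r : ℤ) :
    disc3 a (b + 3 * a * r) (c + 2 * b * r + 3 * a * r ^ 2) (d + c * r + b * r ^ 2 + a * r ^ 3) =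
      disc3 a b c d := by
  simp only [disc3]; ring

theorem two_aux : ∀ a b c d : ZMod 2, b ^ 2 - 3 * a * c ≠ 0 → disc3 a b c d = 0 →
    ∃ r : ZMod 2, c + 2 * b * r + 3 * a * r ^ 2 = 0 ∧ d + c * r + b * r ^ 2 + a * r ^ 3 = 0 := by
  unfold disc3
  decide

/-- The double root of a cubic over a field of characteristic different from `2`. -/
theorem field_aux {k : Type*} [Field k] (h2 : (2 : k) ≠ 0) {a b c d : k}
    (hH : b ^ 2 - 3 * a * c ≠ 0) (hD : disc3 a b c d = 0) :
    ∃ r : k, c + 2 * b * r + 3 * a * r ^ 2 = 0 ∧ d + c * r + b * r ^ 2 + a * r ^ 3 = 0 := by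
  simp only [disc3] at hD
  obtain ⟨h, hh⟩ : ∃ h, h = b ^ 2 - 3 * a * c := ⟨_, rfl⟩
  obtain ⟨N, hN⟩ : ∃ N, N = 9 * a * d - b * c := ⟨_, rfl⟩
  rw [← hh] at hH
  have h2H : 2 * h ≠ 0 := mul_ne_zero h2 hH
  obtain ⟨r, hr⟩ : ∃ r, 2 * h * r = N := ⟨N / (2 * h), by field_simp⟩
  refine ⟨r, ?_, ?_⟩
  · refine mul_left_cancel₀ (pow_ne_zero 2 h2H) ?_
    have h1 : 3 * a * N ^ 2 + 4 * b * N * h + 4 * c * h ^ 2 = 0 := by
      rw [hN, hh]
      linear_combination (-9 * a) * hD
    linear_combination (4 * h * b + 3 * a * (2 * h * r + N)) * hr + h1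
  · refine mul_left_cancel₀ (pow_ne_zero 3 h2H) ?_
    have h1 : a * N ^ 3 + 2 * b * N ^ 2 * h + 4 * c * N * h ^ 2 + 8 * d * h ^ 3 = 0 := by
      rw [hN, hh]
      linear_combination (-27 * a ^ 2 * d + 9 * a * b * c - 2 * b ^ 3) * hD
    linear_combination (4 * h ^ 2 * c + 2 * h * b * (2 * h * r + N) +
      a * ((2 * h * r) ^ 2 + (2 * h * r) * N + N ^ 2)) * hr + h1

/-- A double root modulo `q`. -/
theorem exists_double_root {q : ℕ} (hq : q.Prime) {a b c d : ℤ}
    (hH : ¬ (q : ℤ) ∣ b ^ 2 - 3 * a * c) (hD : (q : ℤ) ∣ disc3 a b c d) :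
    ∃ r : ℤ, (q : ℤ) ∣ c + 2 * b * r + 3 * a * r ^ 2 ∧
      (q : ℤ) ∣ d + c * r + b * r ^ 2 + a * r ^ 3 := by
  have : Fact q.Prime := ⟨hq⟩
  have hH' : (b : ZMod q) ^ 2 - 3 * a * c ≠ 0 := by
    intro h
    refine hH ((ZMod.intCast_zmod_eq_zero_iff_dvd _ q).mp ?_)
    push_cast
    exact h
  have hD' : disc3 (a : ZMod q) b c d = 0 := by
    have h := (ZMod.intCast_zmod_eq_zero_iff_dvd _ q).mpr hD
    simp only [disc3] at h ⊢
    push_cast at h
    exact h
  have key : ∃ r : ZMod q, (c : ZMod q) + 2 * b * r + 3 * a * r ^ 2 = 0 ∧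
      (d : ZMod q) + c * r + b * r ^ 2 + a * r ^ 3 = 0 := by
    by_cases h2 : q = 2
    · subst h2
      exact two_aux _ _ _ _ hH' hD'
    · refine field_aux ?_ hH' hD'
      intro h0
      have h1 : ((2 : ℕ) : ZMod q) = 0 := by exact_mod_cast h0
      rw [ZMod.natCast_eq_zero_iff] at h1
      exact h2 ((Nat.prime_dvd_prime_iff_eq hq Nat.prime_two).mp h1)
  obtain ⟨r, h1, h2⟩ := key
  refine ⟨(r.val : ℤ), ?_, ?_⟩
  · refine (ZMod.intCast_zmod_eq_zero_iff_dvd _ q).mp ?_
    push_cast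
    rw [ZMod.natCast_zmod_val]
    exact h1
  · refine (ZMod.intCast_zmod_eq_zero_iff_dvd _ q).mp ?_
    push_cast
    rw [ZMod.natCast_zmod_val]
    exact h2

theorem four_aux : ∀ a b c d : ZMod 4, b * b = 1 →
    b ^ 2 * c ^ 2 - 8 * a * c ^ 3 - 2 * b ^ 3 * d - 27 * a ^ 2 * d ^ 2 + 18 * a * b * c * d = 0 →
    2 * d = 0 := by
  decide

/-- The reduction step. -/
theorem exists_step {q : ℕ} (hq : q.Prime) {a b c d : ℤ} (hH : ¬ (q : ℤ) ∣ b ^ 2 - 3 * a * c)
    (hD : (q : ℤ) ^ 2 ∣ disc3 a b c d) (h2 : q = 2 → (16 : ℤ) ∣ disc3 a b c d) :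
    ∃ r c' d' : ℤ, c + 2 * b * r + 3 * a * r ^ 2 = q * c' ∧
      d + c * r + b * r ^ 2 + a * r ^ 3 = q ^ 2 * d' := by
  have hqI := Nat.prime_iff_prime_int.mp hq
  obtain ⟨r, ⟨c', hc⟩, ⟨e, he⟩⟩ := exists_double_root hq hH ((dvd_pow_self _ two_ne_zero).trans hD)
  obtain ⟨β, hβ⟩ : ∃ β, β = b + 3 * a * r := ⟨_, rfl⟩
  have hb : ¬ (q : ℤ) ∣ β := by
    intro h
    apply hH
    have h1 : b ^ 2 - 3 * a * c = β * β - q * (3 * a * c') := by
      rw [hβ]
      linear_combination (-3 * a) * hc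
    rw [h1]
    exact dvd_sub (h.mul_right _) (dvd_mul_right _ _)
  have htr : disc3 a b c d = disc3 a β (q * c') (q * e) := by
    rw [← disc3_translate a b c d r, hc, he, hβ]
  have hdvd : (q : ℤ) ∣ e := by
    by_cases hq2 : q = 2
    · subst hq2
      have h16 := h2 rfl
      rw [htr] at h16
      obtain ⟨t, ht⟩ := h16
      have h1 : β ^ 2 * c' ^ 2 - 8 * a * c' ^ 3 - 2 * β ^ 3 * e - 27 * a ^ 2 * e ^ 2 +
          18 * a * β * c' * e = 4 * t := by
        simp only [disc3] at ht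
        push_cast at ht
        have h3 : 4 * (β ^ 2 * c' ^ 2 - 8 * a * c' ^ 3 - 2 * β ^ 3 * e - 27 * a ^ 2 * e ^ 2 +
          18 * a * β * c' * e) = 4 * (4 * t) := by linear_combination ht
        exact mul_left_cancel₀ (by norm_num) h3
      have h3 := four_aux (a : ZMod 4) β c' e (by
        have h4 : (4 : ℤ) ∣ β * β - 1 := by
          have h5 : ¬ (2 : ℤ) ∣ β := by exact_mod_cast hb
          obtain ⟨n, hn⟩ : ∃ n, β = 2 * n + 1 := ⟨β / 2, by omega⟩
          exact ⟨n * n + n, by rw [hn]; ring⟩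
        have h5 := (ZMod.intCast_zmod_eq_zero_iff_dvd _ 4).mpr h4
        push_cast at h5
        linear_combination h5) (by
        have h4 := congrArg (Int.cast : ℤ → ZMod 4) h1
        push_cast at h4
        rw [h4]
        have h5 : (4 : ZMod 4) = 0 := by decide
        rw [h5, zero_mul])
      have h4 : (4 : ℤ) ∣ 2 * e := by
        refine (ZMod.intCast_zmod_eq_zero_iff_dvd _ 4).mp ?_
        push_cast
        exact h3
      have h5 : (2 : ℤ) ∣ e := by omega
      exact_mod_cast h5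
    · rw [htr] at hD
      have h1 : (q : ℤ) ^ 2 ∣ q * (4 * β ^ 3 * e) := by
        have h3 : (q : ℤ) * (4 * β ^ 3 * e) = q ^ 2 * (β ^ 2 * c' ^ 2 - 4 * a * q * c' ^ 3 -
            27 * a ^ 2 * e ^ 2 + 18 * a * β * c' * e) - disc3 a β (q * c') (q * e) := by
          simp only [disc3]; ring
        rw [h3]
        exact dvd_sub (dvd_mul_right _ _) hD
      have h3 : (q : ℤ) ∣ 4 * β ^ 3 * e := by
        rw [pow_two] at h1
        exact (mul_dvd_mul_iff_left (by exact_mod_cast hq.ne_zero)).mp h1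
      rcases hqI.dvd_or_dvd h3 with h4 | h4
      · exfalso
        rcases hqI.dvd_or_dvd h4 with h5 | h5
        · have h6 : q ∣ 2 ^ 2 := by
            have : (q : ℤ) ∣ ((2 ^ 2 : ℕ) : ℤ) := by norm_num; exact h5
            exact_mod_cast this
          exact hq2 ((Nat.prime_dvd_prime_iff_eq hq Nat.prime_two).mp (hq.dvd_of_dvd_pow h6))
        · exact hb (hqI.dvd_of_dvd_pow h5)
      · exact h4
  obtain ⟨d', rfl⟩ := hdvd
  exact ⟨r, c', d', hc, by rw [he]; ring⟩

/-- **No irreducible binary cubic form has `|disc| = 4 m²` with `b² - 3 a c` prime to `m`.** -/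
theorem no_square_disc (m : ℕ) : ∀ {a b c d : ℤ}, m ≠ 0 → a ≠ 0 →
    (∀ x : ℚ, a * x ^ 3 + b * x ^ 2 + c * x + d ≠ 0) → |disc3 a b c d| = 4 * (m : ℤ) ^ 2 →
    (∀ q : ℕ, q.Prime → q ∣ m → ¬ (q : ℤ) ∣ b ^ 2 - 3 * a * c) → False := by
  induction m using Nat.strong_induction_on with
  | _ m IH =>
    intro a b c d hm ha hroot hdisc hH
    by_cases hm1 : m = 1
    · subst hm1
      have h0 : disc3 a b c d ≠ 0 := by
        intro h0
        rw [h0] at hdisc
        norm_num at hdisc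
      have h1 := no_cubic ha hroot h0
      have h2 : |disc3 a b c d| = 4 := by rw [hdisc]; norm_num
      have h3 : 4 < |disc3 a b c d| := h1
      omega
    · obtain ⟨q, hq, m', rfl⟩ := Nat.exists_prime_and_dvd hm1
      have hm' : m' ≠ 0 := fun h => hm (by rw [h, mul_zero])
      have hqm := hH q hq (dvd_mul_right _ _)
      have hdd : (q : ℤ) ^ 2 * 4 ∣ disc3 a b c d := by
        rw [← dvd_abs, hdisc]
        exact ⟨(m' : ℤ) ^ 2, by push_cast; ring⟩
      obtain ⟨r, c', d', h1, h2⟩ := exists_step hq hqm (dvd_of_mul_right_dvd hdd) (by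
        rintro rfl
        norm_num at hdd
        exact hdd)
      have hbc : (b + 3 * a * r) ^ 2 - 3 * (a * q) * c' = b ^ 2 - 3 * a * c := by
        linear_combination (3 * a) * h1
      have hdisc' : (q : ℤ) ^ 2 * disc3 (a * q) (b + 3 * a * r) c' d' = disc3 a b c d := by
        rw [← disc3_translate a b c d r, h1, h2]
        simp only [disc3]; ring
      have hqpos : (0 : ℤ) < (q : ℤ) ^ 2 := by
        have : (0 : ℤ) < q := by exact_mod_cast hq.pos
        positivity
      refine IH m' ?_ (a := a * q) (b := b + 3 * a * r) (c := c') (d := d') hm' ?_ ?_ ?_ ?_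
      · have := hq.one_lt
        nlinarith [Nat.pos_of_ne_zero hm']
      · exact mul_ne_zero ha (by exact_mod_cast hq.ne_zero)
      · intro x hx
        refine hroot (q * x + r) ?_
        have h1Q : (c : ℚ) + 2 * b * r + 3 * a * r ^ 2 = q * c' := by exact_mod_cast h1
        have h2Q : (d : ℚ) + c * r + b * r ^ 2 + a * r ^ 3 = q ^ 2 * d' := by exact_mod_cast h2
        push_cast at hx
        linear_combination (q : ℚ) ^ 2 * hx + (q * x) * h1Q + h2Q
      · have h3 : (q : ℤ) ^ 2 * |disc3 (a * q) (b + 3 * a * r) c' d'| =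
            q ^ 2 * (4 * (m' : ℤ) ^ 2) := by
          rw [← abs_of_pos hqpos, ← abs_mul, abs_of_pos hqpos, hdisc', hdisc]
          push_cast
          ring
        exact mul_left_cancel₀ hqpos.ne' h3
      · intro ℓ hℓ hd
        rw [hbc]
        exact hH ℓ hℓ (hd.mul_left _)

/-- **Semistable curves with discriminant a square up to sign have a rational point of order two.** -/
theorem exists_root_of_square {W : WeierstrassCurve ℤ} (hΔ : W.Δ ≠ 0) (hW : W.IsSemistableModel)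
    (hsq : IsSquare |W.Δ|) :
    ∃ x : ℚ, 4 * x ^ 3 + W.b₂ * x ^ 2 + 2 * W.b₄ * x + W.b₆ = 0 := by
  by_contra hcon
  push Not at hcon
  obtain ⟨s, hs⟩ := hsq
  have hs0 : s.natAbs ≠ 0 := by
    intro h
    rw [Int.natAbs_eq_zero] at h
    rw [h, mul_zero, abs_eq_zero] at hs
    exact hΔ hs
  have hss : ((s.natAbs : ℕ) : ℤ) ^ 2 = |W.Δ| := by
    rw [hs, Int.natCast_natAbs, sq_abs, pow_two]
  have hsd : ∀ q : ℕ, q.Prime → q ∣ s.natAbs → (q : ℤ) ∣ W.Δ := by
    intro q hq hd
    rw [← dvd_abs, ← hss]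
    exact dvd_pow (Int.natCast_dvd_natCast.mpr hd) two_ne_zero
  by_cases hc : (2 : ℤ) ∣ W.c₄
  · -- `c₄` even: the form `(1, b₂ / 2, 2 b₄, 2 b₆)`
    have hb2 : (2 : ℤ) ∣ W.b₂ := by
      refine Int.prime_two.dvd_of_dvd_pow (n := 2) ?_
      have h1 : W.b₂ ^ 2 = W.c₄ + 2 * (12 * W.b₄) := by rw [WeierstrassCurve.c₄]; ring
      rw [h1]
      exact dvd_add hc (dvd_mul_right _ _)
    obtain ⟨β, hβ⟩ := hb2
    have h4 : 4 * (β ^ 2 - 3 * 1 * (2 * W.b₄)) = W.c₄ := by
      rw [WeierstrassCurve.c₄, hβ]; ring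
    have hD : disc3 1 β (2 * W.b₄) (2 * W.b₆) = 4 * W.Δ := by
      have h8 := W.b_relation
      rw [WeierstrassCurve.Δ, disc3]
      rw [hβ] at h8 ⊢
      linear_combination (4 * β ^ 2) * h8
    refine no_square_disc s.natAbs (a := 1) (b := β) (c := 2 * W.b₄) (d := 2 * W.b₆) hs0
      one_ne_zero (fun x hx => hcon (x / 2) ?_) ?_ ?_
    · push_cast at hx
      rw [hβ]
      push_cast
      linear_combination (1 / 2 : ℚ) * hx
    · rw [hD, abs_mul, ← hss]
      norm_num
    · intro q hq hd hd'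
      refine hW q hq (hsd q hq hd) ?_
      rw [← h4]
      exact hd'.mul_left 4
  · -- `c₄` odd: the form `(4, b₂, 2 b₄, b₆)`
    have h4 : W.b₂ ^ 2 - 3 * 4 * (2 * W.b₄) = W.c₄ := by rw [WeierstrassCurve.c₄]; ring
    have hD : disc3 4 W.b₂ (2 * W.b₄) W.b₆ = 16 * W.Δ := by
      have h8 := W.b_relation
      rw [WeierstrassCurve.Δ, disc3]
      linear_combination (4 * W.b₂ ^ 2) * h8
    refine no_square_disc (2 * s.natAbs) (a := 4) (b := W.b₂) (c := 2 * W.b₄) (d := W.b₆)
      (mul_ne_zero two_ne_zero hs0) (by norm_num) (fun x hx => hcon x ?_) ?_ ?_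
    · push_cast at hx
      linear_combination hx
    · rw [hD, abs_mul, ← hss, abs_of_pos (by norm_num : (0 : ℤ) < 16), Nat.cast_mul,
        Nat.cast_ofNat]
      ring
    · intro q hq hd
      rw [h4]
      rcases (Nat.Prime.dvd_mul hq).mp hd with h | h
      · have h2 : q = 2 := (Nat.prime_dvd_prime_iff_eq hq Nat.prime_two).mp h
        subst h2
        exact_mod_cast hc
      · exact hW q hq (hsd q hq h)

end Fermat.Agent.Cor.MO
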