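import Fermat.Agent.Corollaries.MO.Prime
import Fermat.Agent.Corollaries.MO.Square

/-!
# The discriminant of an elliptic curve of prime conductor (Mestre, Oesterlé)

Let `W` be a semistable Weierstrass equation over `ℤ` (a minimal equation of a semistable elliptic
curve over `ℚ`) whose conductor is a prime number `q`. Then the discriminant is `± q`, or it is one
of `-11⁵`, `-17⁴`, `17²`, `-19³`, `37³`, each for exactly one curve, or `q = a² + 64`, the
discriminant is `- q²`, and the curve is the one with a rational point of order two found by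
Neumann and Setzer (`mestre_oesterle`, `mestre_oesterle_iso`, `mestre_oesterle_iff`).

Proof. Let `q ^ n` be the absolute value of the discriminant. If an odd prime `p` divides `n`, the
representation on `W[p]` is reducible, by modularity and Ribet's theorem, `p ≤ 5` as `2` is a good
prime, and the curves with a rational isogeny of degree `3` or `5` and prime conductor are known
(`MO/Prime.lean`). If `n` is even, there is a rational point of order two, as there is no cubic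
number field with discriminant `± 1`, `± 4` (`MO/Square.lean`), and the theorem of Neumann and
Setzer applies.
-/

set_option autoImplicit false

namespace Fermat.Agent.Cor.MO

open WeierstrassCurve Fermat.Agent.Cor.Table

variable {W : WeierstrassCurve ℤ}

/-- The discriminant of a curve of prime conductor `q` is `± q ^ n`, `n ≥ 1`. -/
theorem exists_natAbs_eq_pow (hΔ : W.Δ ≠ 0) {q : ℕ} (hq : q.Prime)
    (hN : W.conductorLevel = q) : ∃ n : ℕ, n ≠ 0 ∧ W.Δ.natAbs = q ^ n := by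
  obtain ⟨n, hn⟩ := Eleven.natAbs_eq_pow hΔ q (eq_of_conductorLevel hΔ hq hN)
  refine ⟨n, ?_, hn⟩
  rintro rfl
  have h1 : (q : ℤ) ∣ W.Δ :=
    (W.prime_dvd_conductorLevel_iff hΔ hq).mp (hN ▸ dvd_refl q)
  have h2 := Int.natCast_dvd.mp h1
  rw [hn, pow_zero] at h2
  exact hq.one_lt.ne' (Nat.dvd_one.mp h2)

/-- **The discriminant of a semistable elliptic curve of prime conductor**, with the invariants
`c₄` and `c₆` in the exceptional cases. -/
theorem mestre_oesterle (hΔ : W.Δ ≠ 0) (hW : W.IsSemistableModel) {q : ℕ} (hq : q.Prime)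
    (hN : W.conductorLevel = q) :
    (W.Δ = q ∨ W.Δ = -q) ∨
    (q = 11 ∧ W.c₄ = 496 ∧ W.c₆ = 20008 ∧ W.Δ = -11 ^ 5) ∨
    (q = 17 ∧ W.c₄ = 33 ∧ W.c₆ = 12015 ∧ W.Δ = -17 ^ 4) ∨
    (q = 17 ∧ W.c₄ = 273 ∧ W.c₆ = 4455 ∧ W.Δ = 17 ^ 2) ∨
    (q = 19 ∧ W.c₄ = 448 ∧ W.c₆ = 10088 ∧ W.Δ = -19 ^ 3) ∨
    (q = 37 ∧ W.c₄ = 1120 ∧ W.c₆ = 36296 ∧ W.Δ = 37 ^ 3) ∨
    ∃ k : ℤ, (4 * k + 1) ^ 2 + 64 = (q : ℤ) ∧ W.c₄ = (4 * k + 1) ^ 2 - 192 ∧
      W.c₆ = -((4 * k + 1) * ((4 * k + 1) ^ 2 + 576)) ∧ W.Δ = -(q : ℤ) ^ 2 := by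
  have hbad := eq_of_conductorLevel hΔ hq hN
  obtain ⟨n, hn0, hn⟩ := exists_natAbs_eq_pow hΔ hq hN
  by_cases hn1 : n = 1
  · rw [hn1, pow_one] at hn
    exact Or.inl (Int.natAbs_eq_iff.mp hn)
  obtain ⟨p, hp, hpn⟩ := Nat.exists_prime_and_dvd hn1
  have hval := padicValInt_eq_of_natAbs hq hn
  have hq1 : q ^ 1 = q ^ n → False := fun h =>
    hn1 (Nat.pow_right_injective hq.two_le h).symm
  by_cases hp2 : p = 2
  · -- the exponent is even
    subst hp2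
    obtain ⟨m, rfl⟩ := hpn
    have hsq : IsSquare |W.Δ| := by
      refine ⟨(q : ℤ) ^ m, ?_⟩
      rw [← Int.natCast_natAbs, hn]
      push_cast
      ring
    obtain ⟨x, hx⟩ := exists_root_of_square hΔ hW hsq
    rcases setzer_invariants hΔ hW hq hbad hx with
      ⟨rfl, h | h | h | h⟩ | ⟨k, hk, h | h⟩
    · exact Or.inr (Or.inr (Or.inl ⟨rfl, h⟩))
    · exact Or.inr (Or.inr (Or.inr (Or.inl ⟨rfl, h⟩)))
    · exact (hq1 (by rw [← hn, h.2.2]; rfl)).elim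
    · exact (hq1 (by rw [← hn, h.2.2]; rfl)).elim
    · exact (hq1 (by rw [← hn, h.2.2, Int.natAbs_natCast, pow_one])).elim
    · exact Or.inr (Or.inr (Or.inr (Or.inr (Or.inr (Or.inr ⟨k, hk, h⟩)))))
  · rcases invariants_of_odd_dvd hΔ hW hq hbad hp hp2 (by rw [hval]; exact hpn) with h | h | h
    · exact Or.inr (Or.inl h)
    · exact Or.inr (Or.inr (Or.inr (Or.inr (Or.inl h))))
    · exact Or.inr (Or.inr (Or.inr (Or.inr (Or.inr (Or.inl h)))))

/-- The exceptional curves: `11a1`, `17a1`, `17a2`, `19a1`, `37b1` and the curves `SN2 k`. -/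
theorem mestre_oesterle_iso (hΔ : W.Δ ≠ 0) (hW : W.IsSemistableModel) {q : ℕ} (hq : q.Prime)
    (hN : W.conductorLevel = q) (h1 : W.Δ ≠ q) (h2 : W.Δ ≠ -q) :
    ∃ E : WeierstrassCurve ℤ,
      ((q = 11 ∧ E = E11a1) ∨ (q = 17 ∧ (E = E17a1 ∨ E = E17a2)) ∨ (q = 19 ∧ E = E19a1) ∨
        (q = 37 ∧ E = E37b1) ∨ ∃ k : ℤ, (4 * k + 1) ^ 2 + 64 = (q : ℤ) ∧ E = SN2 k) ∧
      ∃ r s t : ℤ, (⟨1, r, s, t⟩ : VariableChange ℤ) • W = E := by
  rcases mestre_oesterle hΔ hW hq hN with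
    (h | h) | ⟨h, h4, h6, -⟩ | ⟨h, h4, h6, -⟩ | ⟨h, h4, h6, -⟩ | ⟨h, h4, h6, -⟩ |
      ⟨h, h4, h6, -⟩ | ⟨k, hk, h4, h6, -⟩
  · exact absurd h h1
  · exact absurd h h2
  · exact ⟨E11a1, Or.inl ⟨h, rfl⟩,
      exists_variableChange (by rw [h4, E11a1_c₄]) (by rw [h6, E11a1_c₆])⟩
  · exact ⟨E17a1, Or.inr (Or.inl ⟨h, Or.inl rfl⟩),
      exists_variableChange (by rw [h4, E17a1_c₄]) (by rw [h6, E17a1_c₆])⟩
  · exact ⟨E17a2, Or.inr (Or.inl ⟨h, Or.inr rfl⟩),
      exists_variableChange (by rw [h4, E17a2_c₄]) (by rw [h6, E17a2_c₆])⟩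
  · exact ⟨E19a1, Or.inr (Or.inr (Or.inl ⟨h, rfl⟩)),
      exists_variableChange (by rw [h4, E19a1_inv.1]) (by rw [h6, E19a1_inv.2.1])⟩
  · exact ⟨E37b1, Or.inr (Or.inr (Or.inr (Or.inl ⟨h, rfl⟩))),
      exists_variableChange (by rw [h4, E37b1_inv.1]) (by rw [h6, E37b1_inv.2.1])⟩
  · exact ⟨SN2 k, Or.inr (Or.inr (Or.inr (Or.inr ⟨k, hk, rfl⟩))),
      exists_variableChange (by rw [h4, (SN2_inv k).1]) (by rw [h6, (SN2_inv k).2.1])⟩

/-- **The exponent is at most `5`.** -/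
theorem exponent_le_five (hΔ : W.Δ ≠ 0) (hW : W.IsSemistableModel) {q : ℕ} (hq : q.Prime)
    (hN : W.conductorLevel = q) {n : ℕ} (hn : W.Δ.natAbs = q ^ n) : n ≤ 5 := by
  have key : ∀ m : ℕ, W.Δ.natAbs = q ^ m → m ≤ 5 → n ≤ 5 := by
    intro m hm hm5
    have h : q ^ n = q ^ m := by rw [← hn, hm]
    rw [Nat.pow_right_injective hq.two_le h]
    exact hm5
  rcases mestre_oesterle hΔ hW hq hN with
    (h | h) | ⟨rfl, -, -, h⟩ | ⟨rfl, -, -, h⟩ | ⟨rfl, -, -, h⟩ | ⟨rfl, -, -, h⟩ |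
      ⟨rfl, -, -, h⟩ | ⟨k, hk, -, -, h⟩
  · exact key 1 (by rw [h, Int.natAbs_natCast, pow_one]) (by norm_num)
  · exact key 1 (by rw [h, Int.natAbs_neg, Int.natAbs_natCast, pow_one]) (by norm_num)
  · exact key 5 (by rw [h]; rfl) (by norm_num)
  · exact key 4 (by rw [h]; rfl) (by norm_num)
  · exact key 2 (by rw [h]; rfl) (by norm_num)
  · exact key 3 (by rw [h]; rfl) (by norm_num)
  · exact key 3 (by rw [h]; rfl) (by norm_num)
  · exact key 2 (by rw [h, Int.natAbs_neg, Int.natAbs_pow, Int.natAbs_natCast]) (by norm_num)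

/-- **The minimal discriminant is `± q`** if the prime conductor `q` is not `11`, `17`, `19`, `37`
and not of the form `a² + 64`. -/
theorem disc_eq (hΔ : W.Δ ≠ 0) (hW : W.IsSemistableModel) {q : ℕ} (hq : q.Prime)
    (hN : W.conductorLevel = q) (hq4 : q ≠ 11 ∧ q ≠ 17 ∧ q ≠ 19 ∧ q ≠ 37)
    (hsq : ∀ a : ℤ, (q : ℤ) ≠ a ^ 2 + 64) : W.Δ = q ∨ W.Δ = -q := by
  rcases mestre_oesterle hΔ hW hq hN with
    h | ⟨h, -⟩ | ⟨h, -⟩ | ⟨h, -⟩ | ⟨h, -⟩ | ⟨h, -⟩ | ⟨k, hk, -⟩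
  · exact h
  · exact absurd h hq4.1
  · exact absurd h hq4.2.1
  · exact absurd h hq4.2.1
  · exact absurd h hq4.2.2.1
  · exact absurd h hq4.2.2.2
  · exact absurd hk.symm (hsq _)

/-- An elliptic curve over `ℚ` with a semistable integral equation of prime conductor whose
discriminant is not a prime up to sign is one of the curves of `mestre_oesterle_iso`, and
conversely. -/
theorem mestre_oesterle_iff (E : WeierstrassCurve ℚ) :
    (∃ W : WeierstrassCurve ℤ, W.IsIntegralModelOf E ∧ W.Δ ≠ 0 ∧ W.IsSemistableModel ∧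
      W.conductorLevel.Prime ∧ W.Δ.natAbs ≠ W.conductorLevel) ↔
    (E11a1.IsIntegralModelOf E ∨ E17a1.IsIntegralModelOf E ∨ E17a2.IsIntegralModelOf E ∨
      E19a1.IsIntegralModelOf E ∨ E37b1.IsIntegralModelOf E ∨
      ∃ (k : ℤ) (q : ℕ), q.Prime ∧ (4 * k + 1) ^ 2 + 64 = (q : ℤ) ∧
        (SN2 k).IsIntegralModelOf E) := by
  constructor
  · rintro ⟨W, hWE, hΔ, hW, hq, hne⟩
    obtain ⟨A, hA, hiso⟩ := mestre_oesterle_iso hΔ hW hq rfl
      (fun h => hne (by rw [h, Int.natAbs_natCast]))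
      (fun h => hne (by rw [h, Int.natAbs_neg, Int.natAbs_natCast]))
    have h := isIntegralModelOf_of_iso hWE hiso
    rcases hA with ⟨-, rfl⟩ | ⟨-, rfl | rfl⟩ | ⟨-, rfl⟩ | ⟨-, rfl⟩ | ⟨k, hk, rfl⟩
    · exact Or.inl h
    · exact Or.inr (Or.inl h)
    · exact Or.inr (Or.inr (Or.inl h))
    · exact Or.inr (Or.inr (Or.inr (Or.inl h)))
    · exact Or.inr (Or.inr (Or.inr (Or.inr (Or.inl h))))
    · exact Or.inr (Or.inr (Or.inr (Or.inr (Or.inr ⟨k, _, hq, hk, h⟩))))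
  · rintro (h | h | h | h | h | ⟨k, q, hq, hk, h⟩)
    · exact ⟨_, h, by rw [E11a1_Δ]; norm_num, E11a1_semistable, by rw [E11a1_conductorLevel]; norm_num,
        by rw [E11a1_conductorLevel, E11a1_Δ]; norm_num⟩
    · exact ⟨_, h, by rw [E17a1_Δ]; norm_num, E17a1_semistable,
        by rw [E17a1_conductorLevel]; norm_num, by rw [E17a1_conductorLevel, E17a1_Δ]; norm_num⟩
    · exact ⟨_, h, by rw [E17a2_Δ]; norm_num, E17a2_semistable,
        by rw [E17a2_conductorLevel]; norm_num, by rw [E17a2_conductorLevel, E17a2_Δ]; norm_num⟩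
    · obtain ⟨h1, h2, h3⟩ := E19a1_facts
      exact ⟨_, h, h1, h2, by rw [h3]; norm_num, by rw [h3, E19a1_inv.2.2]; norm_num⟩
    · obtain ⟨h1, h2, h3⟩ := E37b1_facts
      exact ⟨_, h, h1, h2, by rw [h3]; norm_num, by rw [h3, E37b1_inv.2.2]; norm_num⟩
    · obtain ⟨h1, h2, h3⟩ := SN2_facts hq hk
      refine ⟨_, h, h1, h2, by rw [h3]; exact hq, ?_⟩
      rw [h3, (SN2_inv k).2.2, hk, Int.natAbs_neg, Int.natAbs_pow, Int.natAbs_natCast]
      intro h4
      have h5 : q ^ 2 = q ^ 1 := by rw [h4, pow_one]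
      have := Nat.pow_right_injective hq.two_le h5
      omega

end Fermat.Agent.Cor.MO
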