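import Fermat.Agent.S58.Reduction
import Fermat.Agent.Corollaries.HW.Irred
import Fermat.Agent.Corollaries.CondLevel
import Fermat.Agent.Corollaries.LevelLower

/-!
# Semistable curves with good reduction at `2`, and curves of prime conductor

* `modRepIsIrreducible_of_good_two`: if `W` is semistable with good reduction at `2`, then `W[p]` is
  irreducible for all primes `p ≥ 7`: otherwise `p` divides `#W(𝔽₂) ≤ 5`;
* `eq_three_or_five`: if `W` is semistable with exactly one bad prime `q`, and an odd prime `p`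
  divides the exponent of `q` in the discriminant, then `p = 3` or `p = 5`, and `W[p]` is
  reducible: otherwise, by Ribet's theorem, there would be a non-zero cusp form of weight two and
  level one.
-/

set_option autoImplicit false

noncomputable section

namespace Fermat.Agent.Cor.MO

open WeierstrassCurve

variable {W : WeierstrassCurve ℤ}

/-- If `2` is a good prime and `W[p]` is reducible, then `p ≤ 5`. -/
theorem le_five_of_reducible (hΔ : W.Δ ≠ 0) (hW : W.IsSemistableModel)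
    (h2 : W.IsGoodPrimeFor 2) {p : ℕ} (hp : p.Prime) (hred : ¬ W.ModRepIsIrreducible p) :
    p ≤ 5 := by
  by_cases hp2 : p = 2
  · omega
  have h1 := HW.dvd_of_reducible hΔ hW hp hp2 hred Nat.prime_two h2 (Ne.symm hp2)
  have : Fact (Nat.Prime 2) := ⟨Nat.prime_two⟩
  obtain ⟨h3, h4⟩ := S58aux.card_bounds 2 (W.reductionMod 2)
  rw [WeierstrassCurve.apOfModel, WeierstrassCurve.traceOfFrobenius, Nat.card_zmod] at h1
  have h5 : (p : ℤ) ∣ ((W.reductionMod 2).card : ℤ) := by
    have h6 : ((W.reductionMod 2).card : ℤ) =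
        ((2 : ℕ) : ℤ) + 1 - (((2 : ℕ) : ℤ) + 1 - ((W.reductionMod 2).card : ℤ)) := by ring
    rw [h6]
    exact h1
  have h7 : p ∣ (W.reductionMod 2).card := Int.natCast_dvd_natCast.mp h5
  have h8 := Nat.le_of_dvd (by omega) h7
  omega

/-- **If `W` is semistable and `2` is a good prime, then `W[p]` is irreducible for `p ≥ 7`.** -/
theorem modRepIsIrreducible_of_good_two (hΔ : W.Δ ≠ 0) (hW : W.IsSemistableModel)
    (h2 : W.IsGoodPrimeFor 2) {p : ℕ} (hp : p.Prime) (h7 : 7 ≤ p) : W.ModRepIsIrreducible p := by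
  by_contra hred
  have := le_five_of_reducible hΔ hW h2 hp hred
  omega

/-- If `q` is the only bad prime and the odd prime `p` divides the exponent of `q` in the
discriminant, then `W[p]` is reducible. -/
theorem not_irreducible_of_dvd_val (hΔ : W.Δ ≠ 0) (hW : W.IsSemistableModel) {q : ℕ}
    (hbad : ∀ ℓ : ℕ, ℓ.Prime → (ℓ : ℤ) ∣ W.Δ → ℓ = q) {p : ℕ} (hp : p.Prime) (hp2 : p ≠ 2)
    (hd : p ∣ padicValInt q W.Δ) : ¬ W.ModRepIsIrreducible p := by
  intro hirr
  obtain ⟨r, hr, hrΔ, hrv⟩ := exists_prime_not_dvd_val hΔ hW hp hp2 hirr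
  rw [hbad r hr hrΔ] at hrv
  exact hrv hd

/-- The only bad prime is odd. -/
theorem isGoodPrimeFor_two (hΔ : W.Δ ≠ 0) (hW : W.IsSemistableModel) {q : ℕ} (hq : q.Prime)
    (hbad : ∀ ℓ : ℕ, ℓ.Prime → (ℓ : ℤ) ∣ W.Δ → ℓ = q) : W.IsGoodPrimeFor 2 := by
  intro h
  have h1 := hbad 2 Nat.prime_two h
  rcases eleven_or_le_of_unique hΔ hW hq hbad with h2 | h2 <;> omega

/-- **The odd prime factors of the exponent are `3` and `5`.** -/
theorem eq_three_or_five (hΔ : W.Δ ≠ 0) (hW : W.IsSemistableModel) {q : ℕ} (hq : q.Prime)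
    (hbad : ∀ ℓ : ℕ, ℓ.Prime → (ℓ : ℤ) ∣ W.Δ → ℓ = q) {p : ℕ} (hp : p.Prime) (hp2 : p ≠ 2)
    (hd : p ∣ padicValInt q W.Δ) : (p = 3 ∨ p = 5) ∧ ¬ W.ModRepIsIrreducible p := by
  have hred := not_irreducible_of_dvd_val hΔ hW hbad hp hp2 hd
  refine ⟨?_, hred⟩
  have h5 := le_five_of_reducible hΔ hW (isGoodPrimeFor_two hΔ hW hq hbad) hp hred
  have h2 := hp.two_le
  interval_cases p
  · exact absurd rfl hp2
  · exact Or.inl rfl
  · exact absurd hp (by norm_num)
  · exact Or.inr rfl

end Fermat.Agent.Cor.MO
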