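import Fermat.Agent.Corollaries.MO.GoodTwo
import Fermat.Agent.Corollaries.PP.Six

/-!
# The equation `x³ - y² = 1728 A zᵖ` for `p = 7` and `p = 13`

If `x³ - y² = 1728 D` with coprime `x`, `y`, then `D` is the discriminant of a semistable integral
Weierstrass equation (helper65's `exists_semistable`). If `D` is odd it has good reduction at `2`
and `W[p]` is irreducible for all `p ≥ 7`; if `30 ∤ D` this is so for all `p ≥ 11`
(`MO/GoodTwo`). Hence: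

* `cube_sub_sq_ne_odd`: `x³ - y² = 1728 zᵖ` has no solution with `x`, `y` coprime and `z` odd,
  every prime `p ≥ 7`;
* `cube_sub_sq_ne_thirty`: no solution with `x`, `y` coprime, `z ≠ 0` and `30 ∤ z`, every prime
  `p ≥ 11`, the prime `13` included;
* `cube_sq_ne_pow_of_six`: signature `(2, 3, p)`: `x³ ± y² = zᵖ` has no solution with `x`, `y`
  coprime, `6 ∣ z ≠ 0` and `5 ∤ z`, every prime `p ≥ 11`, the prime `13` included;
* `disc_ne_pow_of_good_two`: the discriminant of a semistable Weierstrass equation with good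
  reduction at `2` is not a `p`-th power, `p ≥ 7` prime (sharp: `- 11⁵` for `11a1`).
-/

set_option autoImplicit false

noncomputable section

namespace Fermat.Agent.Cor.MO

open WeierstrassCurve

variable {W : WeierstrassCurve ℤ}

/-! ### Discriminants -/

/-- `W` semistable with good reduction at `2`, `p ≥ 7` prime, `L` a level of genus zero: there is a
prime `q ∤ L` with `p ∤ v_q(Δ)`. -/
theorem exists_prime_of_good_two (hΔ : W.Δ ≠ 0) (hW : W.IsSemistableModel)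
    (h2 : W.IsGoodPrimeFor 2) {p : ℕ} (hp : p.Prime) (h7 : 7 ≤ p) {L : ℕ} (hL : L ∈ zeroLevels) :
    ∃ q : ℕ, q.Prime ∧ (q : ℤ) ∣ W.Δ ∧ ¬ q ∣ L ∧ ¬ p ∣ padicValInt q W.Δ :=
  exists_prime_not_dvd_of_mem hΔ hW hp (by omega)
    (modRepIsIrreducible_of_good_two hΔ hW h2 hp h7) hL

/-- The discriminant of a semistable Weierstrass equation with good reduction at `2` is not
`n mᵖ`, `p ≥ 7` prime, the primes of `n` dividing a level of genus zero. -/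
theorem disc_ne_mul_pow_of_good_two (hΔ : W.Δ ≠ 0) (hW : W.IsSemistableModel)
    (h2 : W.IsGoodPrimeFor 2) {p : ℕ} (hp : p.Prime) (h7 : 7 ≤ p) {L : ℕ} (hL : L ∈ zeroLevels)
    {n : ℤ} (hn : ∀ q : ℕ, q.Prime → (q : ℤ) ∣ n → q ∣ L) (m : ℤ) : W.Δ ≠ n * m ^ p :=
  disc_ne_mul_pow hΔ hW hp (by omega) (modRepIsIrreducible_of_good_two hΔ hW h2 hp h7) hL hn m

/-- **The discriminant of a semistable Weierstrass equation with good reduction at `2` is not a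
`p`-th power**, `p ≥ 7` prime. -/
theorem disc_ne_pow_of_good_two (hΔ : W.Δ ≠ 0) (hW : W.IsSemistableModel)
    (h2 : W.IsGoodPrimeFor 2) {p : ℕ} (hp : p.Prime) (h7 : 7 ≤ p) (m : ℤ) : W.Δ ≠ m ^ p :=
  disc_ne_pow hΔ hW hp (by omega) (modRepIsIrreducible_of_good_two hΔ hW h2 hp h7) m

/-! ### Signature `(2, 3, p)` -/

/-- **The key statement**: `x³ - y² = 1728 D`, `x`, `y` coprime, `D ≠ 0`, and `p ≥ 7` with `D` odd,
or `p ≥ 11` with `30 ∤ D`: for every level `L` of genus zero there is a prime `q ∤ L` with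
`p ∤ v_q(D)`. -/
theorem exists_prime_signature {p : ℕ} (hp : p.Prime) {x y D : ℤ}
    (h : x ^ 3 - y ^ 2 = 1728 * D) (hxy : IsCoprime x y) (hD : D ≠ 0)
    (hc : (7 ≤ p ∧ ¬ (2 : ℤ) ∣ D) ∨ (11 ≤ p ∧ ¬ (30 : ℤ) ∣ D)) {L : ℕ} (hL : L ∈ zeroLevels) :
    ∃ q : ℕ, q.Prime ∧ ¬ q ∣ L ∧ ¬ p ∣ padicValInt q D := by
  obtain ⟨W, -, -, hΔ, hss⟩ := exists_semistable h hxy
  have hΔ0 : W.Δ ≠ 0 := by rw [hΔ]; exact hD
  have hirr : W.ModRepIsIrreducible p := by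
    rcases hc with ⟨h7, h2⟩ | ⟨h11, h30⟩
    · refine modRepIsIrreducible_of_good_two hΔ0 hss (fun hd => h2 ?_) hp h7
      rw [hΔ] at hd
      exact_mod_cast hd
    · exact irreducible_of_thirty hΔ0 hss (by rwa [hΔ]) hp h11
  have hp2 : p ≠ 2 := by
    rcases hc with ⟨h7, -⟩ | ⟨h11, -⟩ <;> omega
  obtain ⟨q, h1, -, h2, h3⟩ := exists_prime_not_dvd_of_mem hΔ0 hss hp hp2 hirr hL
  exact ⟨q, h1, h2, by rwa [hΔ] at h3⟩

/-- **`x³ - y² = 1728 A zᵖ`**, `x`, `y` coprime, the primes of `A` dividing a level `L` of genus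
zero: no solution with `A z` odd if `p ≥ 7`, none with `30 ∤ A zᵖ` if `p ≥ 11`. -/
theorem signature_coeff {p : ℕ} (hp : p.Prime) {A x y z : ℤ}
    (h : x ^ 3 - y ^ 2 = 1728 * (A * z ^ p)) (hxy : IsCoprime x y) (hA0 : A ≠ 0) (hz : z ≠ 0)
    (hc : (7 ≤ p ∧ ¬ (2 : ℤ) ∣ A * z ^ p) ∨ (11 ≤ p ∧ ¬ (30 : ℤ) ∣ A * z ^ p)) {L : ℕ}
    (hL : L ∈ zeroLevels) (hA : ∀ q : ℕ, q.Prime → (q : ℤ) ∣ A → q ∣ L) : False := by
  obtain ⟨q, hq, hqL, hv⟩ := exists_prime_signature hp h hxy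
    (mul_ne_zero hA0 (pow_ne_zero _ hz)) hc hL
  refine hv (dvd_padicValInt_mul_pow_of_dvd hq hA0 hz ?_)
  rw [padicValInt.eq_zero_of_not_dvd fun h => hqL (hA q hq h)]
  exact dvd_zero p

theorem dvd_one_of_natCast {q : ℕ} (h : (q : ℤ) ∣ 1) : q ∣ 1 := by exact_mod_cast h

/-- If `30` divides `zᵏ` it divides `z`. -/
theorem thirty_dvd_of_pow {z : ℤ} {k : ℕ} (h : (30 : ℤ) ∣ z ^ k) : (30 : ℤ) ∣ z := by
  have h2 : (2 : ℤ) ∣ z := Int.prime_two.dvd_of_dvd_pow ((by norm_num : (2 : ℤ) ∣ 30).trans h)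
  have h3 : (3 : ℤ) ∣ z := Int.prime_three.dvd_of_dvd_pow ((by norm_num : (3 : ℤ) ∣ 30).trans h)
  have h5 : (5 : ℤ) ∣ z := (Nat.prime_iff_prime_int.mp Nat.prime_five).dvd_of_dvd_pow
    ((by norm_num : (((5 : ℕ) : ℤ)) ∣ 30).trans h)
  omega

/-- **`x³ - y² = 1728 zᵖ`** has no solution with `x`, `y` coprime and `z` odd, every prime
`p ≥ 7`. -/
theorem cube_sub_sq_ne_odd {p : ℕ} (hp : p.Prime) (h7 : 7 ≤ p) {x y z : ℤ} (hxy : IsCoprime x y)
    (hz : Odd z) : x ^ 3 - y ^ 2 ≠ 1728 * z ^ p := by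
  intro h
  have hz0 : z ≠ 0 := by
    rintro rfl
    exact absurd hz (by decide)
  refine signature_coeff (A := 1) (L := 1) hp (by rw [one_mul]; exact h) hxy one_ne_zero hz0
    (Or.inl ⟨h7, ?_⟩) (by decide) (fun q _ h1 => dvd_one_of_natCast h1)
  rw [one_mul, ← even_iff_two_dvd, Int.not_even_iff_odd]
  exact hz.pow

/-- **`x³ - y² = 1728 zᵖ`** has no solution with `x`, `y` coprime, `z ≠ 0` and `30 ∤ z`, every
prime `p ≥ 11`, the prime `13` included. -/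
theorem cube_sub_sq_ne_thirty {p : ℕ} (hp : p.Prime) (h11 : 11 ≤ p) {x y z : ℤ}
    (hxy : IsCoprime x y) (hz : z ≠ 0) (h30 : ¬ (30 : ℤ) ∣ z) : x ^ 3 - y ^ 2 ≠ 1728 * z ^ p := by
  intro h
  refine signature_coeff (A := 1) (L := 1) hp (by rw [one_mul]; exact h) hxy one_ne_zero hz
    (Or.inr ⟨h11, ?_⟩) (by decide) (fun q _ h1 => dvd_one_of_natCast h1)
  rw [one_mul]
  exact fun h1 => h30 (thirty_dvd_of_pow h1)

/-- **`x³ - y² = zᵖ`** has no solution with `x`, `y` coprime, `6 ∣ z ≠ 0` and `5 ∤ z`, every prime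
`p ≥ 11`. -/
theorem cube_sub_sq_ne_pow_of_six {p : ℕ} (hp : p.Prime) (h11 : 11 ≤ p) {x y z : ℤ}
    (hxy : IsCoprime x y) (hz : z ≠ 0) (h6 : (6 : ℤ) ∣ z) (h5 : ¬ (5 : ℤ) ∣ z) :
    x ^ 3 - y ^ 2 ≠ z ^ p := by
  intro h
  obtain ⟨w, rfl⟩ := h6
  have hw : w ≠ 0 := right_ne_zero_of_mul hz
  obtain ⟨m, rfl⟩ : ∃ m, p = m + 6 := ⟨p - 6, by omega⟩
  have h5' : Prime (5 : ℤ) := Nat.prime_iff_prime_int.mp Nat.prime_five
  refine signature_coeff (A := 2 ^ m * 3 ^ (m + 3)) (L := 6) hp (x := x) (y := y)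
    (z := w) ?_ hxy (mul_ne_zero (pow_ne_zero _ two_ne_zero) (pow_ne_zero _ three_ne_zero)) hw
    (Or.inr ⟨h11, ?_⟩) (by decide) ?_
  · rw [h, mul_pow, show (6 : ℤ) = 2 * 3 by norm_num, mul_pow 2 3 (m + 6), pow_add 2 m 6,
      pow_add 3 m 6, pow_add 3 m 3]
    ring
  · intro h1
    have h2 : (5 : ℤ) ∣ 2 ^ m * 3 ^ (m + 3) * w ^ (m + 6) :=
      (by norm_num : (5 : ℤ) ∣ 30).trans h1
    rcases h5'.dvd_or_dvd h2 with h3 | h3
    · rcases h5'.dvd_or_dvd h3 with h4 | h4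
      · have := h5'.dvd_of_dvd_pow h4
        omega
      · have := h5'.dvd_of_dvd_pow h4
        omega
    · exact h5 ((h5'.dvd_of_dvd_pow h3).mul_left 6)
  · intro q hq h1
    have hq' := Nat.prime_iff_prime_int.mp hq
    rcases hq'.dvd_or_dvd h1 with h3 | h3
    · have h4 := hq'.dvd_of_dvd_pow h3
      have h5 : q ∣ 2 := by exact_mod_cast h4
      exact h5.trans (by norm_num)
    · have h4 := hq'.dvd_of_dvd_pow h3
      have h5 : q ∣ 3 := by exact_mod_cast h4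
      exact h5.trans (by norm_num)

/-- **Signature `(2, 3, p)`**: `x³ ± y² = zᵖ` has no solution with `x`, `y` coprime, `6 ∣ z ≠ 0` and
`5 ∤ z`, every prime `p ≥ 11`, the prime `13` included. -/
theorem cube_sq_ne_pow_of_six {p : ℕ} (hp : p.Prime) (h11 : 11 ≤ p) {x y z : ℤ}
    (hxy : IsCoprime x y) (hz : z ≠ 0) (h6 : (6 : ℤ) ∣ z) (h5 : ¬ (5 : ℤ) ∣ z) :
    x ^ 3 + y ^ 2 ≠ z ^ p ∧ x ^ 3 - y ^ 2 ≠ z ^ p := by
  refine ⟨fun h => ?_, cube_sub_sq_ne_pow_of_six hp h11 hxy hz h6 h5⟩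
  have hodd : Odd p := hp.odd_of_ne_two (by omega)
  refine cube_sub_sq_ne_pow_of_six hp h11 (x := -x) (y := y) (z := -z) hxy.neg_left
    (neg_ne_zero.mpr hz) ((dvd_neg).mpr h6) (fun h1 => h5 ((dvd_neg).mp h1)) ?_
  rw [hodd.neg_pow, ← h]
  ring

end Fermat.Agent.Cor.MO

end
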