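import Fermat.Agent.Corollaries.MO.Odd
import Fermat.Agent.Corollaries.PP.Two
import Fermat.Agent.Corollaries.InvGal.Curve37

/-!
# The equations `xᵖ + 64 yᵖ = z²` and `x² ± 64 = yⁿ`, all exponents

For odd `t` the curve `Y² + XY = X³ + s X² + t X` (helper65's `curveTwo s t`) has good reduction at
`2` and two or four points over `𝔽₂`. Hence, if it is semistable, `W[p]` is irreducible for **every**
odd prime `p` (`curveTwo_irreducible`), and the theorems of `PP/Two` hold for all odd primes `p`: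

* `no_solution_sixtyfour`: `A xᵖ + 64 B yᵖ = z²`, `A x`, `B y` odd and coprime, the primes of `A B`
  dividing a level of genus zero: no solution, every odd prime `p`;
* `pow_add_sixtyfour_ne_sq`: `xᵖ + 64 yᵖ = z²` has no solution in odd coprime integers `x`, `y`,
  every odd prime `p`;
* `sq_add_sixtyfour`: `x² + 64 = yⁿ`, `x` odd, `n ≥ 2`, only for `15² + 64 = 17²`;
* `sq_sub_sixtyfour`: `x² - 64 = yⁿ`, `x` odd, `n ≥ 2`, only for `17² - 64 = 15²`.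
-/

set_option autoImplicit false

noncomputable section

namespace Fermat.Agent.Cor.MO

open WeierstrassCurve Fermat.Agent.Cor.InvGal

/-! ### The prime two -/

theorem curveTwo_good_two {s t : ℤ} (ht : ¬ (2 : ℤ) ∣ t) : (curveTwo s t).IsGoodPrimeFor 2 := by
  intro h
  rw [curveTwo_Δ] at h
  have h2 : (2 : ℤ) ∣ t ^ 2 * ((1 + 4 * s) ^ 2 - 64 * t) := by exact_mod_cast h
  rcases Int.prime_two.dvd_or_dvd h2 with h3 | h3
  · exact ht (Int.prime_two.dvd_of_dvd_pow h3)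
  · have h4 : (1 + 4 * s) ^ 2 - 64 * t = 2 * (4 * s + 8 * s ^ 2 - 32 * t) + 1 := by ring
    omega

theorem count_two : ∀ a b : ZMod 2, b ≠ 0 →
    ((Finset.univ.filter fun p : ZMod 2 × ZMod 2 =>
      p.2 ^ 2 + 1 * p.1 * p.2 + 0 * p.2 = p.1 ^ 3 + a * p.1 ^ 2 + b * p.1 + 0).card = 1 ∨
    (Finset.univ.filter fun p : ZMod 2 × ZMod 2 =>
      p.2 ^ 2 + 1 * p.1 * p.2 + 0 * p.2 = p.1 ^ 3 + a * p.1 ^ 2 + b * p.1 + 0).card = 3) := by
  decide

/-- The curve has two or four points modulo `2`. -/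
theorem curveTwo_ap_two {s t : ℤ} (ht : ¬ (2 : ℤ) ∣ t) :
    (curveTwo s t).apOfModel 2 = 1 ∨ (curveTwo s t).apOfModel 2 = -1 := by
  have h1 : ((t : ℤ) : ZMod 2) ≠ 0 := by
    intro h
    exact ht (by exact_mod_cast (ZMod.intCast_zmod_eq_zero_iff_dvd t 2).mp h)
  have h2 := count_two ((s : ℤ) : ZMod 2) ((t : ℤ) : ZMod 2) h1
  have h3 : cnt (curveTwo s t) 2 = 1 ∨ cnt (curveTwo s t) 2 = 3 := by
    simp only [cnt, curveTwo, Int.cast_one, Int.cast_zero]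
    exact h2
  rw [apOfModel_eq (curveTwo s t) Nat.prime_two (curveTwo_good_two ht)]
  rcases h3 with h3 | h3
  · left; rw [h3]; norm_num
  · right; rw [h3]; norm_num

/-- **`W[p]` is irreducible for every odd prime `p`**, `W = curveTwo s t` semistable, `t` odd. -/
theorem curveTwo_irreducible {s t : ℤ} (ht : ¬ (2 : ℤ) ∣ t) (h0 : (curveTwo s t).Δ ≠ 0)
    (hss : (curveTwo s t).IsSemistableModel) {p : ℕ} (hp : p.Prime) (hp2 : p ≠ 2) :
    (curveTwo s t).ModRepIsIrreducible p := by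
  by_contra hred
  have h1 := HW.dvd_of_reducible h0 hss hp hp2 hred Nat.prime_two (curveTwo_good_two ht)
    (Ne.symm hp2)
  have h2 : (p : ℤ) ∣ 2 ^ 2 := by
    rcases curveTwo_ap_two ht with h | h
    · rw [h] at h1
      exact h1.trans ⟨2, by norm_num⟩
    · rw [h] at h1
      exact h1.trans ⟨1, by norm_num⟩
  have h3 : p ∣ 2 ^ 2 := by exact_mod_cast h2
  exact hp2 ((Nat.prime_dvd_prime_iff_eq hp Nat.prime_two).mp (hp.dvd_of_dvd_pow h3))

/-! ### The equation `a + 64 t = c²` -/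

/-- **The key statement**, every odd prime `p`: `a + 64 t = c²` with `a`, `t` odd and coprime: for
every level `L` of genus zero there is a prime `q ∤ L` with `p ∤ v_q(t² a)`. -/
theorem exists_prime_sixtyfour {p : ℕ} (hp : p.Prime) (hp2 : p ≠ 2) {a t c : ℤ}
    (h : a + 64 * t = c ^ 2) (hat : IsCoprime a t) (ha : ¬ (2 : ℤ) ∣ a) (ht : ¬ (2 : ℤ) ∣ t)
    {L : ℕ} (hL : L ∈ zeroLevels) :
    ∃ q : ℕ, q.Prime ∧ ¬ q ∣ L ∧ ¬ p ∣ padicValInt q (t ^ 2 * a) := by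
  have ha0 : a ≠ 0 := fun h0 => ha (h0 ▸ dvd_zero _)
  have ht0 : t ≠ 0 := fun h0 => ht (h0 ▸ dvd_zero _)
  obtain ⟨s, hs⟩ : ∃ s : ℤ, c ^ 2 = (1 + 4 * s) ^ 2 := by
    have hc : ¬ (2 : ℤ) ∣ c := by
      intro h2
      apply ha
      have h3 : (2 : ℤ) ∣ c ^ 2 := dvd_pow h2 two_ne_zero
      omega
    rcases (by omega : c % 4 = 1 ∨ c % 4 = 3) with h4 | h4
    · exact ⟨c / 4, by rw [show 1 + 4 * (c / 4) = c by omega]⟩
    · exact ⟨(-c) / 4, by rw [show 1 + 4 * (-c / 4) = -c by omega, neg_sq]⟩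
  have ha' : a = (1 + 4 * s) ^ 2 - 64 * t := by rw [← hs, ← h]; ring
  have hΔ : (curveTwo s t).Δ = t ^ 2 * a := by rw [curveTwo_Δ, ← ha']
  have hΔ0 : (curveTwo s t).Δ ≠ 0 := by
    rw [hΔ]; exact mul_ne_zero (pow_ne_zero _ ht0) ha0
  have hss : (curveTwo s t).IsSemistableModel := curveTwo_semistable (by rwa [← ha'])
  obtain ⟨q, h1, -, h2, h3⟩ := exists_prime_not_dvd_of_mem hΔ0 hss hp hp2
    (curveTwo_irreducible ht hΔ0 hss hp hp2) hL
  exact ⟨q, h1, h2, by rwa [hΔ] at h3⟩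

/-- **The equation `A xᵖ + 64 B yᵖ = z²`** with `A x`, `B y` odd and coprime, the primes of `A B`
dividing a level `L` of genus zero: no solution, every odd prime `p`. -/
theorem no_solution_sixtyfour {p : ℕ} (hp : p.Prime) (hp2 : p ≠ 2) {A B x y z : ℤ}
    (h : A * x ^ p + 64 * (B * y ^ p) = z ^ 2) (hcop : IsCoprime (A * x) (B * y))
    (hx : ¬ (2 : ℤ) ∣ A * x) (hy : ¬ (2 : ℤ) ∣ B * y) {L : ℕ} (hL : L ∈ zeroLevels)
    (hA : ∀ q : ℕ, q.Prime → (q : ℤ) ∣ A → q ∣ L)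
    (hB : ∀ q : ℕ, q.Prime → (q : ℤ) ∣ B → q ∣ L) : False := by
  have hx0 : A * x ≠ 0 := fun h0 => hx (h0 ▸ dvd_zero _)
  have hy0 : B * y ≠ 0 := fun h0 => hy (h0 ▸ dvd_zero _)
  have hdvd : ∀ C w : ℤ, ¬ (2 : ℤ) ∣ C * w → ¬ (2 : ℤ) ∣ C * w ^ p := by
    intro C w hw h1
    rcases Int.prime_two.dvd_or_dvd h1 with h2 | h2
    · exact hw (h2.mul_right _)
    · exact hw ((Int.prime_two.dvd_of_dvd_pow h2).mul_left _)
  have hcop' : IsCoprime (A * x ^ p) (B * y ^ p) := by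
    have h1 : IsCoprime ((A * x) ^ p) ((B * y) ^ p) := hcop.pow
    refine (h1.of_isCoprime_of_dvd_left ?_).of_isCoprime_of_dvd_right ?_
    · rw [mul_pow]; exact mul_dvd_mul_right (dvd_pow_self A hp.ne_zero) _
    · rw [mul_pow]; exact mul_dvd_mul_right (dvd_pow_self B hp.ne_zero) _
  obtain ⟨q, hq, hqL, hv⟩ := exists_prime_sixtyfour hp hp2 h hcop' (hdvd A x hx) (hdvd B y hy) hL
  apply hv
  have : Fact q.Prime := ⟨hq⟩
  have hA0 := left_ne_zero_of_mul hx0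
  have hx1 := right_ne_zero_of_mul hx0
  have hB0 := left_ne_zero_of_mul hy0
  have hy1 := right_ne_zero_of_mul hy0
  have key : ∀ C w : ℤ, C ≠ 0 → w ≠ 0 → (∀ q : ℕ, q.Prime → (q : ℤ) ∣ C → q ∣ L) →
      p ∣ padicValInt q (C * w ^ p) := by
    intro C w hC hw hCL
    refine dvd_padicValInt_mul_pow_of_dvd hq hC hw ?_
    rw [padicValInt.eq_zero_of_not_dvd fun h => hqL (hCL q hq h)]
    exact dvd_zero p
  rw [padicValInt.mul (pow_ne_zero _ (mul_ne_zero hB0 (pow_ne_zero _ hy1)))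
    (mul_ne_zero hA0 (pow_ne_zero _ hx1)), padicValInt_pow_eq]
  exact dvd_add ((key B y hB0 hy1 hB).mul_left 2) (key A x hA0 hx1 hA)

theorem dvd_one_of_int {q : ℕ} (h : (q : ℤ) ∣ 1) : q ∣ 1 := by exact_mod_cast h

/-- **`xᵖ + 64 yᵖ = z²` has no solution in odd coprime `x`, `y`**, every odd prime `p`. -/
theorem pow_add_sixtyfour_ne_sq {p : ℕ} (hp : p.Prime) (hp2 : p ≠ 2) {x y : ℤ}
    (hxy : IsCoprime x y) (hx : Odd x) (hy : Odd y) (z : ℤ) : x ^ p + 64 * y ^ p ≠ z ^ 2 := by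
  intro h
  refine no_solution_sixtyfour (A := 1) (B := 1) (L := 1) hp hp2 (z := z) (by simpa using h)
    (by simpa using hxy) ?_ ?_ (by decide) (fun q _ h1 => dvd_one_of_int h1)
    (fun q _ h1 => dvd_one_of_int h1)
  · rw [one_mul, ← even_iff_two_dvd, Int.not_even_iff_odd]
    exact hx
  · rw [one_mul, ← even_iff_two_dvd, Int.not_even_iff_odd]
    exact hy

/-- **`xᵖ + 64 ℓᵐ yᵖ = z²`**, `ℓ ∈ {3, 5, 7, 13}`, `x`, `y` odd, `x` prime to `ℓ y`: no solution,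
every odd prime `p` and every `m`. (For `ℓ = 17` there is `1 + 64 · 17 = 33²`.) -/
theorem pow_add_sixtyfour_mul_ne_sq {p : ℕ} (hp : p.Prime) (hp2 : p ≠ 2) {ℓ : ℕ}
    (hℓ : ℓ = 3 ∨ ℓ = 5 ∨ ℓ = 7 ∨ ℓ = 13) {x y : ℤ} (hxy : IsCoprime x ((ℓ : ℤ) * y))
    (hx : Odd x) (hy : Odd y) (m : ℕ) (z : ℤ) :
    x ^ p + 64 * ((ℓ : ℤ) ^ m * y ^ p) ≠ z ^ 2 := by
  intro h
  have hℓo : Odd (ℓ : ℤ) := by rcases hℓ with rfl | rfl | rfl | rfl <;> decide
  have hL : ℓ ∈ zeroLevels := by rcases hℓ with rfl | rfl | rfl | rfl <;> decide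
  refine no_solution_sixtyfour (A := 1) (B := (ℓ : ℤ) ^ m) (L := ℓ) hp hp2 (z := z)
    (by simpa using h) ?_ ?_ ?_ hL (fun q _ h1 => (dvd_one_of_int h1).trans (one_dvd _))
    (fun q hq h1 => ?_)
  · rw [one_mul]
    exact (hxy.of_mul_right_left.pow_right).mul_right hxy.of_mul_right_right
  · rw [one_mul, ← even_iff_two_dvd, Int.not_even_iff_odd]
    exact hx
  · rw [← even_iff_two_dvd, Int.not_even_iff_odd]
    exact (hℓo.pow).mul hy
  · have h3 := (Nat.prime_iff_prime_int.mp hq).dvd_of_dvd_pow h1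
    exact_mod_cast h3

/-! ### `x² ± 64 = yⁿ` -/

theorem nat_table : ∀ X < 32, ∀ V < 33, V * V = X * X + 64 → X % 2 = 1 → X = 15 ∧ V = 17 := by
  decide

/-- `w² - x² = 64` with odd `x`. -/
theorem sq_sub_sq_eq {x w : ℤ} (hx : Odd x) (h : w ^ 2 - x ^ 2 = 64) :
    (x = 15 ∨ x = -15) ∧ (w = 17 ∨ w = -17) := by
  have h1 : w.natAbs * w.natAbs = x.natAbs * x.natAbs + 64 := by
    have h2 : ((w.natAbs * w.natAbs : ℕ) : ℤ) = ((x.natAbs * x.natAbs + 64 : ℕ) : ℤ) := by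
      push_cast
      rw [abs_mul_abs_self, abs_mul_abs_self]
      linarith
    exact_mod_cast h2
  have hlt : x.natAbs < w.natAbs := by
    by_contra hc
    push Not at hc
    have := Nat.mul_le_mul hc hc
    omega
  have hX : x.natAbs < 32 := by
    have h2 := Nat.mul_le_mul (Nat.succ_le_of_lt hlt) (Nat.succ_le_of_lt hlt)
    have h3 : (x.natAbs + 1) * (x.natAbs + 1) = x.natAbs * x.natAbs + 2 * x.natAbs + 1 := by ring
    rw [Nat.succ_eq_add_one, h3, h1] at h2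
    omega
  have hV : w.natAbs < 33 := by
    by_contra hc
    push Not at hc
    have h2 := Nat.mul_le_mul hc hc
    have h3 : x.natAbs ≤ 31 := by omega
    have h4 := Nat.mul_le_mul h3 h3
    omega
  have hodd : x.natAbs % 2 = 1 := Nat.odd_iff.mp (Int.natAbs_odd.mpr hx)
  obtain ⟨h5, h6⟩ := nat_table _ hX _ hV h1 hodd
  omega

/-- a power of an integer which is `± 15` or `± 17` is a first power -/
theorem eq_one_of_pow {y : ℤ} {k a : ℕ} (ha : a = 15 ∨ a = 17) (h : (y ^ k).natAbs = a)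
    (hk : k ≠ 0) : k = 1 := by
  rw [Int.natAbs_pow] at h
  by_contra hk1
  have h1 : y.natAbs ^ 2 ∣ a := h ▸ pow_dvd_pow _ (by omega)
  have h2 : y.natAbs ≤ 4 := by
    have h3 := Nat.le_of_dvd (by rcases ha with rfl | rfl <;> norm_num) h1
    by_contra hc
    push Not at hc
    have := Nat.mul_le_mul hc hc
    rw [sq] at h3
    omega
  have h3 : y.natAbs ≠ 1 := by
    intro h4
    rw [h4, one_pow] at h
    omega
  generalize y.natAbs = b at h1 h2 h3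
  interval_cases b <;> rcases ha with rfl | rfl <;> revert h1 <;> simp_all

/-- an odd number `≥ 3` has an odd prime factor -/
theorem exists_odd_prime {n : ℕ} (hn : 2 ≤ n) (ho : Odd n) : ∃ p m : ℕ, p.Prime ∧ p ≠ 2 ∧
    n = m * p := by
  obtain ⟨p, hp, m, hm⟩ := Nat.exists_prime_and_dvd (n := n) (by omega)
  refine ⟨p, m, hp, ?_, by rw [hm, mul_comm]⟩
  rintro rfl
  exact (Nat.not_even_iff_odd.mpr ho) ⟨m, by omega⟩

/-- **`x² + 64 = yⁿ`**, `x` odd, `n ≥ 2`: only `15² + 64 = 17²`. -/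
theorem sq_add_sixtyfour {x y : ℤ} {n : ℕ} (hn : 2 ≤ n) (hx : Odd x) (h : x ^ 2 + 64 = y ^ n) :
    n = 2 ∧ (x = 15 ∨ x = -15) ∧ (y = 17 ∨ y = -17) := by
  rcases Nat.even_or_odd n with ⟨k, hk⟩ | ho
  · have h1 : (y ^ k) ^ 2 - x ^ 2 = 64 := by
      rw [← pow_mul, show k * 2 = n by omega, ← h]
      ring
    obtain ⟨h2, h3⟩ := sq_sub_sq_eq hx h1
    have hk1 : k = 1 := eq_one_of_pow (Or.inr rfl) (by rcases h3 with h3 | h3 <;> rw [h3] <;> rfl)
      (by omega)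
    subst hk1
    rw [pow_one] at h3
    exact ⟨hk, h2, h3⟩
  · exfalso
    obtain ⟨p, m, hp, hp2, rfl⟩ := exists_odd_prime hn ho
    have hpo : Odd p := hp.odd_of_ne_two hp2
    have h1 : Odd ((y ^ m) ^ p) := by
      rw [← pow_mul, ← h]
      exact hx.pow.add_even ⟨32, rfl⟩
    refine pow_add_sixtyfour_ne_sq hp hp2 (x := y ^ m) (y := -1) isCoprime_one_right.neg_right
      ((Int.odd_pow' hp.ne_zero).mp h1) (by decide) x ?_
    rw [← pow_mul, ← h, hpo.neg_one_pow]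
    ring

/-- **`x² - 64 = yⁿ`**, `x` odd, `n ≥ 2`: only `17² - 64 = 15²`. -/
theorem sq_sub_sixtyfour {x y : ℤ} {n : ℕ} (hn : 2 ≤ n) (hx : Odd x) (h : x ^ 2 - 64 = y ^ n) :
    n = 2 ∧ (x = 17 ∨ x = -17) ∧ (y = 15 ∨ y = -15) := by
  have hyo : Odd (y ^ n) := by
    rw [← h]
    exact hx.pow.sub_even ⟨32, rfl⟩
  rcases Nat.even_or_odd n with ⟨k, hk⟩ | ho
  · have h1 : x ^ 2 - (y ^ k) ^ 2 = 64 := by
      rw [← pow_mul, show k * 2 = n by omega, ← h]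
      ring
    have hyk : Odd (y ^ k) := by
      have h4 : Odd ((y ^ k) ^ 2) := by rwa [← pow_mul, show k * 2 = n by omega]
      exact (Int.odd_pow' two_ne_zero).mp h4
    obtain ⟨h2, h3⟩ := sq_sub_sq_eq hyk h1
    have hk1 : k = 1 := eq_one_of_pow (Or.inl rfl) (by rcases h2 with h2 | h2 <;> rw [h2] <;> rfl)
      (by omega)
    subst hk1
    rw [pow_one] at h2
    exact ⟨hk, h3, h2⟩
  · exfalso
    obtain ⟨p, m, hp, hp2, rfl⟩ := exists_odd_prime hn ho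
    have h1 : Odd ((y ^ m) ^ p) := by rwa [← pow_mul]
    refine pow_add_sixtyfour_ne_sq hp hp2 (x := y ^ m) (y := 1) isCoprime_one_right
      ((Int.odd_pow' hp.ne_zero).mp h1) odd_one x ?_
    rw [← pow_mul, ← h, one_pow]
    ring

/-- **`z² ± 64 ℓᵐ ≠ xⁿ`**, `ℓ ∈ {3, 5, 7, 13}`, `x` prime to `2 ℓ`, `n` with an odd prime factor. -/
theorem sq_add_sixtyfour_mul_ne_pow {p : ℕ} (hp : p.Prime) (hp2 : p ≠ 2) {n : ℕ} (hn : p ∣ n)
    {ℓ : ℕ} (hℓ : ℓ = 3 ∨ ℓ = 5 ∨ ℓ = 7 ∨ ℓ = 13) {x : ℤ} (hx : Odd x)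
    (hxl : IsCoprime x (ℓ : ℤ)) (hn0 : n ≠ 0) (m : ℕ) (z : ℤ) :
    z ^ 2 + 64 * (ℓ : ℤ) ^ m ≠ x ^ n ∧ z ^ 2 - 64 * (ℓ : ℤ) ^ m ≠ x ^ n := by
  obtain ⟨k, rfl⟩ := hn
  have hpo : Odd p := hp.odd_of_ne_two hp2
  constructor
  · intro h
    refine pow_add_sixtyfour_mul_ne_sq hp hp2 hℓ (x := x ^ k) (y := -1) ?_ hx.pow (by decide) m z ?_
    · rw [mul_neg_one]
      exact hxl.pow_left.neg_right
    · rw [← pow_mul, mul_comm k p, ← h, hpo.neg_one_pow]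
      ring
  · intro h
    refine pow_add_sixtyfour_mul_ne_sq hp hp2 hℓ (x := x ^ k) (y := 1) ?_ hx.pow odd_one m z ?_
    · rw [mul_one]
      exact hxl.pow_left
    · rw [← pow_mul, mul_comm k p, ← h, one_pow]
      ring

end Fermat.Agent.Cor.MO

end
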