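import Fermat.Agent.Corollaries.MO.Prime
import Fermat.Agent.Corollaries.Eleven.Prime5
import Fermat.Agent.Corollaries.Mazur.Main

/-!
# Rational torsion points on elliptic curves of prime conductor

The theorem of Miyawaki (1973) for prime conductor: let `W` be semistable over `ℤ` with conductor the prime
`q`, and `P` a rational point of prime order `p`. Then

* `p = 2` and `q = 17` or `q = a² + 64` (Neumann, Setzer), or
* `p = 3` and `W` is `19a1`, `19a3`, `37b1` or `37b3`, or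
* `p = 5` and `W` is `11a1` or `11a3`.

In particular there is a non-trivial rational torsion point on some such curve if and only if
`q ∈ {11, 17, 19, 37}` or `q = a² + 64`.
-/

set_option autoImplicit false

noncomputable section

open WeierstrassCurve WeierstrassCurve.Affine

namespace Fermat.Agent.Cor.MO

open Fermat.Agent.Cor.Table
open Fermat.Agent.Cor.K1 (Gam Pts)

/-! ### Rational points and reducibility -/

/-- A rational point of order `p` gives a point over `ℚ̄` of order `p` fixed by Galois. -/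
theorem exists_fixed {E : WeierstrassCurve ℚ} {p : ℕ} {P : E.toAffine.Point}
    (hP : addOrderOf P = p) : ∃ Q : Pts E, addOrderOf Q = p ∧ ∀ σ : Gam, σ • Q = Q := by
  have h1 : ∀ (C : WeierstrassCurve ℚ), C = (E⁄ℚ) → ∀ P : C.toAffine.Point, addOrderOf P = p →
      ∃ Q : Pts E, addOrderOf Q = p ∧ ∀ σ : Gam, σ • Q = Q := by
    rintro C rfl P hP
    exact ⟨Point.baseChange ℚ (AlgebraicClosure ℚ) P, by rw [K1.addOrderOf_baseChange, hP],
      fun σ => K1.smul_baseChange E σ P⟩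
  exact h1 E E.map_id.symm P hP

variable {W : WeierstrassCurve ℤ}

/-- If there is a rational point of order `p`, then `W[p]` is reducible. -/
theorem not_irreducible_of_point (hΔ : W.Δ ≠ 0) {p : ℕ} (hp : p.Prime)
    {P : (W.map (Int.castRingHom ℚ)).toAffine.Point} (hP : addOrderOf P = p) :
    ¬ W.ModRepIsIrreducible p := by
  intro hirr
  obtain ⟨Q, hQ, hfix⟩ := exists_fixed hP
  refine Mazur.not_stable_of_irreducible hp hΔ hirr (AddSubgroup.zmultiples Q) ?_ ?_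
  · rw [Nat.card_zmultiples, hQ]
  · intro σ x hx
    obtain ⟨k, rfl⟩ := AddSubgroup.mem_zmultiples_iff.mp hx
    refine AddSubgroup.mem_zmultiples_iff.mpr ⟨k, ?_⟩
    have h1 : σ • (k • Q) = k • (σ • Q) :=
      map_zsmul (DistribSMul.toAddMonoidHom (Pts (W.map (Int.castRingHom ℚ))) σ) k Q
    rw [h1, hfix]

/-! ### Order two -/

theorem root_of_point_two {E : WeierstrassCurve ℚ} {P : E.toAffine.Point}
    (hP : addOrderOf P = 2) : ∃ x : ℚ, 4 * x ^ 3 + E.b₂ * x ^ 2 + 2 * E.b₄ * x + E.b₆ = 0 := by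
  have h2 : P + P = 0 := by
    rw [← two_nsmul, ← hP]; exact addOrderOf_nsmul_eq_zero P
  rcases P with _ | ⟨x, y, h⟩
  · exfalso
    have h3 : addOrderOf (0 : E.toAffine.Point) = 2 := hP
    rw [addOrderOf_zero] at h3
    omega
  · refine ⟨x, ?_⟩
    have h3 : Point.some x y h = - Point.some x y h := eq_neg_of_add_eq_zero_left h2
    rw [Point.neg_some] at h3
    have h4 : y = E.toAffine.negY x y := (Point.some.inj h3).2
    have heq := (equation_iff _ _).mp h.1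
    rw [negY] at h4
    rw [WeierstrassCurve.b₂, WeierstrassCurve.b₄, WeierstrassCurve.b₆]
    linear_combination (2 * y + E.a₁ * x + E.a₃) * h4 - 4 * heq

theorem root_of_point_two_int {P : (W.map (Int.castRingHom ℚ)).toAffine.Point}
    (hP : addOrderOf P = 2) :
    ∃ x : ℚ, 4 * x ^ 3 + W.b₂ * x ^ 2 + 2 * W.b₄ * x + W.b₆ = 0 := by
  obtain ⟨x, hx⟩ := root_of_point_two hP
  refine ⟨x, ?_⟩
  rw [WeierstrassCurve.map_b₂, WeierstrassCurve.map_b₄, WeierstrassCurve.map_b₆] at hx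
  simpa only [eq_intCast] using hx

/-! ### Order three -/

/-- A rational point of order three: the root of the quartic is a square. -/
theorem sq_of_point_three {V : WeierstrassCurve ℚ} {P : V.toAffine.Point}
    (hP : addOrderOf P = 3) :
    ∃ t : ℚ, (t ^ 2) ^ 4 - 6 * V.c₄ * (t ^ 2) ^ 2 - 8 * V.c₆ * t ^ 2 - 3 * V.c₄ ^ 2 = 0 := by
  have h3 : 3 • P = 0 := by
    have h := addOrderOf_nsmul_eq_zero P
    rwa [hP] at h
  rcases P with _ | ⟨x, y, h⟩
  · exfalso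
    have h4 : addOrderOf (0 : V.toAffine.Point) = 3 := hP
    rw [addOrderOf_zero] at h4
    omega
  have hψ := S51tor.three_torsion h h3
  simp only [S51tor.ψ₃] at hψ
  have heq := (equation_iff _ _).mp h.1
  -- `η = 2 y + a₁ x + a₃`
  obtain ⟨η, hη⟩ : ∃ η, η = 2 * y + V.a₁ * x + V.a₃ := ⟨_, rfl⟩
  have hη2 : η ^ 2 = 4 * x ^ 3 + V.b₂ * x ^ 2 + 2 * V.b₄ * x + V.b₆ := by
    rw [hη, WeierstrassCurve.b₂, WeierstrassCurve.b₄, WeierstrassCurve.b₆]
    linear_combination 4 * heq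
  have hη0 : η ≠ 0 := by
    intro h0
    have h4 : y = V.toAffine.negY x y := by
      rw [negY]
      rw [h0] at hη
      linear_combination -hη
    have h5 : Point.some x y h + Point.some x y h = 0 := Point.add_self_of_Y_eq h4
    have h6 : addOrderOf (Point.some x y h) ∣ 2 :=
      addOrderOf_dvd_of_nsmul_eq_zero (by rw [two_nsmul]; exact h5)
    rw [hP] at h6
    omega
  obtain ⟨X, hX⟩ : ∃ X, X = 12 * x + V.b₂ := ⟨_, rfl⟩
  have hXroot : X ^ 4 - 6 * V.c₄ * X ^ 2 - 8 * V.c₆ * X - 3 * V.c₄ ^ 2 = 0 := by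
    simp only [hX, WeierstrassCurve.c₄, WeierstrassCurve.c₆]
    linear_combination 6912 * hψ - 1728 * V.b_relation
  have hXη : 576 * X * η ^ 2 = (X ^ 2 - V.c₄) ^ 2 := by
    rw [hη2]
    have h432 : 432 * (4 * x ^ 3 + V.b₂ * x ^ 2 + 2 * V.b₄ * x + V.b₆) =
        X ^ 3 - 3 * V.c₄ * X - 2 * V.c₆ := by
      simp only [hX, WeierstrassCurve.c₄, WeierstrassCurve.c₆]; ring
    linear_combination (4 / 3 * X) * h432 + (1 / 3 : ℚ) * hXroot
  have hsq : X = ((X ^ 2 - V.c₄) / (24 * η)) ^ 2 := by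
    rw [div_pow, eq_div_iff (pow_ne_zero 2 (mul_ne_zero (by norm_num) hη0))]
    linear_combination hXη
  refine ⟨(X ^ 2 - V.c₄) / (24 * η), ?_⟩
  rw [← hsq]
  exact hXroot

theorem exists_sq_of_point_three {P : (W.map (Int.castRingHom ℚ)).toAffine.Point}
    (hP : addOrderOf P = 3) :
    ∃ s : ℤ, (s ^ 2) ^ 4 - 6 * W.c₄ * (s ^ 2) ^ 2 - 8 * W.c₆ * s ^ 2 - 3 * W.c₄ ^ 2 = 0 := by
  obtain ⟨t, ht⟩ := sq_of_point_three hP
  rw [WeierstrassCurve.map_c₄, WeierstrassCurve.map_c₆, eq_intCast, eq_intCast] at ht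
  obtain ⟨m, hm⟩ : ∃ m : ℤ, t ^ 2 = m := int_of_quartic (x := t ^ 2) (a := 0)
    (b := -6 * W.c₄) (c := -8 * W.c₆) (d := -3 * W.c₄ ^ 2) (by push_cast; linear_combination ht)
  have hsqm : IsSquare ((m : ℤ) : ℚ) := ⟨t, by rw [← hm]; ring⟩
  obtain ⟨s, hs⟩ := Rat.isSquare_intCast_iff.mp hsqm
  refine ⟨s, ?_⟩
  have h7 : ((s ^ 2 : ℤ) : ℚ) = t ^ 2 := by rw [hm, hs, pow_two]
  have h8 : (((s ^ 2) ^ 4 - 6 * W.c₄ * (s ^ 2) ^ 2 - 8 * W.c₆ * s ^ 2 - 3 * W.c₄ ^ 2 : ℤ) : ℚ) =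
      0 := by
    push_cast at h7 ⊢
    rw [h7]
    exact ht
  exact_mod_cast h8

theorem no_root_seven_one : ∀ X : ZMod 7, X ^ 3 - 192 * X ^ 2 - 184704 * X - 21307456 ≠ 0 := by
  decide

theorem no_root_seven_two : ∀ X : ZMod 7, X ^ 3 - 300 * X ^ 2 - 449520 * X - 80856064 ≠ 0 := by
  decide

/-- **Rational points of order three on curves with at most one bad prime.** -/
theorem exists_iso_of_point_three (hΔ : W.Δ ≠ 0) (hW : W.IsSemistableModel) {q : ℕ}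
    (hq : q.Prime) (hbad : ∀ ℓ : ℕ, ℓ.Prime → (ℓ : ℤ) ∣ W.Δ → ℓ = q)
    {P : (W.map (Int.castRingHom ℚ)).toAffine.Point} (hP : addOrderOf P = 3) :
    ∃ E : WeierstrassCurve ℤ, ((q = 19 ∧ (E = E19a1 ∨ E = E19a3)) ∨
        (q = 37 ∧ (E = E37b1 ∨ E = E37b3))) ∧
      ∃ r s t : ℤ, (⟨1, r, s, t⟩ : VariableChange ℤ) • W = E := by
  obtain ⟨s, hs⟩ := exists_sq_of_point_three hP
  rcases invariants_of_reducible_three hΔ hW hq hbad
      (not_irreducible_of_point hΔ Nat.prime_three hP) with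
    ⟨h, ⟨h4, h6, -⟩ | ⟨h4, h6, -⟩ | ⟨h4, h6, -⟩⟩ | ⟨h, ⟨h4, h6, -⟩ | ⟨h4, h6, -⟩ | ⟨h4, h6, -⟩⟩
  · exact ⟨E19a3, Or.inl ⟨h, Or.inr rfl⟩,
      exists_variableChange (h4.trans E19a3_inv.1.symm) (h6.trans E19a3_inv.2.1.symm)⟩
  · exact ⟨E19a1, Or.inl ⟨h, Or.inl rfl⟩,
      exists_variableChange (h4.trans E19a1_inv.1.symm) (h6.trans E19a1_inv.2.1.symm)⟩
  · exfalso
    rw [h4, h6] at hs
    have h1 : (s ^ 2 + 192) * ((s ^ 2) ^ 3 - 192 * (s ^ 2) ^ 2 - 184704 * s ^ 2 - 21307456) = 0 := by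
      linear_combination hs
    rcases mul_eq_zero.mp h1 with h2 | h2
    · nlinarith [sq_nonneg s]
    · refine no_root_seven_one ((s : ZMod 7) ^ 2) ?_
      have h3 := congrArg (Int.cast : ℤ → ZMod 7) h2
      push_cast at h3
      exact h3
  · exact ⟨E37b3, Or.inr ⟨h, Or.inr rfl⟩,
      exists_variableChange (h4.trans E37b3_inv.1.symm) (h6.trans E37b3_inv.2.1.symm)⟩
  · exact ⟨E37b1, Or.inr ⟨h, Or.inl rfl⟩,
      exists_variableChange (h4.trans E37b1_inv.1.symm) (h6.trans E37b1_inv.2.1.symm)⟩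
  · exfalso
    rw [h4, h6] at hs
    have h1 : (s ^ 2 + 300) * ((s ^ 2) ^ 3 - 300 * (s ^ 2) ^ 2 - 449520 * s ^ 2 - 80856064) = 0 := by
      linear_combination hs
    rcases mul_eq_zero.mp h1 with h2 | h2
    · nlinarith [sq_nonneg s]
    · refine no_root_seven_two ((s : ZMod 7) ^ 2) ?_
      have h3 := congrArg (Int.cast : ℤ → ZMod 7) h2
      push_cast at h3
      exact h3

/-! ### Order five -/

/-- **Rational points of order five on curves with at most one bad prime.** -/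
theorem exists_iso_of_point_five (hΔ : W.Δ ≠ 0) (hW : W.IsSemistableModel) {q : ℕ}
    (hq : q.Prime) (hbad : ∀ ℓ : ℕ, ℓ.Prime → (ℓ : ℤ) ∣ W.Δ → ℓ = q)
    {P : (W.map (Int.castRingHom ℚ)).toAffine.Point} (hP : addOrderOf P = 5) :
    q = 11 ∧ ∃ E : WeierstrassCurve ℤ, (E = E11a1 ∨ E = E11a3) ∧
      ∃ r s t : ℤ, (⟨1, r, s, t⟩ : VariableChange ℤ) • W = E := by
  obtain ⟨h, ⟨h4, h6, -⟩ | ⟨h4, h6, hD⟩ | ⟨h4, h6, -⟩⟩ := invariants_of_reducible_five hΔ hW hq hbad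
    (not_irreducible_of_point hΔ Nat.prime_five hP)
  · exact ⟨h, E11a1, Or.inl rfl,
      exists_variableChange (h4.trans E11a1_c₄.symm) (h6.trans E11a1_c₆.symm)⟩
  · exfalso
    obtain ⟨Q, hQ, hfix⟩ := exists_fixed hP
    obtain ⟨-, A, hA | hA, hC⟩ := Eleven.eq_eleven_of_point hΔ hW hq hbad Q hQ hfix
    · refine not_exists_variableChange (A := W) (B := A) ?_ hC
      rw [hA, h4, hD, Eleven.A1_c₄, Eleven.A1_Δ]
      norm_num
    · refine not_exists_variableChange (A := W) (B := A) ?_ hC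
      rw [hA, h4, hD, Eleven.A3_c₄, Eleven.A3_Δ]
      norm_num
  · exact ⟨h, E11a3, Or.inr rfl,
      exists_variableChange (h4.trans E11a3_c₄.symm) (h6.trans E11a3_c₆.symm)⟩

/-! ### The theorem of Miyawaki for prime conductor -/

/-- **Rational points of prime order on curves of prime conductor**, with the curves. -/
theorem exists_iso_of_point (hΔ : W.Δ ≠ 0) (hW : W.IsSemistableModel) {q : ℕ} (hq : q.Prime)
    (hN : W.conductorLevel = q) {p : ℕ} (hp : p.Prime)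
    {P : (W.map (Int.castRingHom ℚ)).toAffine.Point} (hP : addOrderOf P = p) :
    ∃ E : WeierstrassCurve ℤ,
      ((p = 2 ∧ q = 17 ∧ (E = E17a1 ∨ E = E17a2 ∨ E = E17a3 ∨ E = E17a4)) ∨
        (p = 2 ∧ ∃ k : ℤ, (4 * k + 1) ^ 2 + 64 = (q : ℤ) ∧ (E = SN1 k ∨ E = SN2 k)) ∨
        (p = 3 ∧ q = 19 ∧ (E = E19a1 ∨ E = E19a3)) ∨ (p = 3 ∧ q = 37 ∧ (E = E37b1 ∨ E = E37b3)) ∨
        (p = 5 ∧ q = 11 ∧ (E = E11a1 ∨ E = E11a3))) ∧
      ∃ r s t : ℤ, (⟨1, r, s, t⟩ : VariableChange ℤ) • W = E := by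
  have hbad := eq_of_conductorLevel hΔ hq hN
  have hred := not_irreducible_of_point hΔ hp hP
  have h5 := le_five_of_reducible hΔ hW (isGoodPrimeFor_two hΔ hW hq hbad) hp hred
  have h2 := hp.two_le
  interval_cases p
  · obtain ⟨x, hx⟩ := root_of_point_two_int hP
    obtain ⟨E, h | h, hiso⟩ := setzer_neumann hΔ hW hq hN hx
    · exact ⟨E, Or.inl ⟨rfl, h⟩, hiso⟩
    · exact ⟨E, Or.inr (Or.inl ⟨rfl, h⟩), hiso⟩
  · obtain ⟨E, h | h, hiso⟩ := exists_iso_of_point_three hΔ hW hq hbad hP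
    · exact ⟨E, Or.inr (Or.inr (Or.inl ⟨rfl, h⟩)), hiso⟩
    · exact ⟨E, Or.inr (Or.inr (Or.inr (Or.inl ⟨rfl, h⟩))), hiso⟩
  · exact absurd hp (by norm_num)
  · obtain ⟨h, E, hE, hiso⟩ := exists_iso_of_point_five hΔ hW hq hbad hP
    exact ⟨E, Or.inr (Or.inr (Or.inr (Or.inr ⟨rfl, h, hE⟩))), hiso⟩

/-- **Miyawaki** (1973): the prime conductors of curves with a rational point of prime order. -/
theorem miyawaki (hΔ : W.Δ ≠ 0) (hW : W.IsSemistableModel) {q : ℕ} (hq : q.Prime)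
    (hN : W.conductorLevel = q) {p : ℕ} (hp : p.Prime)
    {P : (W.map (Int.castRingHom ℚ)).toAffine.Point} (hP : addOrderOf P = p) :
    (p = 2 ∧ (q = 17 ∨ ∃ a : ℤ, (q : ℤ) = a ^ 2 + 64)) ∨ (p = 3 ∧ (q = 19 ∨ q = 37)) ∨
      (p = 5 ∧ q = 11) := by
  obtain ⟨E, h, -⟩ := exists_iso_of_point hΔ hW hq hN hp hP
  rcases h with ⟨h1, h2, -⟩ | ⟨h1, k, hk, -⟩ | ⟨h1, h2, -⟩ | ⟨h1, h2, -⟩ | ⟨h1, h2, -⟩
  · exact Or.inl ⟨h1, Or.inl h2⟩
  · exact Or.inl ⟨h1, Or.inr ⟨4 * k + 1, hk.symm⟩⟩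
  · exact Or.inr (Or.inl ⟨h1, Or.inl h2⟩)
  · exact Or.inr (Or.inl ⟨h1, Or.inr h2⟩)
  · exact Or.inr (Or.inr ⟨h1, h2⟩)

/-- A point `≠ 0` of finite order has a multiple of prime order. -/
theorem exists_prime_order {G : Type*} [AddGroup G] {P : G} (h0 : P ≠ 0)
    (hP : IsOfFinAddOrder P) : ∃ p : ℕ, p.Prime ∧ ∃ Q : G, addOrderOf Q = p := by
  have h1 : addOrderOf P ≠ 1 := fun h => h0 (AddMonoid.addOrderOf_eq_one_iff.mp h)
  obtain ⟨p, hp, m, hm⟩ := Nat.exists_prime_and_dvd h1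
  have hpos : 0 < addOrderOf P := hP.addOrderOf_pos
  have hm0 : m ≠ 0 := by
    rintro rfl
    rw [mul_zero] at hm
    omega
  refine ⟨p, hp, m • P, ?_⟩
  rw [addOrderOf_nsmul_of_dvd hm0 ⟨p, by rw [hm, mul_comm]⟩, hm,
    Nat.mul_div_cancel _ (Nat.pos_of_ne_zero hm0)]

/-- **Trivial torsion**: if the prime `q` is not `11`, `17`, `19`, `37` and not of the form `a² + 64`, a
semistable elliptic curve over `ℚ` of conductor `q` has no rational point of finite order besides `0`. -/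
theorem torsion_eq_zero (hΔ : W.Δ ≠ 0) (hW : W.IsSemistableModel) {q : ℕ} (hq : q.Prime)
    (hN : W.conductorLevel = q) (h11 : q ≠ 11) (h17 : q ≠ 17) (h19 : q ≠ 19) (h37 : q ≠ 37)
    (hsq : ∀ a : ℤ, (q : ℤ) ≠ a ^ 2 + 64) {P : (W.map (Int.castRingHom ℚ)).toAffine.Point}
    (hP : IsOfFinAddOrder P) : P = 0 := by
  by_contra h0
  obtain ⟨p, hp, Q, hQ⟩ := exists_prime_order h0 hP
  rcases miyawaki hΔ hW hq hN hp hQ with ⟨-, h | ⟨a, h⟩⟩ | ⟨-, h | h⟩ | ⟨-, h⟩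
  · exact h17 h
  · exact hsq a h
  · exact h19 h
  · exact h37 h
  · exact h11 h

end Fermat.Agent.Cor.MO
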