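import Fermat.Agent.Corollaries.MO.TorsionIff
import Fermat.Agent.Corollaries.LN.Red
import Fermat.Agent.Corollaries.InvGal.Curve37
import Fermat.Agent.S41.VarChange

/-!
# The order of the torsion subgroup of an elliptic curve of prime conductor

Miyawaki's theorem in full for prime conductor: for `W` semistable over `ℤ` with conductor a prime `q` the
torsion subgroup of `W(ℚ)` has order `1`, or `2` (and `q = 17` or `q = a² + 64`), or `3` (and `q = 19` or
`q = 37`), or `4` (and `q = 17`), or `5` (and `q = 11`).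
-/

set_option autoImplicit false

noncomputable section

open WeierstrassCurve WeierstrassCurve.Affine

namespace Fermat.Agent.Cor.MO

open Fermat.Agent.Cor.Table

/-- The rational points of a curve over `ℤ`. -/
abbrev TQ (W : WeierstrassCurve ℤ) : Type := (W.map (Int.castRingHom ℚ)).toAffine.Point

/-! ### Transport and counting -/

theorem card_torsion_congr {A B : Type*} [AddCommGroup A] [AddCommGroup B] (e : A ≃+ B) :
    Nat.card (AddCommGroup.torsion A) = Nat.card (AddCommGroup.torsion B) := by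
  refine Nat.card_congr (e.toEquiv.subtypeEquiv fun a => ?_)
  change IsOfFinAddOrder a ↔ IsOfFinAddOrder (e a)
  rw [← addOrderOf_pos_iff, ← addOrderOf_pos_iff]
  have h1 : addOrderOf (e a) = addOrderOf a := addOrderOf_injective e.toAddMonoidHom e.injective a
  rw [h1]

theorem exists_pointEquiv {W E : WeierstrassCurve ℤ} (hΔ : W.Δ ≠ 0) {r s t : ℤ}
    (h : (⟨1, r, s, t⟩ : VariableChange ℤ) • W = E) : Nonempty (TQ E ≃+ TQ W) := by
  have hΔ' : (W.map (Int.castRingHom ℚ)).Δ ≠ 0 := by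
    rw [WeierstrassCurve.map_Δ, eq_intCast]
    exact_mod_cast hΔ
  have hV : ((⟨1, r, s, t⟩ : VariableChange ℤ).map (Int.castRingHom ℚ)) •
      W.map (Int.castRingHom ℚ) = E.map (Int.castRingHom ℚ) := by
    rw [WeierstrassCurve.map_variableChange, h]
  obtain ⟨e, -⟩ := S41vc.exists_equiv _ _ hΔ' hV
  exact ⟨e⟩

theorem card_torsion_of_iso {W E : WeierstrassCurve ℤ} (hΔ : W.Δ ≠ 0) {r s t : ℤ}
    (h : (⟨1, r, s, t⟩ : VariableChange ℤ) • W = E) :
    Nat.card (AddCommGroup.torsion (TQ W)) = Nat.card (AddCommGroup.torsion (TQ E)) := by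
  obtain ⟨e⟩ := exists_pointEquiv hΔ h
  exact (card_torsion_congr e).symm

theorem card_torsion_dvd_cnt {E : WeierstrassCurve ℤ} {ℓ : ℕ} [NeZero ℓ] (hℓ : ℓ.Prime)
    (hℓ2 : ℓ ≠ 2) (hgood : ¬ (ℓ : ℤ) ∣ E.Δ) {n : ℕ} (hn : InvGal.cnt E ℓ + 1 = n) :
    Nat.card (AddCommGroup.torsion (TQ E)) ∣ n := by
  have hF : Fact ℓ.Prime := ⟨hℓ⟩
  have h1 := LN.card_torsion_dvd_apOfModel (W := E) hℓ2 hgood
  rw [InvGal.apOfModel_eq E hℓ hgood] at h1
  have h2 : (ℓ : ℤ) + 1 - (ℓ - InvGal.cnt E ℓ) = (n : ℤ) := by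
    rw [← hn]
    push_cast
    ring
  rw [h2] at h1
  exact_mod_cast h1

/-! ### Points of order two and four -/

/-- The abscissa of a double. -/
theorem x_double {E : WeierstrassCurve ℚ} {x y x' y' : ℚ} {h : E.toAffine.Nonsingular x y}
    {h' : E.toAffine.Nonsingular x' y'}
    (hadd : Point.some x y h + Point.some x y h = Point.some x' y' h') :
    x' * (4 * x ^ 3 + E.b₂ * x ^ 2 + 2 * E.b₄ * x + E.b₆) =
      x ^ 4 - E.b₄ * x ^ 2 - 2 * E.b₆ * x - E.b₈ := by
  have heq := (equation_iff _ _).mp h.1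
  by_cases hy : y = E.toAffine.negY x y
  · rw [Point.add_self_of_Y_eq hy] at hadd
    exact absurd hadd.symm (Point.some_ne_zero _)
  · rw [Point.add_self_of_Y_ne hy] at hadd
    have hx' := (Point.some.inj hadd).1
    rw [slope_of_Y_ne rfl hy, addX] at hx'
    have hD : y - E.toAffine.negY x y ≠ 0 := sub_ne_zero.mpr hy
    have hD2 : (y - E.toAffine.negY x y) ^ 2 = 4 * x ^ 3 + E.b₂ * x ^ 2 + 2 * E.b₄ * x + E.b₆ := by
      rw [negY, b₂, b₄, b₆]
      linear_combination 4 * heq
    rw [← hx', ← hD2]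
    field_simp
    rw [negY, b₄, b₆, b₈]
    linear_combination (-(E.a₁ ^ 2 + 4 * E.a₂ + 8 * x)) * heq

/-- A point of order two. -/
theorem eq_negY_of_two {E : WeierstrassCurve ℚ} {x y : ℚ} {h : E.toAffine.Nonsingular x y}
    (h2 : addOrderOf (Point.some x y h) = 2) :
    2 * y + E.a₁ * x + E.a₃ = 0 ∧ 4 * x ^ 3 + E.b₂ * x ^ 2 + 2 * E.b₄ * x + E.b₆ = 0 := by
  have h3 : Point.some x y h + Point.some x y h = 0 := by
    rw [← two_nsmul, ← h2]; exact addOrderOf_nsmul_eq_zero _
  have h4 := eq_neg_of_add_eq_zero_left h3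
  rw [Point.neg_some] at h4
  have h5 : y = E.toAffine.negY x y := (Point.some.inj h4).2
  have heq := (equation_iff _ _).mp h.1
  rw [negY] at h5
  have h6 : 2 * y + E.a₁ * x + E.a₃ = 0 := by linear_combination h5
  refine ⟨h6, ?_⟩
  rw [b₂, b₄, b₆]
  linear_combination (2 * y + E.a₁ * x + E.a₃) * h6 - 4 * heq

/-- If the polynomial of two-torsion has only one root there is at most one point of order two. -/
theorem eq_of_two {E : WeierstrassCurve ℚ} {x₀ : ℚ}
    (hroot : ∀ x : ℚ, 4 * x ^ 3 + E.b₂ * x ^ 2 + 2 * E.b₄ * x + E.b₆ = 0 → x = x₀)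
    {P Q : E.toAffine.Point} (hP : addOrderOf P = 2) (hQ : addOrderOf Q = 2) : P = Q := by
  rcases P with _ | ⟨x, y, h⟩
  · exfalso
    have h4 : addOrderOf (0 : E.toAffine.Point) = 2 := hP
    rw [addOrderOf_zero] at h4
    omega
  rcases Q with _ | ⟨x', y', h'⟩
  · exfalso
    have h4 : addOrderOf (0 : E.toAffine.Point) = 2 := hQ
    rw [addOrderOf_zero] at h4
    omega
  obtain ⟨h1, h2⟩ := eq_negY_of_two hP
  obtain ⟨h3, h4⟩ := eq_negY_of_two hQ
  have hx := hroot x h2
  have hx' := hroot x' h4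
  subst hx
  subst hx'
  have hy : y = y' := by linarith
  subst hy
  rfl

/-- No point of order four. -/
theorem addOrderOf_ne_four {E : WeierstrassCurve ℚ} {x₀ : ℚ}
    (hroot : ∀ x : ℚ, 4 * x ^ 3 + E.b₂ * x ^ 2 + 2 * E.b₄ * x + E.b₆ = 0 → x = x₀)
    (hno : ∀ x : ℚ, x₀ * (4 * x ^ 3 + E.b₂ * x ^ 2 + 2 * E.b₄ * x + E.b₆) ≠
      x ^ 4 - E.b₄ * x ^ 2 - 2 * E.b₆ * x - E.b₈) (P : E.toAffine.Point) : addOrderOf P ≠ 4 := by
  intro h4
  have h2 : addOrderOf (P + P) = 2 := by
    rw [← two_nsmul, addOrderOf_nsmul' P (by norm_num), h4]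
    decide
  rcases P with _ | ⟨x, y, h⟩
  · have h5 : addOrderOf (0 : E.toAffine.Point) = 4 := h4
    rw [addOrderOf_zero] at h5
    omega
  rcases hadd : Point.some x y h + Point.some x y h with _ | ⟨x', y', h'⟩
  · rw [hadd] at h2
    have h5 : addOrderOf (0 : E.toAffine.Point) = 2 := h2
    rw [addOrderOf_zero] at h5
    omega
  · rw [hadd] at h2
    have hx' := hroot x' (eq_negY_of_two h2).2
    have h6 := x_double hadd
    rw [hx'] at h6
    exact hno x h6

/-- A torsion group with exactly one element of prime order, of order two, and no element of order four has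
order two. -/
theorem card_torsion_eq_two {G : Type*} [AddCommGroup G] {t : G} (ht : addOrderOf t = 2)
    (h2 : ∀ x : G, addOrderOf x = 2 → x = t) (h4 : ∀ x : G, addOrderOf x ≠ 4)
    (hp : ∀ (p : ℕ) (x : G), p.Prime → addOrderOf x = p → p = 2) :
    Nat.card (AddCommGroup.torsion G) = 2 := by
  have hfin : IsOfFinAddOrder t := addOrderOf_pos_iff.mp (by rw [ht]; norm_num)
  have hkey : ∀ x : G, IsOfFinAddOrder x → x = 0 ∨ x = t := by
    intro x hx
    by_cases h0 : x = 0
    · exact Or.inl h0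
    right
    have hpos := hx.addOrderOf_pos
    have h1 : addOrderOf x ≠ 1 := fun h => h0 (AddMonoid.addOrderOf_eq_one_iff.mp h)
    have hdiv : ∀ d : ℕ, d ∣ addOrderOf x → ∃ y : G, addOrderOf y = d := by
      rintro d ⟨m, hm⟩
      have hm0 : m ≠ 0 := by
        rintro rfl
        rw [mul_zero] at hm
        omega
      refine ⟨m • x, ?_⟩
      rw [addOrderOf_nsmul_of_dvd hm0 ⟨d, by rw [hm, mul_comm]⟩, hm,
        Nat.mul_div_cancel _ (Nat.pos_of_ne_zero hm0)]
    -- the order is a power of two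
    have hpow : addOrderOf x = 2 ^ (addOrderOf x).primeFactorsList.length := by
      apply Nat.eq_prime_pow_of_unique_prime_dvd hpos.ne'
      intro d hd hdx
      obtain ⟨y, hy⟩ := hdiv d hdx
      exact hp d y hd hy
    apply h2
    generalize (addOrderOf x).primeFactorsList.length = m at hpow
    rcases m with _ | _ | m
    · exact absurd hpow h1
    · simpa using hpow
    · exfalso
      obtain ⟨y, hy⟩ := hdiv 4 (by rw [hpow]; exact ⟨2 ^ m, by ring⟩)
      exact h4 y hy
  rw [Nat.card_eq_two_iff]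
  have ht0 : t ≠ 0 := by
    rintro rfl
    rw [addOrderOf_zero] at ht
    omega
  refine ⟨⟨0, (AddCommGroup.torsion G).zero_mem⟩, ⟨t, hfin⟩, ?_, ?_⟩
  · intro h
    exact ht0 (congrArg Subtype.val h).symm
  · rw [Set.eq_univ_iff_forall]
    rintro ⟨x, hx⟩
    rcases hkey x hx with h | h
    · left; exact Subtype.ext h
    · right; exact Subtype.ext h

/-! ### The Setzer - Neumann curves -/

theorem not_isSquare_of_prime {q : ℕ} (hq : q.Prime) (x : ℚ) : x ^ 2 ≠ (q : ℚ) := by
  intro h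
  have h1 : IsSquare ((q : ℕ) : ℚ) := ⟨x, by rw [← h, pow_two]⟩
  rw [Rat.isSquare_natCast_iff] at h1
  exact (Nat.Prime.prime hq).irreducible.not_isSquare h1

theorem SN1_single {k : ℤ} {q : ℕ} (hq : q.Prime) (h : (4 * k + 1) ^ 2 + 64 = (q : ℤ)) (x : ℚ)
    (hx : 4 * x ^ 3 + ((SN1 k).map (Int.castRingHom ℚ)).b₂ * x ^ 2 +
      2 * ((SN1 k).map (Int.castRingHom ℚ)).b₄ * x + ((SN1 k).map (Int.castRingHom ℚ)).b₆ = 0) :
    x = 0 := by
  have hq' : ((4 * k + 1 : ℚ)) ^ 2 + 64 = (q : ℚ) := by exact_mod_cast h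
  simp only [SN1, b₂, b₄, b₆, WeierstrassCurve.map, eq_intCast] at hx
  push_cast at hx
  have h1 : x * (4 * x ^ 2 + (4 * k + 1) * x - 4) = 0 := by linear_combination hx
  rcases mul_eq_zero.mp h1 with h2 | h2
  · exact h2
  · exfalso
    apply not_isSquare_of_prime hq (8 * x + (4 * k + 1))
    rw [← hq']
    linear_combination 16 * h2

theorem SN2_single {k : ℤ} (x : ℚ)
    (hx : 4 * x ^ 3 + ((SN2 k).map (Int.castRingHom ℚ)).b₂ * x ^ 2 +
      2 * ((SN2 k).map (Int.castRingHom ℚ)).b₄ * x + ((SN2 k).map (Int.castRingHom ℚ)).b₆ = 0) :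
    x = -(4 * k + 1) / 4 := by
  simp only [SN2, b₂, b₄, b₆, WeierstrassCurve.map, eq_intCast] at hx
  push_cast at hx
  have h1 : (4 * x + (4 * k + 1)) * (x ^ 2 + 4) = 0 := by linear_combination hx
  rcases mul_eq_zero.mp h1 with h2 | h2
  · linarith
  · exfalso
    nlinarith [sq_nonneg x]

theorem SN1_card {k : ℤ} {q : ℕ} (hq : q.Prime) (h : (4 * k + 1) ^ 2 + 64 = (q : ℤ))
    (hp : ∀ (p : ℕ) (x : TQ (SN1 k)), p.Prime → addOrderOf x = p → p = 2) {t : TQ (SN1 k)}
    (ht : addOrderOf t = 2) : Nat.card (AddCommGroup.torsion (TQ (SN1 k))) = 2 := by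
  refine card_torsion_eq_two ht (fun x hx => eq_of_two (SN1_single hq h) hx ht) ?_ hp
  refine addOrderOf_ne_four (SN1_single hq h) fun x hx => ?_
  simp only [SN1, b₂, b₄, b₆, b₈, WeierstrassCurve.map, eq_intCast] at hx
  push_cast at hx
  have h1 : (x ^ 2 + 1) ^ 2 = 0 := by linear_combination -hx
  nlinarith [sq_nonneg x]

theorem SN2_card {k : ℤ} {q : ℕ} (hq : q.Prime) (h : (4 * k + 1) ^ 2 + 64 = (q : ℤ))
    (hp : ∀ (p : ℕ) (x : TQ (SN2 k)), p.Prime → addOrderOf x = p → p = 2) {t : TQ (SN2 k)}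
    (ht : addOrderOf t = 2) : Nat.card (AddCommGroup.torsion (TQ (SN2 k))) = 2 := by
  refine card_torsion_eq_two ht (fun x hx => eq_of_two SN2_single hx ht) ?_ hp
  refine addOrderOf_ne_four SN2_single fun x hx => ?_
  have hq' : ((4 * k + 1 : ℚ)) ^ 2 + 64 = (q : ℚ) := by exact_mod_cast h
  simp only [SN2, b₂, b₄, b₆, b₈, WeierstrassCurve.map, eq_intCast] at hx
  push_cast at hx
  have h1 : (2 * x ^ 2 + (4 * k + 1) * x - 8) ^ 2 = 0 := by linear_combination -4 * hx
  have h2 : 2 * x ^ 2 + (4 * k + 1) * x - 8 = 0 := by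
    exact pow_eq_zero_iff (n := 2) (by norm_num) |>.mp h1
  apply not_isSquare_of_prime hq (4 * x + (4 * k + 1))
  rw [← hq']
  linear_combination 8 * h2

/-! ### The theorem -/

variable {W : WeierstrassCurve ℤ}

/-- **The order of the torsion subgroup of a semistable elliptic curve over `ℚ` of prime conductor.** -/
theorem card_torsion_of_prime (hΔ : W.Δ ≠ 0) (hW : W.IsSemistableModel) {q : ℕ} (hq : q.Prime)
    (hN : W.conductorLevel = q) :
    Nat.card (AddCommGroup.torsion (TQ W)) = 1 ∨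
      (Nat.card (AddCommGroup.torsion (TQ W)) = 2 ∧ (q = 17 ∨ ∃ a : ℤ, (q : ℤ) = a ^ 2 + 64)) ∨
      (Nat.card (AddCommGroup.torsion (TQ W)) = 3 ∧ (q = 19 ∨ q = 37)) ∨
      (Nat.card (AddCommGroup.torsion (TQ W)) = 4 ∧ q = 17) ∨
      (Nat.card (AddCommGroup.torsion (TQ W)) = 5 ∧ q = 11) := by
  have hfin : Finite (AddCommGroup.torsion (TQ W)) := LN.finite_torsion hΔ
  by_cases htriv : ∀ P : TQ W, IsOfFinAddOrder P → P = 0
  · left
    rw [Nat.card_eq_one_iff_unique]
    refine ⟨⟨fun x y => Subtype.ext ?_⟩, ⟨0⟩⟩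
    rw [htriv x.1 x.2, htriv y.1 y.2]
  push Not at htriv
  obtain ⟨P, hP, hP0⟩ := htriv
  have hne : Nat.card (AddCommGroup.torsion (TQ W)) ≠ 1 := by
    intro h
    rw [Nat.card_eq_one_iff_unique] at h
    obtain ⟨hs, -⟩ := h
    have h1 := Subsingleton.elim (⟨P, hP⟩ : AddCommGroup.torsion (TQ W)) 0
    exact hP0 (congrArg Subtype.val h1)
  obtain ⟨p, hp, Q, hQ⟩ := exists_prime_order hP0 hP
  have hprime : ∀ n : ℕ, n.Prime → Nat.card (AddCommGroup.torsion (TQ W)) ∣ n →
      Nat.card (AddCommGroup.torsion (TQ W)) = n := fun n hn hd =>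
    (hn.eq_one_or_self_of_dvd _ hd).resolve_left hne
  obtain ⟨E, h, r, s, t, hi⟩ := exists_iso_of_point hΔ hW hq hN hp hQ
  have hcard := card_torsion_of_iso hΔ hi
  rcases h with ⟨-, hq17, hE⟩ | ⟨hp2, k, hk, hE⟩ | ⟨-, hq19, hE⟩ | ⟨-, hq37, hE⟩ | ⟨-, hq11, hE⟩
  · have hd : Nat.card (AddCommGroup.torsion (TQ W)) ∣ 4 := by
      rw [hcard]
      rcases hE with rfl | rfl | rfl | rfl
      · exact card_torsion_dvd_cnt (ℓ := 3) Nat.prime_three (by decide) (by decide)
          (by decide +kernel)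
      · exact card_torsion_dvd_cnt (ℓ := 3) Nat.prime_three (by decide) (by decide)
          (by decide +kernel)
      · exact card_torsion_dvd_cnt (ℓ := 3) Nat.prime_three (by decide) (by decide)
          (by decide +kernel)
      · exact card_torsion_dvd_cnt (ℓ := 3) Nat.prime_three (by decide) (by decide)
          (by decide +kernel)
    have hle := Nat.le_of_dvd (by norm_num) hd
    have hc : Nat.card (AddCommGroup.torsion (TQ W)) = 2 ∨
        Nat.card (AddCommGroup.torsion (TQ W)) = 4 := by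
      generalize Nat.card (AddCommGroup.torsion (TQ W)) = c at hd hne hle
      interval_cases c <;> revert hd hne <;> decide
    rcases hc with hc | hc
    · exact Or.inr (Or.inl ⟨hc, Or.inl hq17⟩)
    · exact Or.inr (Or.inr (Or.inr (Or.inl ⟨hc, hq17⟩)))
  · refine Or.inr (Or.inl ⟨?_, Or.inr ⟨4 * k + 1, hk.symm⟩⟩)
    subst hp2
    obtain ⟨e⟩ := exists_pointEquiv hΔ hi
    have hord : ∀ x : TQ E, addOrderOf (e x) = addOrderOf x := fun x =>
      addOrderOf_injective e.toAddMonoidHom e.injective x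
    have hq65 : 64 < q := by
      have h1 : (64 : ℤ) < q := by
        rw [← hk]
        have h2 : (4 * k + 1) ^ 2 ≠ 0 := pow_ne_zero 2 (by omega)
        have h3 := lt_of_le_of_ne (sq_nonneg (4 * k + 1)) (Ne.symm h2)
        linarith
      exact_mod_cast h1
    have hpall : ∀ (p : ℕ) (x : TQ E), p.Prime → addOrderOf x = p → p = 2 := by
      intro p' x hp' hx
      rcases miyawaki hΔ hW hq hN hp' ((hord x).trans hx) with ⟨h1, -⟩ | ⟨-, h1⟩ | ⟨-, h1⟩
      · exact h1
      · omega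
      · omega
    have ht : addOrderOf (e.symm Q) = 2 := by
      rw [← hord, e.apply_symm_apply, hQ]
    rw [hcard]
    rcases hE with rfl | rfl
    · exact SN1_card hq hk hpall ht
    · exact SN2_card hq hk hpall ht
  · refine Or.inr (Or.inr (Or.inl ⟨hprime 3 Nat.prime_three ?_, Or.inl hq19⟩))
    rw [hcard]
    rcases hE with rfl | rfl
    · exact card_torsion_dvd_cnt (ℓ := 5) Nat.prime_five (by decide) (by decide)
          (by decide +kernel)
    · exact card_torsion_dvd_cnt (ℓ := 5) Nat.prime_five (by decide) (by decide)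
          (by decide +kernel)
  · refine Or.inr (Or.inr (Or.inl ⟨hprime 3 Nat.prime_three ?_, Or.inr hq37⟩))
    rw [hcard]
    rcases hE with rfl | rfl
    · exact card_torsion_dvd_cnt (ℓ := 3) Nat.prime_three (by decide) (by decide)
          (by decide +kernel)
    · exact card_torsion_dvd_cnt (ℓ := 3) Nat.prime_three (by decide) (by decide)
          (by decide +kernel)
  · refine Or.inr (Or.inr (Or.inr (Or.inr ⟨hprime 5 Nat.prime_five ?_, hq11⟩)))
    rw [hcard]
    rcases hE with rfl | rfl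
    · exact card_torsion_dvd_cnt (ℓ := 3) Nat.prime_three (by decide) (by decide)
          (by decide +kernel)
    · exact card_torsion_dvd_cnt (ℓ := 3) Nat.prime_three (by decide) (by decide)
          (by decide +kernel)

/-- The torsion subgroup has at most five elements. -/
theorem card_torsion_le_five (hΔ : W.Δ ≠ 0) (hW : W.IsSemistableModel) {q : ℕ} (hq : q.Prime)
    (hN : W.conductorLevel = q) : Nat.card (AddCommGroup.torsion (TQ W)) ≤ 5 := by
  rcases card_torsion_of_prime hΔ hW hq hN with h | ⟨h, -⟩ | ⟨h, -⟩ | ⟨h, -⟩ | ⟨h, -⟩ <;> omega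

/-! ### All the orders occur -/

/-- A point of finite order and its order. -/
theorem addOrderOf_dvd_card {G : Type*} [AddCommGroup G] {P : G} {n : ℕ} (hn : n ≠ 0)
    (hP : addOrderOf P = n) : n ∣ Nat.card (AddCommGroup.torsion G) := by
  have hfin : IsOfFinAddOrder P := addOrderOf_pos_iff.mp (by rw [hP]; omega)
  have h1 : addOrderOf (⟨P, hfin⟩ : AddCommGroup.torsion G) = n := by
    rw [← hP]
    exact (addOrderOf_injective (AddCommGroup.torsion G).subtype
      (AddCommGroup.torsion G).subtype_injective ⟨P, hfin⟩).symm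
  rw [← h1]
  exact addOrderOf_dvd_natCard _

theorem card_torsion_17a4 : Nat.card (AddCommGroup.torsion (TQ E17a4)) = 4 := by
  have h0 : (E17a4.map (Int.castRingHom ℚ)).toAffine.Nonsingular 0 0 := by
    rw [Affine.nonsingular_iff, Affine.equation_iff]
    simp [E17a4]
  have h1 : (E17a4.map (Int.castRingHom ℚ)).toAffine.Nonsingular 1 (-1) := by
    rw [Affine.nonsingular_iff, Affine.equation_iff]
    simp [E17a4]
    norm_num
  have hne : (0 : ℚ) ≠ (E17a4.map (Int.castRingHom ℚ)).toAffine.negY 0 0 := by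
    simp [E17a4, Affine.negY]
  have hs : (E17a4.map (Int.castRingHom ℚ)).toAffine.slope 0 0 0 0 = -1 := by
    rw [slope_of_Y_ne rfl hne]
    simp [E17a4, Affine.negY]
  have h2 : (2 : ℕ) • (Point.some 0 0 h0 : TQ E17a4) = Point.some 1 (-1) h1 := by
    rw [two_nsmul, Point.add_self_of_Y_ne hne, Point.some.injEq, hs]
    constructor
    · simp [E17a4, Affine.addX]
    · simp [E17a4, Affine.addY, Affine.negAddY, Affine.addX, Affine.negY]
  have h3 : addOrderOf (Point.some 1 (-1) h1 : TQ E17a4) = 2 :=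
    addOrderOf_eq_two h1 (by simp [E17a4, Affine.negY])
  have h4 : addOrderOf (Point.some 0 0 h0 : TQ E17a4) = 2 ^ (1 + 1) := by
    have : Fact (Nat.Prime 2) := ⟨Nat.prime_two⟩
    refine addOrderOf_eq_prime_pow ?_ ?_
    · rw [pow_one, h2]
      exact Point.some_ne_zero _
    · rw [pow_add, pow_one, mul_nsmul, h2, ← h3]
      exact addOrderOf_nsmul_eq_zero _
  refine Nat.dvd_antisymm (card_torsion_dvd_cnt (ℓ := 3) Nat.prime_three (by decide) (by decide)
    (by decide +kernel)) ?_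
  exact addOrderOf_dvd_card (by norm_num) (h4.trans (by norm_num))

theorem W37_facts : InvGal.W37.Δ ≠ 0 ∧ InvGal.W37.IsSemistableModel ∧
    InvGal.W37.conductorLevel = 37 :=
  facts_of_pow (by norm_num) one_ne_zero (by rw [InvGal.W37_Δ]; norm_num)
    (by rw [InvGal.W37_c₄]; norm_num)

theorem card_torsion_37a : Nat.card (AddCommGroup.torsion (TQ InvGal.W37)) = 1 := by
  have h7 : Nat.card (AddCommGroup.torsion (TQ InvGal.W37)) ∣ 7 :=
    card_torsion_dvd_cnt (ℓ := 3) Nat.prime_three (by decide) (by decide) (by decide +kernel)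
  have h8 : Nat.card (AddCommGroup.torsion (TQ InvGal.W37)) ∣ 8 :=
    card_torsion_dvd_cnt (ℓ := 5) Nat.prime_five (by decide) (by decide) (by decide +kernel)
  have h1 := Nat.dvd_gcd h7 h8
  exact Nat.dvd_one.mp (by simpa using h1)

/-- **The orders of the torsion subgroups of the semistable elliptic curves over `ℚ` of prime conductor are
exactly `1`, `2`, `3`, `4` and `5`.** -/
theorem exists_card_torsion_iff {n : ℕ} :
    (∃ (q : ℕ) (W : WeierstrassCurve ℤ), q.Prime ∧ W.Δ ≠ 0 ∧ W.IsSemistableModel ∧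
      W.conductorLevel = q ∧ Nat.card (AddCommGroup.torsion (TQ W)) = n) ↔ 1 ≤ n ∧ n ≤ 5 := by
  constructor
  · rintro ⟨q, W, hq, hΔ, hW, hN, rfl⟩
    rcases card_torsion_of_prime hΔ hW hq hN with h | ⟨h, -⟩ | ⟨h, -⟩ | ⟨h, -⟩ | ⟨h, -⟩ <;> omega
  · rintro ⟨h1, h5⟩
    interval_cases n
    · obtain ⟨h1, h2, h3⟩ := W37_facts
      exact ⟨37, _, by norm_num, h1, h2, h3, card_torsion_37a⟩
    · have hk : (4 * (-1 : ℤ) + 1) ^ 2 + 64 = ((73 : ℕ) : ℤ) := by norm_num
      have hq : Nat.Prime 73 := by norm_num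
      obtain ⟨h1, h2, h3⟩ := SN1_facts hq hk
      obtain ⟨P, hP⟩ := exists_point_two (-1)
      refine ⟨73, _, hq, h1, h2, h3, ?_⟩
      have hd := addOrderOf_dvd_card (by norm_num) hP
      rcases card_torsion_of_prime h1 h2 hq h3 with h | ⟨h, -⟩ | ⟨-, h⟩ | ⟨-, h⟩ | ⟨-, h⟩
      · rw [h] at hd
        norm_num at hd
      · exact h
      · omega
      · omega
      · omega
    · obtain ⟨h1, h2, h3⟩ := E19a3_facts
      obtain ⟨P, hP⟩ := exists_point_three_nineteen
      refine ⟨19, _, by norm_num, h1, h2, h3, Nat.dvd_antisymm ?_ (addOrderOf_dvd_card (by norm_num) hP)⟩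
      exact card_torsion_dvd_cnt (ℓ := 5) Nat.prime_five (by decide) (by decide) (by decide +kernel)
    · exact ⟨17, _, by norm_num, by rw [E17a4_Δ]; norm_num, E17a4_semistable,
        E17a4_conductorLevel, card_torsion_17a4⟩
    · obtain ⟨P, hP⟩ := exists_point_five
      refine ⟨11, _, by norm_num, E11a3_Δ_ne_zero, E11a3_semistable, E11a3_conductorLevel,
        Nat.dvd_antisymm ?_ (addOrderOf_dvd_card (by norm_num) hP)⟩
      exact card_torsion_dvd_cnt (ℓ := 3) Nat.prime_three (by decide) (by decide) (by decide +kernel)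

end Fermat.Agent.Cor.MO
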