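import Fermat.Agent.Corollaries.MO.Torsion
import Fermat.Agent.Corollaries.Table.Nineteen

/-!
# Rational torsion points on elliptic curves of prime conductor: the converse

For a prime `q` and a prime `p` there is a semistable elliptic curve over `ℚ` of conductor `q` with a
rational point of order `p` if and only if `p = 2` and `q = 17` or `q = a² + 64`, or `p = 3` and `q = 19`
or `q = 37`, or `p = 5` and `q = 11`. The points are `(1, -1)` on `17a4`, `(0, 0)` on the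
curve `y² + x y = x³ + k x² - x` (Neumann, Setzer), `(0, 0)` on `19a3`, `(1, 0)` on `37b3` and `(0, 0)` on `11a3`.
-/

set_option autoImplicit false

noncomputable section

open WeierstrassCurve WeierstrassCurve.Affine

namespace Fermat.Agent.Cor.MO

open Fermat.Agent.Cor.Table

/-- A point with `2 y + a₁ x + a₃ = 0` has order two. -/
theorem addOrderOf_eq_two {E : WeierstrassCurve ℚ} {x y : ℚ} (h : E.toAffine.Nonsingular x y)
    (hy : y = E.toAffine.negY x y) : addOrderOf (Point.some x y h) = 2 := by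
  have h2 : Fact (Nat.Prime 2) := ⟨Nat.prime_two⟩
  refine addOrderOf_eq_prime ?_ (Point.some_ne_zero _)
  rw [two_nsmul]
  exact Point.add_self_of_Y_eq hy

theorem exists_point_two (k : ℤ) :
    ∃ P : ((SN1 k).map (Int.castRingHom ℚ)).toAffine.Point, addOrderOf P = 2 := by
  have h : ((SN1 k).map (Int.castRingHom ℚ)).toAffine.Nonsingular 0 0 := by
    rw [Affine.nonsingular_iff, Affine.equation_iff]
    simp [SN1]
  exact ⟨Point.some 0 0 h, addOrderOf_eq_two h (by simp [SN1, Affine.negY])⟩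

theorem exists_point_two_seventeen :
    ∃ P : (E17a4.map (Int.castRingHom ℚ)).toAffine.Point, addOrderOf P = 2 := by
  have h : (E17a4.map (Int.castRingHom ℚ)).toAffine.Nonsingular 1 (-1) := by
    rw [Affine.nonsingular_iff, Affine.equation_iff]
    simp [E17a4]
    norm_num
  exact ⟨Point.some 1 (-1) h, addOrderOf_eq_two h (by simp [E17a4, Affine.negY])⟩

theorem exists_point_three_nineteen :
    ∃ P : (E19a3.map (Int.castRingHom ℚ)).toAffine.Point, addOrderOf P = 3 := by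
  have h : E19a3.map (Int.castRingHom ℚ) = V19 ℚ := by
    ext <;> simp [E19a3, V19]
  rw [h]
  have h3 : Fact (Nat.Prime 3) := ⟨Nat.prime_three⟩
  exact ⟨pt19 ℚ, addOrderOf_eq_prime (three_nsmul_pt19 ℚ) (Point.some_ne_zero _)⟩

/-- The curve `37b3` over `ℚ`. -/
def V37 : WeierstrassCurve ℚ := ⟨0, 1, 1, -3, 1⟩

theorem V37_nonsingular : V37.toAffine.Nonsingular 1 0 := by
  rw [Affine.nonsingular_iff, Affine.equation_iff]
  simp [V37]
  norm_num

/-- The point `(1, 0)` on `37b3`. -/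
def pt37 : V37.toAffine.Point := Point.some 1 0 V37_nonsingular

theorem pt37_add : pt37 + pt37 = -pt37 := by
  have hne : (0 : ℚ) ≠ V37.toAffine.negY 1 0 := by
    simp [V37, Affine.negY]
  have hs : V37.toAffine.slope 1 1 0 0 = 2 := by
    rw [slope_of_Y_ne rfl hne]
    simp [V37, Affine.negY]
  unfold pt37
  rw [Point.add_self_of_Y_ne hne, Point.neg_some, Point.some.injEq, hs]
  constructor
  · simp [V37, Affine.addX]
    norm_num
  · simp [V37, Affine.addY, Affine.negAddY, Affine.addX, Affine.negY]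
    norm_num

theorem exists_point_three_thirty_seven :
    ∃ P : (E37b3.map (Int.castRingHom ℚ)).toAffine.Point, addOrderOf P = 3 := by
  have h : E37b3.map (Int.castRingHom ℚ) = V37 := by
    ext <;> simp [E37b3, V37]
  rw [h]
  have h3 : Fact (Nat.Prime 3) := ⟨Nat.prime_three⟩
  refine ⟨pt37, addOrderOf_eq_prime ?_ (Point.some_ne_zero _)⟩
  have e : 3 • pt37 = (pt37 + pt37) + pt37 := by abel
  rw [e, pt37_add, neg_add_cancel]

theorem exists_point_five :
    ∃ P : (E11a3.map (Int.castRingHom ℚ)).toAffine.Point, addOrderOf P = 5 := by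
  have h : E11a3.map (Int.castRingHom ℚ) = Eleven.VF ℚ := by
    ext <;> simp [E11a3, Eleven.VF]
  rw [h]
  have h5 : Fact (Nat.Prime 5) := ⟨Nat.prime_five⟩
  exact ⟨Eleven.ptP ℚ, addOrderOf_eq_prime (Eleven.five_nsmul_ptP ℚ) (Eleven.ptP_ne_zero ℚ)⟩

/-- A prime `a² + 64` is `(4 k + 1)² + 64`. -/
theorem exists_four_mul {q : ℕ} (hq : q.Prime) {a : ℤ} (ha : (q : ℤ) = a ^ 2 + 64) :
    ∃ k : ℤ, (4 * k + 1) ^ 2 + 64 = (q : ℤ) := by
  have hodd : ¬ (2 : ℤ) ∣ a := by
    rintro ⟨c, rfl⟩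
    have h1 : (2 : ℤ) ∣ (q : ℤ) := ⟨2 * c ^ 2 + 32, by rw [ha]; ring⟩
    have h2 : 2 ∣ q := by exact_mod_cast h1
    have h3 := (Nat.prime_dvd_prime_iff_eq Nat.prime_two hq).mp h2
    subst h3
    have : 0 ≤ (2 * c) ^ 2 := sq_nonneg _
    push_cast at ha
    linarith
  obtain ⟨k, hk⟩ : ∃ k : ℤ, a = 4 * k + 1 ∨ a = -(4 * k + 1) := by
    rcases (by omega : a % 4 = 1 ∨ a % 4 = 3) with h | h
    · exact ⟨a / 4, Or.inl (by omega)⟩
    · exact ⟨-(a / 4) - 1, Or.inr (by omega)⟩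
  refine ⟨k, ?_⟩
  rw [ha]
  rcases hk with rfl | rfl <;> ring

/-- **The theorem of Miyawaki for prime conductor, with the converse.** For primes `q` and `p`, there is
a semistable elliptic curve over `ℚ` of conductor `q` with a rational point of order `p` if and only if
`p = 2` and `q = 17` or `q = a² + 64`, or `p = 3` and `q = 19` or `q = 37`, or `p = 5` and `q = 11`. -/
theorem miyawaki_iff {q : ℕ} (hq : q.Prime) {p : ℕ} (hp : p.Prime) :
    (∃ W : WeierstrassCurve ℤ, W.Δ ≠ 0 ∧ W.IsSemistableModel ∧ W.conductorLevel = q ∧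
      ∃ P : (W.map (Int.castRingHom ℚ)).toAffine.Point, addOrderOf P = p) ↔
    (p = 2 ∧ (q = 17 ∨ ∃ a : ℤ, (q : ℤ) = a ^ 2 + 64)) ∨ (p = 3 ∧ (q = 19 ∨ q = 37)) ∨
      (p = 5 ∧ q = 11) := by
  constructor
  · rintro ⟨W, hΔ, hW, hN, P, hP⟩
    exact miyawaki hΔ hW hq hN hp hP
  · rintro (⟨rfl, rfl | ⟨a, ha⟩⟩ | ⟨rfl, rfl | rfl⟩ | ⟨rfl, rfl⟩)
    · exact ⟨E17a4, by rw [E17a4_Δ]; norm_num, E17a4_semistable, E17a4_conductorLevel,
        exists_point_two_seventeen⟩
    · obtain ⟨k, hk⟩ := exists_four_mul hq ha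
      obtain ⟨h1, h2, h3⟩ := SN1_facts hq hk
      exact ⟨SN1 k, h1, h2, h3, exists_point_two k⟩
    · obtain ⟨h1, h2, h3⟩ := E19a3_facts
      exact ⟨E19a3, h1, h2, h3, exists_point_three_nineteen⟩
    · obtain ⟨h1, h2, h3⟩ := E37b3_facts
      exact ⟨E37b3, h1, h2, h3, exists_point_three_thirty_seven⟩
    · exact ⟨E11a3, E11a3_Δ_ne_zero, E11a3_semistable, E11a3_conductorLevel, exists_point_five⟩

/-- **Non-trivial torsion.** For a prime `q` there is a semistable elliptic curve over `ℚ` of conductor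
`q` with a rational point `≠ 0` of finite order if and only if `q` is one of `11`, `17`, `19`, `37` or
of the form `a² + 64`. -/
theorem exists_torsion_iff {q : ℕ} (hq : q.Prime) :
    (∃ W : WeierstrassCurve ℤ, W.Δ ≠ 0 ∧ W.IsSemistableModel ∧ W.conductorLevel = q ∧
      ∃ P : (W.map (Int.castRingHom ℚ)).toAffine.Point, P ≠ 0 ∧ IsOfFinAddOrder P) ↔
    q = 11 ∨ q = 17 ∨ q = 19 ∨ q = 37 ∨ ∃ a : ℤ, (q : ℤ) = a ^ 2 + 64 := by
  constructor
  · rintro ⟨W, hΔ, hW, hN, P, h0, hP⟩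
    by_contra hne
    simp only [not_or, not_exists] at hne
    exact h0 (torsion_eq_zero hΔ hW hq hN hne.1 hne.2.1 hne.2.2.1 hne.2.2.2.1 hne.2.2.2.2 hP)
  · intro h
    have key : ∃ p : ℕ, p.Prime ∧ ((p = 2 ∧ (q = 17 ∨ ∃ a : ℤ, (q : ℤ) = a ^ 2 + 64)) ∨
        (p = 3 ∧ (q = 19 ∨ q = 37)) ∨ (p = 5 ∧ q = 11)) := by
      rcases h with h | h | h | h | h
      · exact ⟨5, Nat.prime_five, Or.inr (Or.inr ⟨rfl, h⟩)⟩
      · exact ⟨2, Nat.prime_two, Or.inl ⟨rfl, Or.inl h⟩⟩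
      · exact ⟨3, Nat.prime_three, Or.inr (Or.inl ⟨rfl, Or.inl h⟩)⟩
      · exact ⟨3, Nat.prime_three, Or.inr (Or.inl ⟨rfl, Or.inr h⟩)⟩
      · exact ⟨2, Nat.prime_two, Or.inl ⟨rfl, Or.inr h⟩⟩
    obtain ⟨p, hp, hpq⟩ := key
    obtain ⟨W, hΔ, hW, hN, P, hP⟩ := (miyawaki_iff hq hp).mpr hpq
    refine ⟨W, hΔ, hW, hN, P, ?_, ?_⟩
    · rintro rfl
      rw [addOrderOf_zero] at hP
      exact hp.one_lt.ne hP
    · exact addOrderOf_pos_iff.mp (hP ▸ hp.pos)

end Fermat.Agent.Cor.MO
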