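import Fermat.Agent.Corollaries.MO.Odd
import Fermat.Agent.Corollaries.PP.Three
import Fermat.Agent.Corollaries.InvGal.Curve37

/-!
# The equations `xᵖ + yᵖ = z³` and `xᵖ + 3ᵏ yᵖ = z³` with `x`, `y` odd, every prime `p ≥ 5`

For even `c` and odd `t` the curve `Y² + c XY + t Y = X³` (helper65's `curveThree c t`) has good
reduction at `2` and three points over `𝔽₂`. Hence, if it is semistable, `W[p]` is irreducible for
**every** prime `p ≥ 5` (`curveThree_irreducible`), and the theorems of `PP/Three` hold for all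
primes `p ≥ 5` if `x` and `y` are odd:

* `no_solution_twentyseven`: `A xᵖ + 27 B yᵖ = z³`, `A x`, `B y` odd, `A x` prime to `3 B y`, the
  primes of `A B` dividing a level of genus zero: no solution;
* `pow_add_pow_ne_cube_odd` (Darmon - Merel): `xᵖ + yᵖ = z³`, `x`, `y` odd and coprime, `3 ∣ x y`:
  no solution;
* `pow_add_three_pow_ne_cube`: `xᵖ + 3ᵏ yᵖ = z³`, `k ≥ 3`, `x`, `y` odd, `x` prime to `3 y`: no
  solution;
* `cube_add_three_pow_ne_pow`: `z³ ± 3ᵏ ≠ xⁿ`, `k ≥ 3`, `x` prime to `6`, `n` with a prime factor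
  `p ≥ 5`.
-/

set_option autoImplicit false

noncomputable section

namespace Fermat.Agent.Cor.MO

open WeierstrassCurve Fermat.Agent.Cor.InvGal

/-! ### The prime two -/

theorem curveThree_good_two {c t : ℤ} (hc : (2 : ℤ) ∣ c) (ht : ¬ (2 : ℤ) ∣ t) :
    (curveThree c t).IsGoodPrimeFor 2 := by
  intro h
  rw [curveThree_Δ] at h
  have h2 : (2 : ℤ) ∣ t ^ 3 * (c ^ 3 - 27 * t) := by exact_mod_cast h
  rcases Int.prime_two.dvd_or_dvd h2 with h3 | h3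
  · exact ht (Int.prime_two.dvd_of_dvd_pow h3)
  · have h4 : (2 : ℤ) ∣ c ^ 3 := dvd_pow hc three_ne_zero
    omega

theorem count_three : ∀ b : ZMod 2, b ≠ 0 →
    (Finset.univ.filter fun p : ZMod 2 × ZMod 2 =>
      p.2 ^ 2 + 0 * p.1 * p.2 + b * p.2 = p.1 ^ 3 + 0 * p.1 ^ 2 + 0 * p.1 + 0).card = 2 := by
  decide

/-- The curve has three points modulo `2`. -/
theorem curveThree_ap_two {c t : ℤ} (hc : (2 : ℤ) ∣ c) (ht : ¬ (2 : ℤ) ∣ t) :
    (curveThree c t).apOfModel 2 = 0 := by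
  have h1 : ((t : ℤ) : ZMod 2) ≠ 0 := by
    intro h
    exact ht (by exact_mod_cast (ZMod.intCast_zmod_eq_zero_iff_dvd t 2).mp h)
  have hc' : ((c : ℤ) : ZMod 2) = 0 := (ZMod.intCast_zmod_eq_zero_iff_dvd c 2).mpr
    (by exact_mod_cast hc)
  have h3 : cnt (curveThree c t) 2 = 2 := by
    simp only [cnt, curveThree, Int.cast_zero, hc']
    exact count_three _ h1
  rw [apOfModel_eq (curveThree c t) Nat.prime_two (curveThree_good_two hc ht), h3]
  norm_num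

/-- **`W[p]` is irreducible for every prime `p ≥ 5`**, `W = curveThree c t` semistable, `c` even
and `t` odd. -/
theorem curveThree_irreducible {c t : ℤ} (hc : (2 : ℤ) ∣ c) (ht : ¬ (2 : ℤ) ∣ t)
    (h0 : (curveThree c t).Δ ≠ 0) (hss : (curveThree c t).IsSemistableModel) {p : ℕ}
    (hp : p.Prime) (hp5 : 5 ≤ p) : (curveThree c t).ModRepIsIrreducible p := by
  by_contra hred
  have h1 := HW.dvd_of_reducible h0 hss hp (by omega) hred Nat.prime_two
    (curveThree_good_two hc ht) (by omega)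
  rw [curveThree_ap_two hc ht] at h1
  have h3 : p ∣ 3 := by exact_mod_cast (by simpa using h1 : (p : ℤ) ∣ 3)
  exact absurd (Nat.le_of_dvd (by norm_num) h3) (by omega)

/-! ### The equation `a + 27 t = c³` -/

/-- **The key statement**, every prime `p ≥ 5`: `a + 27 t = c³` with `a`, `t` odd, `a` prime to
`3 t`: for every level `L` of genus zero there is a prime `q ∤ L` with `p ∤ v_q(t³ a)`. -/
theorem exists_prime_twentyseven {p : ℕ} (hp : p.Prime) (hp5 : 5 ≤ p) {a t c : ℤ}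
    (h : a + 27 * t = c ^ 3) (hat : IsCoprime a (27 * t)) (ha : ¬ (2 : ℤ) ∣ a)
    (ht : ¬ (2 : ℤ) ∣ t) {L : ℕ} (hL : L ∈ zeroLevels) :
    ∃ q : ℕ, q.Prime ∧ ¬ q ∣ L ∧ ¬ p ∣ padicValInt q (t ^ 3 * a) := by
  have ha0 : a ≠ 0 := fun h0 => ha (h0 ▸ dvd_zero _)
  have ht0 : t ≠ 0 := fun h0 => ht (h0 ▸ dvd_zero _)
  have hc : (2 : ℤ) ∣ c := Int.prime_two.dvd_of_dvd_pow (n := 3) (by omega)
  have ha' : a = c ^ 3 - 27 * t := by rw [← h]; ring
  have hΔ : (curveThree c t).Δ = t ^ 3 * a := by rw [curveThree_Δ, ← ha']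
  have hΔ0 : (curveThree c t).Δ ≠ 0 := by
    rw [hΔ]; exact mul_ne_zero (pow_ne_zero _ ht0) ha0
  have hss : (curveThree c t).IsSemistableModel := curveThree_semistable (by rwa [← ha'])
  obtain ⟨q, h1, -, h2, h3⟩ := exists_prime_not_dvd_of_mem hΔ0 hss hp (by omega)
    (curveThree_irreducible hc ht hΔ0 hss hp hp5) hL
  exact ⟨q, h1, h2, by rwa [hΔ] at h3⟩

/-- **The equation `A xᵖ + 27 B yᵖ = z³`** with `A x`, `B y` odd, `A x` prime to `3 B y`, the primes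
of `A B` dividing a level `L` of genus zero: no solution, every prime `p ≥ 5`. -/
theorem no_solution_twentyseven {p : ℕ} (hp : p.Prime) (hp5 : 5 ≤ p) {A B x y z : ℤ}
    (h : A * x ^ p + 27 * (B * y ^ p) = z ^ 3) (hcop : IsCoprime (A * x) (B * y))
    (h3 : ¬ (3 : ℤ) ∣ A * x) (hx : ¬ (2 : ℤ) ∣ A * x) (hy : ¬ (2 : ℤ) ∣ B * y) {L : ℕ}
    (hL : L ∈ zeroLevels) (hA : ∀ q : ℕ, q.Prime → (q : ℤ) ∣ A → q ∣ L)
    (hB : ∀ q : ℕ, q.Prime → (q : ℤ) ∣ B → q ∣ L) : False := by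
  have hx0 : A * x ≠ 0 := fun h0 => hx (h0 ▸ dvd_zero _)
  have hy0 : B * y ≠ 0 := fun h0 => hy (h0 ▸ dvd_zero _)
  have hdvd : ∀ r C w : ℤ, Prime r → ¬ r ∣ C * w → ¬ r ∣ C * w ^ p := by
    intro r C w hr hw h1
    rcases hr.dvd_or_dvd h1 with h2 | h2
    · exact hw (h2.mul_right _)
    · exact hw ((hr.dvd_of_dvd_pow h2).mul_left _)
  have hcop' : IsCoprime (A * x ^ p) (B * y ^ p) := by
    have h1 : IsCoprime ((A * x) ^ p) ((B * y) ^ p) := hcop.pow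
    refine (h1.of_isCoprime_of_dvd_left ?_).of_isCoprime_of_dvd_right ?_
    · rw [mul_pow]; exact mul_dvd_mul_right (dvd_pow_self A hp.ne_zero) _
    · rw [mul_pow]; exact mul_dvd_mul_right (dvd_pow_self B hp.ne_zero) _
  have hc27 : IsCoprime (A * x ^ p) 27 := by
    have h4 : IsCoprime (3 : ℤ) (A * x ^ p) :=
      (Int.prime_three.irreducible.coprime_iff_not_dvd).mpr (hdvd 3 A x Int.prime_three h3)
    have h5 : IsCoprime ((3 : ℤ) ^ 3) (A * x ^ p) := h4.pow_left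
    have h6 : ((3 : ℤ) ^ 3) = 27 := by norm_num
    rw [h6] at h5
    exact h5.symm
  obtain ⟨q, hq, hqL, hv⟩ := exists_prime_twentyseven hp hp5 h (hc27.mul_right hcop')
    (hdvd 2 A x Int.prime_two hx) (hdvd 2 B y Int.prime_two hy) hL
  apply hv
  have : Fact q.Prime := ⟨hq⟩
  have hA0 := left_ne_zero_of_mul hx0
  have hx1 := right_ne_zero_of_mul hx0
  have hB0 := left_ne_zero_of_mul hy0
  have hy1 := right_ne_zero_of_mul hy0
  have key : ∀ C w : ℤ, C ≠ 0 → w ≠ 0 → (∀ q : ℕ, q.Prime → (q : ℤ) ∣ C → q ∣ L) →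
      p ∣ padicValInt q (C * w ^ p) := by
    intro C w hC hw hCL
    refine dvd_padicValInt_mul_pow_of_dvd hq hC hw ?_
    rw [padicValInt.eq_zero_of_not_dvd fun h => hqL (hCL q hq h)]
    exact dvd_zero p
  rw [padicValInt.mul (pow_ne_zero _ (mul_ne_zero hB0 (pow_ne_zero _ hy1)))
    (mul_ne_zero hA0 (pow_ne_zero _ hx1)), padicValInt_pow_eq]
  exact dvd_add ((key B y hB0 hy1 hB).mul_left 3) (key A x hA0 hx1 hA)

/-- **`xᵖ + 3ᵏ yᵖ = z³`**, `k ≥ 3`, `x`, `y` odd and coprime, `3 ∤ x`: no solution, every prime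
`p ≥ 5`. -/
theorem pow_add_three_pow_ne_cube {p : ℕ} (hp : p.Prime) (hp5 : 5 ≤ p) {x y : ℤ}
    (hxy : IsCoprime x y) (h3 : ¬ (3 : ℤ) ∣ x) (hx : Odd x) (hy : Odd y) {k : ℕ} (hk : 3 ≤ k)
    (z : ℤ) : x ^ p + 3 ^ k * y ^ p ≠ z ^ 3 := by
  intro h
  obtain ⟨j, rfl⟩ : ∃ j, k = j + 3 := ⟨k - 3, by omega⟩
  refine no_solution_twentyseven (A := 1) (B := 3 ^ j) (L := 3) hp hp5 (x := x) (y := y) (z := z)
    (by rw [← h, pow_add]; ring) ?_ (by rwa [one_mul]) ?_ ?_ (by decide) (fun q _ h1 => ?_)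
    (fun q hq h1 => ?_)
  · rw [one_mul]
    exact (((Int.prime_three.irreducible.coprime_iff_not_dvd).mpr h3).symm.pow_right).mul_right hxy
  · rw [one_mul, ← even_iff_two_dvd, Int.not_even_iff_odd]
    exact hx
  · rw [← even_iff_two_dvd, Int.not_even_iff_odd]
    exact (Odd.pow (by decide)).mul hy
  · have h4 : q ∣ 1 := by exact_mod_cast h1
    exact h4.trans (one_dvd _)
  · have h4 := (Nat.prime_iff_prime_int.mp hq).dvd_of_dvd_pow h1
    exact_mod_cast h4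

/-- **`xᵖ + 27 ℓᵐ yᵖ = z³`**, `ℓ ∈ {5, 7, 13}`, `x`, `y` odd, `x` prime to `3 ℓ y`: no solution,
every prime `p ≥ 5` and every `m`. -/
theorem pow_add_twentyseven_mul_ne_cube {p : ℕ} (hp : p.Prime) (hp5 : 5 ≤ p) {ℓ : ℕ}
    (hℓ : ℓ = 5 ∨ ℓ = 7 ∨ ℓ = 13) {x y : ℤ} (hxy : IsCoprime x ((ℓ : ℤ) * y))
    (h3 : ¬ (3 : ℤ) ∣ x) (hx : Odd x) (hy : Odd y) (m : ℕ) (z : ℤ) :
    x ^ p + 27 * ((ℓ : ℤ) ^ m * y ^ p) ≠ z ^ 3 := by
  intro h
  have hℓo : Odd (ℓ : ℤ) := by rcases hℓ with rfl | rfl | rfl <;> decide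
  have hL : ℓ ∈ zeroLevels := by rcases hℓ with rfl | rfl | rfl <;> decide
  refine no_solution_twentyseven (A := 1) (B := (ℓ : ℤ) ^ m) (L := ℓ) hp hp5 (x := x) (y := y)
    (z := z) (by rw [one_mul]; exact h) ?_ (by rwa [one_mul]) ?_ ?_ hL (fun q _ h1 => ?_)
    (fun q hq h1 => ?_)
  · rw [one_mul]
    exact (hxy.of_mul_right_left.pow_right).mul_right hxy.of_mul_right_right
  · rw [one_mul, ← even_iff_two_dvd, Int.not_even_iff_odd]
    exact hx
  · rw [← even_iff_two_dvd, Int.not_even_iff_odd]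
    exact (hℓo.pow).mul hy
  · have h4 : q ∣ 1 := by exact_mod_cast h1
    exact h4.trans (one_dvd _)
  · have h4 := (Nat.prime_iff_prime_int.mp hq).dvd_of_dvd_pow h1
    exact_mod_cast h4

/-- **`xᵖ + yᵖ = z³`, `x`, `y` odd and coprime, `3 ∣ x y`** (Darmon - Merel): no solution, every
prime `p ≥ 5`. -/
theorem pow_add_pow_ne_cube_odd {p : ℕ} (hp : p.Prime) (hp5 : 5 ≤ p) {x y : ℤ}
    (hxy : IsCoprime x y) (hx : Odd x) (hy : Odd y) (h3 : (3 : ℤ) ∣ x * y) (z : ℤ) :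
    x ^ p + y ^ p ≠ z ^ 3 := by
  have key : ∀ x y : ℤ, IsCoprime x y → Odd x → Odd y → (3 : ℤ) ∣ y → x ^ p + y ^ p ≠ z ^ 3 := by
    rintro x _ hxy hx hy ⟨w, rfl⟩ h
    have hw : Odd w := (Int.odd_mul.mp hy).2
    refine pow_add_three_pow_ne_cube hp hp5 (x := x) (y := w) hxy.of_mul_right_right (fun h1 => ?_)
      hx hw (k := p) (by omega) z (by rw [← h, mul_pow])
    exact Int.prime_three.not_isUnit (hxy.isUnit_of_dvd' h1 (dvd_mul_right 3 w))
  rcases Int.prime_three.dvd_or_dvd h3 with h | h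
  · intro h1
    exact key y x hxy.symm hy hx h (by rw [add_comm]; exact h1)
  · exact key x y hxy hx hy h

/-- The same for all exponents `n` with a prime factor `p ≥ 5`. -/
theorem pow_add_pow_ne_cube_odd_of_dvd {p n : ℕ} (hp : p.Prime) (hp5 : 5 ≤ p) (hn : p ∣ n)
    (hn0 : n ≠ 0) {x y : ℤ} (hxy : IsCoprime x y) (hx : Odd x) (hy : Odd y)
    (h3 : (3 : ℤ) ∣ x * y) (z : ℤ) : x ^ n + y ^ n ≠ z ^ 3 := by
  obtain ⟨m, rfl⟩ := hn
  have hm : m ≠ 0 := right_ne_zero_of_mul hn0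
  rw [mul_comm, pow_mul, pow_mul]
  refine pow_add_pow_ne_cube_odd hp hp5 hxy.pow hx.pow hy.pow ?_ z
  rw [← mul_pow]
  exact h3.trans (dvd_pow_self _ hm)

/-- **`z³ ± 3ᵏ ≠ xⁿ`**, `k ≥ 3`, `x` prime to `6`, `n ≠ 0` with a prime factor `p ≥ 5`. -/
theorem cube_add_three_pow_ne_pow {p n : ℕ} (hp : p.Prime) (hp5 : 5 ≤ p) (hn : p ∣ n) {x : ℤ}
    (hx : Odd x) (h3 : ¬ (3 : ℤ) ∣ x) {k : ℕ} (hk : 3 ≤ k) (z : ℤ) :
    z ^ 3 + 3 ^ k ≠ x ^ n ∧ z ^ 3 - 3 ^ k ≠ x ^ n := by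
  obtain ⟨m, rfl⟩ := hn
  have hpo : Odd p := hp.odd_of_ne_two (by omega)
  have h3' : ¬ (3 : ℤ) ∣ x ^ m := fun h => h3 (Int.prime_three.dvd_of_dvd_pow h)
  constructor
  · intro h
    refine pow_add_three_pow_ne_cube hp hp5 (x := x ^ m) (y := -1) isCoprime_one_right.neg_right
      h3' hx.pow (by decide) hk z ?_
    rw [← pow_mul, mul_comm m p, ← h, hpo.neg_one_pow]
    ring
  · intro h
    refine pow_add_three_pow_ne_cube hp hp5 (x := x ^ m) (y := 1) isCoprime_one_right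
      h3' hx.pow odd_one hk z ?_
    rw [← pow_mul, mul_comm m p, ← h, one_pow]
    ring

end Fermat.Agent.Cor.MO

end
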